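import Fermat.Agent.Tau.MatrixClasses
import Mathlib.Data.ZMod.Basic

/-!
# The local factors at `2` and `3`

For the discriminant `D = t² - 4 n` the factor at `q` is `2` if `X² - t X + n` has no root modulo
`q`, `1` if it has one modulo `q` but none modulo `q²`, and `0` otherwise; so it is
`1 - (D / q)` if `q` does not divide the conductor and `0` if it does.
-/

set_option autoImplicit false
set_option linter.unusedSectionVars false
set_option linter.style.haveILetI false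

noncomputable section

namespace FA.QuaternionClasses

/-- The local factor at `2`. -/
def factorTwo (D : ℤ) : ℕ := if D % 8 = 5 then 2 else if D % 16 = 8 ∨ D % 16 = 12 then 1 else 0

/-- The local factor at `3`. -/
def factorThree (D : ℤ) : ℕ := if D % 3 = 2 then 2 else if D % 9 = 3 ∨ D % 9 = 6 then 1 else 0

/-- The product of the local factors. -/
def eps (D : ℤ) : ℕ := factorTwo D * factorThree D

/-- The content of a form. -/
def formContent (f : ℤ × ℤ × ℤ) : ℕ := Int.gcd (Int.gcd f.1 f.2.1) f.2.2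

/-- The factor of a form: that of the discriminant of its primitive form. -/
def formEps (f : ℤ × ℤ × ℤ) : ℕ := eps (FA.Singular.disc f / (formContent f : ℤ) ^ 2)

/-- The values of the Lucas sequence: `lucas t n i` is the sum of `λ ^ j μ ^ (i - j)`, where
`λ` and `μ` are the roots of `X² - t X + n`. -/
def lucas (t n : ℤ) : ℕ → ℤ
  | 0 => 1
  | 1 => t
  | i + 2 => t * lucas t n (i + 1) - n * lucas t n i

/-- The monic quadratic at an integer. -/
def charVal (t n a : ℤ) : ℤ := n - a * t + a ^ 2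

theorem emod_eq_val (x : ℤ) (m : ℕ) [NeZero m] : x % m = ((x : ZMod m).val : ℤ) :=
  (ZMod.val_intCast x).symm

theorem two_cases (t n : ℤ) :
    ((t ^ 2 - 4 * n) % 8 = 5 ↔ ∀ a, ¬(2 : ℤ) ∣ charVal t n a) ∧
      (((t ^ 2 - 4 * n) % 8 = 5 ∨ (t ^ 2 - 4 * n) % 16 = 8 ∨ (t ^ 2 - 4 * n) % 16 = 12) ↔
        ∀ a, ¬(4 : ℤ) ∣ charVal t n a) := by
  have key : ∀ u v : ZMod 16,
      ((u ^ 2 - 4 * v).val % 8 = 5 ↔ ∀ a : ZMod 16, (v - a * u + a ^ 2).val % 2 ≠ 0) ∧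
      (((u ^ 2 - 4 * v).val % 8 = 5 ∨ (u ^ 2 - 4 * v).val = 8 ∨ (u ^ 2 - 4 * v).val = 12) ↔
        ∀ a : ZMod 16, (v - a * u + a ^ 2).val % 4 ≠ 0) := by decide
  obtain ⟨k1, k2⟩ := key (t : ZMod 16) (n : ZMod 16)
  have hD : ((t : ZMod 16) ^ 2 - 4 * n) = ((t ^ 2 - 4 * n : ℤ) : ZMod 16) := by push_cast; rfl
  have hN : ∀ a : ℤ, ((n : ZMod 16) - (a : ZMod 16) * t + (a : ZMod 16) ^ 2) =
      ((charVal t n a : ℤ) : ZMod 16) := fun a => by rw [charVal]; push_cast; rfl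
  have hv := emod_eq_val (t ^ 2 - 4 * n) 16
  rw [← hD] at hv
  push_cast at hv
  have hall : ∀ q : ℕ, q ∣ 16 → ((∀ a : ZMod 16, ((n : ZMod 16) - a * t + a ^ 2).val % q ≠ 0) ↔
      ∀ a : ℤ, ¬(q : ℤ) ∣ charVal t n a) := fun q hq => by
    have hval : ∀ a : ℤ, ((q : ℤ) ∣ charVal t n a ↔
        ((n : ZMod 16) - (a : ZMod 16) * t + (a : ZMod 16) ^ 2).val % q = 0) := fun a => by
      rw [hN, ← Nat.dvd_iff_mod_eq_zero, ← Int.natCast_dvd_natCast, ZMod.val_intCast,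
        Int.emod_def]
      exact (dvd_sub_left ((Int.natCast_dvd_natCast.2 hq).mul_right _)).symm
    refine ⟨fun h a hd => h (a : ZMod 16) ((hval a).1 hd),
      fun h a hd => h a.val ((hval a.val).2 ?_)⟩
    simpa using hd
  rw [hall 2 (by norm_num)] at k1
  rw [hall 4 (by norm_num)] at k2
  refine ⟨Iff.trans ?_ k1, Iff.trans ?_ k2⟩ <;> omega

theorem three_cases (t n : ℤ) :
    ((t ^ 2 - 4 * n) % 3 = 2 ↔ ∀ a, ¬(3 : ℤ) ∣ charVal t n a) ∧
      (((t ^ 2 - 4 * n) % 3 = 2 ∨ (t ^ 2 - 4 * n) % 9 = 3 ∨ (t ^ 2 - 4 * n) % 9 = 6) ↔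
        ∀ a, ¬(9 : ℤ) ∣ charVal t n a) := by
  have key : ∀ u v : ZMod 9,
      ((u ^ 2 - 4 * v).val % 3 = 2 ↔ ∀ a : ZMod 9, (v - a * u + a ^ 2).val % 3 ≠ 0) ∧
      (((u ^ 2 - 4 * v).val % 3 = 2 ∨ (u ^ 2 - 4 * v).val = 3 ∨ (u ^ 2 - 4 * v).val = 6) ↔
        ∀ a : ZMod 9, (v - a * u + a ^ 2).val % 9 ≠ 0) := by decide
  obtain ⟨k1, k2⟩ := key (t : ZMod 9) (n : ZMod 9)
  have hD : ((t : ZMod 9) ^ 2 - 4 * n) = ((t ^ 2 - 4 * n : ℤ) : ZMod 9) := by push_cast; rfl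
  have hN : ∀ a : ℤ, ((n : ZMod 9) - (a : ZMod 9) * t + (a : ZMod 9) ^ 2) =
      ((charVal t n a : ℤ) : ZMod 9) := fun a => by rw [charVal]; push_cast; rfl
  have hv := emod_eq_val (t ^ 2 - 4 * n) 9
  rw [← hD] at hv
  push_cast at hv
  have hall : ∀ q : ℕ, q ∣ 9 → ((∀ a : ZMod 9, ((n : ZMod 9) - a * t + a ^ 2).val % q ≠ 0) ↔
      ∀ a : ℤ, ¬(q : ℤ) ∣ charVal t n a) := fun q hq => by
    have hval : ∀ a : ℤ, ((q : ℤ) ∣ charVal t n a ↔
        ((n : ZMod 9) - (a : ZMod 9) * t + (a : ZMod 9) ^ 2).val % q = 0) := fun a => by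
      rw [hN, ← Nat.dvd_iff_mod_eq_zero, ← Int.natCast_dvd_natCast, ZMod.val_intCast,
        Int.emod_def]
      exact (dvd_sub_left ((Int.natCast_dvd_natCast.2 hq).mul_right _)).symm
    refine ⟨fun h a hd => h (a : ZMod 9) ((hval a).1 hd),
      fun h a hd => h a.val ((hval a.val).2 ?_)⟩
    simpa using hd
  rw [hall 3 (by norm_num)] at k1
  rw [hall 9 (by norm_num)] at k2
  refine ⟨Iff.trans ?_ k1, Iff.trans ?_ k2⟩ <;> omega

/-- Whether the ramified prime `q` is inert in the order of `X² - t X + n`. -/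
def Inert (t n : ℤ) (q : ℕ) : Prop := ∀ a, ¬(q : ℤ) ∣ charVal t n a

/-- Whether the order of `X² - t X + n` embeds at the ramified prime `q`. -/
def Adm (t n : ℤ) (q : ℕ) : Prop := ∀ a, ¬(q : ℤ) ^ 2 ∣ charVal t n a

open scoped Classical in
/-- The possible contents. -/
def contents (t n : ℤ) : Finset ℕ :=
  if Adm t n 2 ∧ Adm t n 3 then
    (Nat.divisors 6).filter fun d => (2 ∣ d → Inert t n 2) ∧ (3 ∣ d → Inert t n 3)
  else ∅

theorem card_contents (t n : ℤ) : (contents t n).card = eps (t ^ 2 - 4 * n) := by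
  classical
  obtain ⟨i2, a2⟩ := two_cases t n
  obtain ⟨i3, a3⟩ := three_cases t n
  have hA2 : Adm t n 2 ↔ ((t ^ 2 - 4 * n) % 8 = 5 ∨ (t ^ 2 - 4 * n) % 16 = 8 ∨
      (t ^ 2 - 4 * n) % 16 = 12) := by rw [a2, Adm]; norm_num
  have hA3 : Adm t n 3 ↔ ((t ^ 2 - 4 * n) % 3 = 2 ∨ (t ^ 2 - 4 * n) % 9 = 3 ∨
      (t ^ 2 - 4 * n) % 9 = 6) := by rw [a3, Adm]; norm_num
  have hI2 : Inert t n 2 ↔ (t ^ 2 - 4 * n) % 8 = 5 := by rw [i2, Inert]; norm_num
  have hI3 : Inert t n 3 ↔ (t ^ 2 - 4 * n) % 3 = 2 := by rw [i3, Inert]; norm_num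
  simp only [contents, eps, factorTwo, factorThree, hA2, hA3, hI2, hI3]
  have hd : Nat.divisors 6 = {1, 2, 3, 6} := by decide
  rw [hd]
  by_cases p2 : (t ^ 2 - 4 * n) % 8 = 5 <;> by_cases p3 : (t ^ 2 - 4 * n) % 3 = 2 <;>
    simp [p2, p3, Finset.filter_insert, Finset.filter_singleton] <;>
    split_ifs <;> simp_all

end FA.QuaternionClasses

end
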