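import Fermat.Agent.QuaternionClasses.Frames

/-!
# Elements, matrices and contents

The matrix of a frame is unique up to conjugation by `SL₂(ℤ)` and primitive, the content is one of
`contents t n`, and two primitive elements with the same matrix and content are conjugate by a
unit of norm one.
-/

set_option autoImplicit false
set_option linter.unusedSectionVars false
set_option linter.style.haveILetI false

noncomputable section

open Matrix
open scoped MatrixGroups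
open FA.Horocycle FA.QuaternionHecke FA.QuaternionNormalizer FA.MatrixClasses
open FA.ClassRelation (Mat)

namespace FA.QuaternionClasses

/-- Primitive integral matrices. -/
def PrimM (M : Mat) : Prop := formContent (formOf M) = 1

theorem primM_iff (M : Mat) : PrimM M ↔ ∀ q : ℕ, q.Prime → ¬((q : ℤ) ∣ M 1 0 ∧
    (q : ℤ) ∣ M 1 1 - M 0 0 ∧ (q : ℤ) ∣ M 0 1) := by
  unfold PrimM formContent formOf
  refine ⟨fun h q hq ⟨h1, h2, h3⟩ => hq.one_lt.ne' (Nat.dvd_one.1 ?_), fun h => ?_⟩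
  · rw [← h, ← Int.natCast_dvd_natCast]
    exact Int.dvd_coe_gcd (Int.dvd_coe_gcd h1 h2) (dvd_neg.2 h3)
  · by_contra hne
    obtain ⟨q, hq, hd⟩ := Nat.exists_prime_and_dvd hne
    have hd' := Int.natCast_dvd_natCast.2 hd
    exact h q hq ⟨(hd'.trans (Int.gcd_dvd_left _ _)).trans (Int.gcd_dvd_left _ _),
      (hd'.trans (Int.gcd_dvd_left _ _)).trans (Int.gcd_dvd_right _ _),
      dvd_neg.1 (hd'.trans (Int.gcd_dvd_right _ _))⟩

theorem corner_ne {M : Mat} {t n : ℤ} (ht : M.trace = t) (hn : M.det = n)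
    (hD : t ^ 2 - 4 * n < 0) : M 1 0 ≠ 0 := fun h => by
  rw [Matrix.trace_fin_two] at ht
  rw [Matrix.det_fin_two, h, mul_zero, sub_zero] at hn
  subst ht hn
  nlinarith [sq_nonneg (M 0 0 - M 1 1)]

theorem comb_comb (y₁ y₂ : RMat) (a b c d p r : ℤ) :
    comb (comb y₁ y₂ a c) (comb y₁ y₂ b d) p r = comb y₁ y₂ (a * p + b * r) (c * p + d * r) := by
  simp only [comb, smul_add, smul_smul]
  push_cast
  simp only [add_smul, mul_comm (p : ℝ), mul_comm (r : ℝ)]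
  abel

theorem adjugate_rev {t : ℤ} {x₀ y₁ y₂ : RMat} (ht : x₀.trace = (t : ℝ)) {A B : ℤ}
    (h : adjugate y₁ * y₂ = lin A B x₀) : adjugate y₂ * y₁ = lin (A + t * B) (-B) x₀ := by
  have e := congrArg Matrix.adjugate h
  rw [Matrix.adjugate_mul_distrib] at e
  have hadj : adjugate (adjugate y₁) = y₁ := by
    ext i j
    fin_cases i <;> fin_cases j <;> simp [adjugate_fin_two]
  rw [hadj, adjugate_eq (trace_lin ht A B)] at e
  rw [e, lin, lin]
  push_cast
  module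

theorem inert_dvd {t n : ℤ} {q : ℕ} (hq : q.Prime) (h : Inert t n q) {A B : ℤ}
    (hd : (q : ℤ) ∣ A ^ 2 + t * A * B + n * B ^ 2) : (q : ℤ) ∣ A ∧ (q : ℤ) ∣ B := by
  have hqp := Nat.prime_iff_prime_int.1 hq
  have hB : (q : ℤ) ∣ B := by
    by_contra hB
    obtain ⟨u, v, huv⟩ := (Prime.coprime_iff_not_dvd hqp).2 hB
    refine h (-A * v) ?_
    have e : charVal t n (-A * v) =
        v ^ 2 * (A ^ 2 + t * A * B + n * B ^ 2) +
          (u * (q : ℤ)) * (n * (1 + v * B) + A * t * v) := by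
      rw [show u * (q : ℤ) = 1 - v * B by linarith, charVal]
      ring
    rw [e]
    exact dvd_add (hd.mul_left _) ((dvd_mul_left _ u).mul_right _)
  refine ⟨hqp.dvd_of_dvd_pow (n := 2) ?_, hB⟩
  have e : A ^ 2 = (A ^ 2 + t * A * B + n * B ^ 2) - B * (t * A + n * B) := by ring
  rw [e]
  exact dvd_sub hd (hB.mul_right _)

section

variable {t n : ℤ} {x₀ x : OrdTN t n}

theorem prim_charVal (hp : Prim (x : RMat)) {q : ℕ} (hq : q = 2 ∨ q = 3) : Adm t n q :=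
  fun a h => by
  have hqp : q.Prime := by rcases hq with rfl | rfl <;> norm_num
  refine hp q hqp a (div_mem_prime hq (sub_mem x.2.1 (intCast_smul_mem (one_mem _) a))
    (N := charVal t n a) ?_ h)
  have e := det_lin x.2.2.1 x.2.2.2 (-a) 1
  simp only [lin, Int.cast_neg, neg_smul, Int.cast_one, one_smul] at e
  rw [sub_eq_neg_add, e, charVal]
  push_cast
  ring

variable (hD : t ^ 2 - 4 * n < 0) {y₁ y₂ : RMat}

include hD in
/-- **The norm form on a frame has the content as greatest common divisor.** -/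
theorem exists_bezout (hp : Prim (x : RMat)) (hp₀ : Prim (x₀ : RMat))
    (hf : IsFrame (x₀ : RMat) x y₁ y₂) {d : ℕ} (hd : IsContent (x₀ : RMat) x d) :
    ∃ N₁ N₂ T u v w : ℤ, y₁.det = N₁ ∧ y₂.det = N₂ ∧ (adjugate y₁ * y₂).trace = T ∧
      (d : ℤ) = u * N₁ + v * T + w * N₂ ∧ (d : ℤ) ∣ N₁ ∧ (d : ℤ) ∣ T ∧ (d : ℤ) ∣ N₂ := by
  obtain ⟨N₁, h1⟩ := exists_det hf.fst.1
  obtain ⟨N₂, h2⟩ := exists_det hf.snd.1
  obtain ⟨T, hT⟩ := exists_trace (mul_mem (adjugate_mem hf.fst.1) hf.snd.1)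
  have hform : ∀ p r : ℤ, (comb y₁ y₂ p r).det =
      ((N₁ * p ^ 2 + T * p * r + N₂ * r ^ 2 : ℤ) : ℝ) := fun p r => by
    push_cast
    rw [← h1, ← h2, ← hT]
    simp [comb, det_fin_two, adjugate_fin_two, trace_fin_two, Matrix.vecMul, dotProduct]
    ring
  set g := Int.gcd (Int.gcd N₁ T) N₂ with hg
  have g1 : (g : ℤ) ∣ N₁ := (Int.gcd_dvd_left _ _).trans (Int.gcd_dvd_left _ _)
  have g2 : (g : ℤ) ∣ T := (Int.gcd_dvd_left _ _).trans (Int.gcd_dvd_right _ _)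
  have g3 : (g : ℤ) ∣ N₂ := Int.gcd_dvd_right _ _
  have gall : ∀ h, Inter (x₀ : RMat) x h → ∀ N : ℤ, h.det = (N : ℝ) → (g : ℤ) ∣ N :=
    fun h hh N hN => by
    obtain ⟨p, r, rfl⟩ := hf.span h hh
    rw [hform, Int.cast_inj] at hN
    exact hN ▸ dvd_add (dvd_add (g1.mul_right _) ((g2.mul_right _).mul_right _)) (g3.mul_right _)
  have hq : ∀ q : ℕ, q = 2 ∨ q = 3 → q ∣ d →
      (q : ℤ) ∣ N₁ ∧ (q : ℤ) ∣ T ∧ (q : ℤ) ∣ N₂ := fun q hq hqd => by
    have hall := (hd.2 q hq).1 hqd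
    have a1 := hall _ hf.fst N₁ h1
    have a2 := hall _ hf.snd N₂ h2
    have a3 := hall _ (hf.fst.comb hf.snd 1 1) _ (hform 1 1)
    simp only [one_pow, mul_one] at a3
    exact ⟨a1, by simpa using dvd_sub (dvd_sub a3 a2) a1, a2⟩
  have hdg : (d : ℤ) ∣ N₁ ∧ (d : ℤ) ∣ T ∧ (d : ℤ) ∣ N₂ := by
    rcases cases_of_dvd_six hd.1 with rfl | rfl | rfl | rfl
    · exact ⟨one_dvd _, one_dvd _, one_dvd _⟩
    · exact hq 2 (.inl rfl) dvd_rfl
    · exact hq 3 (.inr rfl) dvd_rfl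
    · obtain ⟨a1, a2, a3⟩ := hq 2 (.inl rfl) (by norm_num)
      obtain ⟨b1, b2, b3⟩ := hq 3 (.inr rfl) (by norm_num)
      push_cast at a1 a2 a3 b1 b2 b3 ⊢
      omega
  have hdd : d ∣ g :=
    Int.natCast_dvd_natCast.1 (Int.dvd_coe_gcd (Int.dvd_coe_gcd hdg.1 hdg.2.1) hdg.2.2)
  have hgd : g = d := by
    obtain ⟨k, hk⟩ := hdd
    by_contra hne
    have hk1 : k ≠ 1 := fun h => hne (by rw [hk, h, mul_one])
    obtain ⟨q, hqp, hqk⟩ := Nat.exists_prime_and_dvd hk1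
    have hqg : (q : ℤ) ∣ g := Int.natCast_dvd_natCast.2 (hk ▸ hqk.mul_left d)
    by_cases hq6 : q = 2 ∨ q = 3
    · have hqd : q ∣ d := (hd.2 q hq6).2 fun h hh N hN => hqg.trans (gall h hh N hN)
      obtain ⟨h, N, hh, hN, hnd⟩ := exists_sq_not_dvd hD hf hq6
      refine hnd ((?_ : (q : ℤ) ^ 2 ∣ g).trans (gall h hh N hN))
      rw [hk, Nat.cast_mul, sq]
      exact mul_dvd_mul (Int.natCast_dvd_natCast.2 hqd) (Int.natCast_dvd_natCast.2 hqk)
    · have h5 : 5 ≤ q := by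
        have := hqp.two_le
        rcases Nat.lt_or_ge q 5 with h | h
        · interval_cases q <;> first | omega | norm_num at hqp
        · exact h
      obtain ⟨h, N, hh, hN, hnd⟩ := exists_not_dvd_frame hD hp hp₀ hf hqp h5
      exact hnd (hqg.trans (gall h hh N hN))
  have e1 := Int.gcd_eq_gcd_ab N₁ T
  have e2 := Int.gcd_eq_gcd_ab (Int.gcd N₁ T) N₂
  refine ⟨N₁, N₂, T, Int.gcdA N₁ T * Int.gcdA (Int.gcd N₁ T) N₂,
    Int.gcdB N₁ T * Int.gcdA (Int.gcd N₁ T) N₂, Int.gcdB (Int.gcd N₁ T) N₂, h1, h2, hT, ?_, hdg⟩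
  rw [← hgd, hg, e2]
  linear_combination (Int.gcdA (Int.gcd N₁ T : ℤ) N₂) * e1

theorem Matches.conjO {M : Mat} {d : ℕ} {x' : OrdTN t n} (h : ConjO x x')
    (hm : Matches (x₀ : RMat) x M d) : Matches (x₀ : RMat) x' M d := by
  obtain ⟨γ, hγ⟩ := h
  obtain ⟨y₁, y₂, hf, hM, hd⟩ := hm
  set G : RMat := ((γ : SL(2, ℝ)) : RMat) with hG
  set G' : RMat := adjugate G
  have hGo : G ∈ order := γ.2
  have hdet : G.det = 1 := (γ : SL(2, ℝ)).prop
  have hGG : G' * G = 1 := by rw [Matrix.adjugate_mul, hdet, one_smul]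
  have hGG' : G * G' = 1 := by rw [Matrix.mul_adjugate, hdet, one_smul]
  have fwd : ∀ h, Inter (x₀ : RMat) x h → Inter (x₀ : RMat) x' (G * h) := fun h hh =>
    ⟨mul_mem hGo hh.1, by rw [← Matrix.mul_assoc, ← hγ, Matrix.mul_assoc, hh.2, Matrix.mul_assoc]⟩
  have bwd : ∀ h, Inter (x₀ : RMat) x' h → Inter (x₀ : RMat) x (G' * h) := fun h hh =>
    ⟨mul_mem (adjugate_mem hGo) hh.1, by
      have e : (x : RMat) * G' = G' * x' := by
        calc (x : RMat) * G' = G' * (G * x) * G' := by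
              rw [← Matrix.mul_assoc G', hGG, Matrix.one_mul]
          _ = G' * ((x' : RMat) * (G * G')) := by rw [hγ]; simp only [Matrix.mul_assoc]
          _ = G' * x' := by rw [hGG', Matrix.mul_one]
      rw [← Matrix.mul_assoc, e, Matrix.mul_assoc, hh.2, Matrix.mul_assoc]⟩
  have hc : ∀ p r, G * comb y₁ y₂ p r = comb (G * y₁) (G * y₂) p r := fun p r => by
    simp [comb, Matrix.mul_add]
  refine ⟨G * y₁, G * y₂, ⟨fwd _ hf.fst, fwd _ hf.snd, fun h hh => ?_, ?_⟩, ⟨?_, ?_⟩, hd.1,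
    fun q hq => (hd.2 q hq).trans ⟨fun H h hh N hN => ?_, fun H h hh N hN => ?_⟩⟩
  · obtain ⟨p, r, e⟩ := hf.span _ (bwd h hh)
    exact ⟨p, r, by rw [← hc, ← e, ← Matrix.mul_assoc, hGG', Matrix.one_mul]⟩
  · obtain ⟨A, B, hB, hAB⟩ := hf.orient
    refine ⟨A, B, hB, ?_⟩
    rw [Matrix.adjugate_mul_distrib, Matrix.mul_assoc, ← Matrix.mul_assoc G' G, hGG,
      Matrix.one_mul, hAB]
  · rw [Matrix.mul_assoc, hM.1, hc]
  · rw [Matrix.mul_assoc, hM.2, hc]
  · exact H _ (bwd h hh) N (by rw [det_mul, det_adjugate, hdet]; simpa using hN)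
  · exact H _ (fwd h hh) N (by rw [det_mul, hdet]; simpa using hN)

theorem Matches.conjM {M M' : Mat} {d : ℕ} {g : SL(2, ℤ)} (hg : (g : Mat) * M = M' * g)
    (hm : Matches (x₀ : RMat) x M d) : Matches (x₀ : RMat) x M' d := by
  obtain ⟨y₁, y₂, hf, hM, hd⟩ := hm
  set h : Mat := ((g⁻¹ : SL(2, ℤ)) : Mat) with hh
  have hgh : (g : Mat) * h = 1 := congrArg Subtype.val (mul_inv_cancel g)
  have hhg : h * (g : Mat) = 1 := congrArg Subtype.val (inv_mul_cancel g)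
  have hMh : h * M' = M * h := by
    have e := congrArg (fun X : Mat => h * X * h) hg
    simp only [← Matrix.mul_assoc, hhg, Matrix.one_mul] at e
    rw [e, Matrix.mul_assoc (h * M'), hgh, Matrix.mul_one]
  have hdet : h 0 0 * h 1 1 - h 0 1 * h 1 0 = 1 := by
    rw [← Matrix.det_fin_two]; exact (g⁻¹).prop
  refine ⟨comb y₁ y₂ (h 0 0) (h 1 0), comb y₁ y₂ (h 0 1) (h 1 1),
    ⟨hf.fst.comb hf.snd _ _, hf.fst.comb hf.snd _ _, fun z hz => ?_, ?_⟩, ⟨?_, ?_⟩, hd⟩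
  · obtain ⟨p, r, rfl⟩ := hf.span z hz
    refine ⟨(g : Mat) 0 0 * p + (g : Mat) 0 1 * r, (g : Mat) 1 0 * p + (g : Mat) 1 1 * r, ?_⟩
    rw [comb_comb]
    have e := fun i j => congrFun (congrFun hhg i) j
    have e00 := e 0 0
    have e01 := e 0 1
    have e10 := e 1 0
    have e11 := e 1 1
    simp [Matrix.mul_apply, Fin.sum_univ_two] at e00 e01 e10 e11
    congr 1
    · linear_combination (-p) * e00 - r * e01
    · linear_combination (-p) * e10 - r * e11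
  · obtain ⟨A, B, hB, hAB⟩ := hf.orient
    obtain ⟨N₁, hN₁⟩ := exists_det hf.fst.1
    obtain ⟨N₂, hN₂⟩ := exists_det hf.snd.1
    have hrev := adjugate_rev x₀.2.2.1 hAB
    refine ⟨h 0 0 * h 0 1 * N₁ + h 0 0 * h 1 1 * A + h 1 0 * h 0 1 * (A + t * B) +
      h 1 0 * h 1 1 * N₂, B, hB, ?_⟩
    have hBR : ((h 0 0 : ℝ) * h 1 1 - h 0 1 * h 1 0) = 1 := by exact_mod_cast hdet
    have e : adjugate (comb y₁ y₂ (h 0 0) (h 1 0)) =
        (h 0 0 : ℝ) • adjugate y₁ + (h 1 0 : ℝ) • adjugate y₂ := by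
      ext i j
      fin_cases i <;> fin_cases j <;> simp [comb, adjugate_fin_two] <;> ring
    rw [e, comb]
    simp only [Matrix.add_mul, Matrix.mul_add, Matrix.smul_mul, Matrix.mul_smul,
      Matrix.adjugate_mul, hN₁, hN₂, hAB, hrev, lin, smul_add, smul_smul]
    push_cast
    match_scalars
    · ring
    · linear_combination (B : ℝ) * hBR
  all_goals
    have e := fun i j => congrFun (congrFun hMh i) j
    have e00 := e 0 0
    have e01 := e 0 1
    have e10 := e 1 0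
    have e11 := e 1 1
    simp [Matrix.mul_apply, Fin.sum_univ_two] at e00 e01 e10 e11
    rw [comb_comb, comb, Matrix.add_mul, Matrix.smul_mul, Matrix.smul_mul, hM.1, hM.2]
    show comb (comb y₁ y₂ _ _) (comb y₁ y₂ _ _) _ _ = _
    rw [comb_comb]
    congr 1 <;> linarith

include hD in
theorem matches_unique {M M' : Mat} {d d' : ℕ} (hm : Matches (x₀ : RMat) x M d)
    (hm' : Matches (x₀ : RMat) x M' d') :
    (∃ g : SL(2, ℤ), (g : Mat) * M = M' * g) ∧ d = d' := by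
  obtain ⟨y₁, y₂, hf, hM, hd⟩ := hm
  obtain ⟨z₁, z₂, hf', hM', hd'⟩ := hm'
  refine ⟨?_, hd.unique hd'⟩
  obtain ⟨a, c, e1⟩ := hf.span _ hf'.fst
  obtain ⟨b, e, e2⟩ := hf.span _ hf'.snd
  obtain ⟨a', c', f1⟩ := hf'.span _ hf.fst
  obtain ⟨b', e', f2⟩ := hf'.span _ hf.snd
  have h1 : comb y₁ y₂ (a * a' + b * c') (c * a' + e * c') = comb y₁ y₂ 1 0 := by
    rw [← comb_comb, ← e1, ← e2, ← f1]; simp [comb]
  have h2 : comb y₁ y₂ (a * b' + b * e') (c * b' + e * e') = comb y₁ y₂ 0 1 := by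
    rw [← comb_comb, ← e1, ← e2, ← f2]; simp [comb]
  obtain ⟨p1, p2⟩ := comb_inj hD hf h1
  obtain ⟨p3, p4⟩ := comb_inj hD hf h2
  have hprod : (a * e - b * c) * (a' * e' - b' * c') = 1 := by
    linear_combination (c * b' + e * e') * p1 + p4 - (c * a' + e * c') * p3
  obtain ⟨A, B, hB, hAB⟩ := hf.orient
  obtain ⟨A', B', hB', hAB'⟩ := hf'.orient
  have hsign : B' = (a * e - b * c) * B := by
    obtain ⟨N₁, hN₁⟩ := exists_det hf.fst.1
    obtain ⟨N₂, hN₂⟩ := exists_det hf.snd.1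
    have hrev := adjugate_rev x₀.2.2.1 hAB
    have hh : adjugate z₁ = (a : ℝ) • adjugate y₁ + (c : ℝ) • adjugate y₂ := by
      rw [e1]
      ext i j
      fin_cases i <;> fin_cases j <;> simp [comb, adjugate_fin_two] <;> ring
    have h : adjugate z₁ * z₂ =
        lin (a * b * N₁ + a * e * A + c * b * (A + t * B) + c * e * N₂)
          ((a * e - b * c) * B) (x₀ : RMat) := by
      rw [hh, e2, comb]
      simp only [Matrix.add_mul, Matrix.mul_add, Matrix.smul_mul, Matrix.mul_smul,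
        Matrix.adjugate_mul, hN₁, hN₂, hAB, hrev, lin, smul_add, smul_smul]
      push_cast
      match_scalars <;> ring
    exact (lin_injective x₀.2.2.1 x₀.2.2.2 hD.ne (hAB'.symm.trans h)).2
  have hone : a * e - b * c = 1 := by
    rcases Int.eq_one_or_neg_one_of_mul_eq_one hprod with h | h
    · exact h
    · rw [h] at hsign
      omega
  set G : SL(2, ℤ) := ⟨!![a, b; c, e], by rw [Matrix.det_fin_two_of]; exact hone⟩
  refine ⟨G⁻¹, ?_⟩
  have hGM : (G : Mat) * M' = M * G := by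
    have k1 : comb y₁ y₂ (a * M' 0 0 + b * M' 1 0) (c * M' 0 0 + e * M' 1 0) =
        comb y₁ y₂ (M 0 0 * a + M 0 1 * c) (M 1 0 * a + M 1 1 * c) := by
      rw [← comb_comb, ← comb_comb, ← e1, ← e2, ← hM'.1, e1, comb, Matrix.add_mul,
        Matrix.smul_mul, Matrix.smul_mul, hM.1, hM.2]
      rfl
    have k2 : comb y₁ y₂ (a * M' 0 1 + b * M' 1 1) (c * M' 0 1 + e * M' 1 1) =
        comb y₁ y₂ (M 0 0 * b + M 0 1 * e) (M 1 0 * b + M 1 1 * e) := by
      rw [← comb_comb, ← comb_comb, ← e1, ← e2, ← hM'.2, e2, comb, Matrix.add_mul,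
        Matrix.smul_mul, Matrix.smul_mul, hM.1, hM.2]
      rfl
    obtain ⟨q1, q2⟩ := comb_inj hD hf k1
    obtain ⟨q3, q4⟩ := comb_inj hD hf k2
    ext i j
    fin_cases i <;> fin_cases j <;> simp [G, Matrix.mul_apply, Fin.sum_univ_two] <;> assumption
  have hi1 : ((G⁻¹ : SL(2, ℤ)) : Mat) * (G : Mat) = 1 := congrArg Subtype.val (inv_mul_cancel G)
  have hi2 : (G : Mat) * ((G⁻¹ : SL(2, ℤ)) : Mat) = 1 := congrArg Subtype.val (mul_inv_cancel G)
  have h' := congrArg (fun X : Mat => ((G⁻¹ : SL(2, ℤ)) : Mat) * X *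
    ((G⁻¹ : SL(2, ℤ)) : Mat)) hGM
  simp only [← Matrix.mul_assoc, hi1, Matrix.one_mul] at h'
  rw [Matrix.mul_assoc (((G⁻¹ : SL(2, ℤ)) : Mat) * M), hi2, Matrix.mul_one] at h'
  exact h'.symm

include hD in
theorem matches_primM (hp : Prim (x : RMat)) (hp₀ : Prim (x₀ : RMat)) {M : Mat} {d : ℕ}
    (ht : M.trace = t) (hn : M.det = n) (hm : Matches (x₀ : RMat) x M d) : PrimM M := by
  obtain ⟨y₁, y₂, hf, hM, -⟩ := hm
  rw [primM_iff]
  rintro q hq ⟨h1, h2, h3⟩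
  set a := M 0 0
  have hq0 : (q : ℝ) ≠ 0 := Nat.cast_ne_zero.2 hq.ne_zero
  by_cases hq6 : q = 2 ∨ q = 3
  · refine prim_charVal hp₀ hq6 a ?_
    rw [Matrix.trace_fin_two] at ht
    rw [Matrix.det_fin_two] at hn
    rw [show charVal t n a = -(M 0 1 * M 1 0) by rw [charVal, ← ht, ← hn]; ring, dvd_neg, sq]
    exact mul_dvd_mul h3 h1
  · have h5 : 5 ≤ q := by
      have := hq.two_le
      rcases Nat.lt_or_ge q 5 with h | h
      · interval_cases q <;> first | omega | norm_num at hq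
      · exact h
    obtain ⟨k1, e1⟩ := h1
    obtain ⟨k2, e2⟩ := h2
    obtain ⟨k3, e3⟩ := h3
    have hy : ∀ h, Inter (x₀ : RMat) x h →
        (q : ℝ)⁻¹ • (h * ((x₀ : RMat) - (a : ℝ) • 1)) ∈ order := fun h hh => by
      obtain ⟨p, r, rfl⟩ := hf.span h hh
      have e : comb y₁ y₂ p r * ((x₀ : RMat) - (a : ℝ) • 1) =
          (q : ℝ) • comb y₁ y₂ (k3 * r) (k1 * p + k2 * r) := by
        rw [Matrix.mul_sub, Matrix.mul_smul, Matrix.mul_one, comb, Matrix.add_mul,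
          Matrix.smul_mul, Matrix.smul_mul, hM.1, hM.2]
        have r1 : ((M 1 0 : ℤ) : ℝ) = q * k1 := by rw [e1]; push_cast; ring
        have r2 : ((M 1 1 : ℤ) : ℝ) = a + q * k2 := by
          rw [show M 1 1 = a + (q : ℤ) * k2 by linarith]; push_cast; ring
        have r3 : ((M 0 1 : ℤ) : ℝ) = q * k3 := by rw [e3]; push_cast; ring
        simp only [comb, smul_add, smul_smul]
        push_cast
        rw [r1, r2, r3]
        module
      rw [e, inv_smul_smul₀ hq0]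
      exact (hf.fst.comb hf.snd _ _).1
    obtain ⟨h, N, hh, hN, hnd⟩ := exists_not_dvd_frame hD hp hp₀ hf hq h5
    obtain ⟨u, v, huv⟩ := (Prime.coprime_iff_not_dvd (Nat.prime_iff_prime_int.1 hq)).2 hnd
    refine hp₀ q hq a ?_
    have e := add_mem (intCast_smul_mem (sub_mem x₀.2.1 (intCast_smul_mem (one_mem _) a)) u)
      (intCast_smul_mem (mul_mem (adjugate_mem hh.1) (hy h hh)) v)
    convert e using 1
    rw [Matrix.mul_smul, ← Matrix.mul_assoc, Matrix.adjugate_mul, hN, Matrix.smul_mul,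
      Matrix.one_mul, smul_smul, smul_smul, ← add_smul]
    congr 1
    have h1 : (u : ℝ) * q + v * N = 1 := by exact_mod_cast huv
    field_simp
    linarith

include hD in
theorem prim_of_matches (hp₀ : Prim (x₀ : RMat)) {M : Mat} {d : ℕ} (hMp : PrimM M)
    (hm : Matches (x₀ : RMat) x M d) : Prim (x : RMat) := by
  obtain ⟨y₁, y₂, hf, hM, -⟩ := hm
  intro q hq k hm
  by_cases hq6 : q = 2 ∨ q = 3
  · have hdet := det_lin x.2.2.1 x.2.2.2 (-k) 1
    simp only [lin, Int.cast_neg, neg_smul, Int.cast_one, one_smul, ← sub_eq_neg_add] at hdet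
    obtain ⟨N, hN⟩ := exists_det hm
    rw [det_smul, hdet, Fintype.card_fin] at hN
    refine prim_charVal hp₀ hq6 k ⟨N, ?_⟩
    have hq0 : (q : ℝ) ≠ 0 := Nat.cast_ne_zero.2 hq.ne_zero
    refine Int.cast_injective (α := ℝ) ?_
    push_cast at hN ⊢
    rw [← hN, charVal]
    field_simp
    push_cast
    ring
  · have hq0 : (q : ℝ) ≠ 0 := Nat.cast_ne_zero.2 hq.ne_zero
    have key : ∀ p r, ∃ p' r' : ℤ,
        comb y₁ y₂ p r * ((x₀ : RMat) - (k : ℝ) • 1) = comb y₁ y₂ ((q : ℤ) * p') (q * r') := by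
      intro p r
      set h := comb y₁ y₂ p r
      have hh : Inter (x₀ : RMat) x h := hf.fst.comb hf.snd p r
      have e : h * ((x₀ : RMat) - (k : ℝ) • 1) =
          (q : ℝ) • ((q : ℝ)⁻¹ • (((x : RMat) - (k : ℝ) • 1)) * h) := by
        rw [Matrix.smul_mul, smul_inv_smul₀ hq0, Matrix.sub_mul, hh.2, Matrix.mul_sub,
          Matrix.mul_smul, Matrix.smul_mul, Matrix.one_mul, Matrix.mul_one]
      obtain ⟨p', r', e'⟩ := hf.span ((q : ℝ)⁻¹ • ((x : RMat) - (k : ℝ) • 1) * h) (by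
        refine ⟨mul_mem hm hh.1, ?_⟩
        rw [Matrix.smul_mul, Matrix.mul_smul, Matrix.smul_mul, ← Matrix.mul_assoc,
          Matrix.mul_assoc _ h, ← hh.2, ← Matrix.mul_assoc]
        congr 2
        rw [Matrix.mul_sub, Matrix.sub_mul, Matrix.mul_smul, Matrix.smul_mul, Matrix.one_mul,
          Matrix.mul_one])
      exact ⟨p', r', by rw [e, e']; simp [comb, smul_add, smul_smul]⟩
    obtain ⟨p1, r1, k1⟩ := key 1 0
    obtain ⟨p2, r2, k2⟩ := key 0 1
    have l1 : comb y₁ y₂ (M 0 0 - k) (M 1 0) = comb y₁ y₂ ((q : ℤ) * p1) (q * r1) := by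
      rw [← k1]
      simp [comb, Matrix.mul_sub, hM.1]
      module
    have l2 : comb y₁ y₂ (M 0 1) (M 1 1 - k) = comb y₁ y₂ ((q : ℤ) * p2) (q * r2) := by
      rw [← k2]
      simp [comb, Matrix.mul_sub, hM.2]
      module
    obtain ⟨q1, q2⟩ := comb_inj hD hf l1
    obtain ⟨q3, q4⟩ := comb_inj hD hf l2
    exact (primM_iff M).1 hMp q hq
      ⟨⟨r1, q2⟩, ⟨r2 - p1, by linarith⟩, ⟨p2, q3⟩⟩

include hD in
theorem matches_contents (hp₀ : Prim (x₀ : RMat)) {M : Mat} {d : ℕ}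
    (hm : Matches (x₀ : RMat) x M d) : d ∈ contents t n := by
  classical
  obtain ⟨y₁, y₂, hf, -, hd⟩ := hm
  have hI : ∀ q : ℕ, q = 2 ∨ q = 3 → q ∣ d → Inert t n q := fun q hq hqd a ha => by
    have hqp : q.Prime := by rcases hq with rfl | rfl <;> norm_num
    have hqi := Nat.prime_iff_prime_int.1 hqp
    obtain ⟨h, N, hh, hN, hnd⟩ := exists_sq_not_dvd hD hf hq
    obtain ⟨m, hm⟩ := ha
    have hall := (hd.2 q hq).1 hqd
    obtain ⟨N', hN'⟩ := hall h hh N hN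
    have hdet : (h * ((x₀ : RMat) - (a : ℝ) • 1)).det = ((N * charVal t n a : ℤ) : ℝ) := by
      rw [det_mul, hN]
      have e := det_lin x₀.2.2.1 x₀.2.2.2 (-a) 1
      simp only [lin, Int.cast_neg, neg_smul, Int.cast_one, one_smul] at e
      rw [sub_eq_neg_add, e, charVal]
      push_cast
      ring
    have hmem := div_mem_prime hq (mul_mem hh.1 (sub_mem x₀.2.1
      (intCast_smul_mem (one_mem _) a))) hdet ⟨N' * m, by rw [hN', hm]; ring⟩
    have hinter : Inter (x₀ : RMat) x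
        ((q : ℝ)⁻¹ • (h * ((x₀ : RMat) - (a : ℝ) • 1))) := by
      refine ⟨hmem, ?_⟩
      rw [Matrix.mul_smul, Matrix.smul_mul, ← Matrix.mul_assoc, hh.2, Matrix.mul_assoc,
        Matrix.mul_assoc]
      congr 2
      rw [Matrix.mul_sub, Matrix.sub_mul, Matrix.mul_smul, Matrix.smul_mul, Matrix.one_mul,
        Matrix.mul_one]
    have hq0 : (q : ℝ) ≠ 0 := Nat.cast_ne_zero.2 hqp.ne_zero
    obtain ⟨s, hs⟩ := hall _ hinter (N' * m) (by
      rw [det_smul, hdet, Fintype.card_fin, hN', hm]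
      push_cast
      field_simp)
    rcases hqi.dvd_or_dvd (show (q : ℤ) ∣ N' * m from ⟨s, hs⟩) with h' | h'
    · exact hnd (by rw [hN', sq]; exact mul_dvd_mul_left _ h')
    · exact prim_charVal hp₀ hq a (by rw [hm, sq]; exact mul_dvd_mul_left _ h')
  rw [contents, if_pos ⟨prim_charVal hp₀ (.inl rfl), prim_charVal hp₀ (.inr rfl)⟩,
    Finset.mem_filter, Nat.mem_divisors]
  exact ⟨⟨hd.1, by norm_num⟩, hI 2 (.inl rfl), hI 3 (.inr rfl)⟩

include hD in
theorem exists_scaling {x' : OrdTN t n} (hp : Prim (x : RMat)) (hp' : Prim (x' : RMat))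
    (hp₀ : Prim (x₀ : RMat))
    {M : Mat} {d : ℕ} (ht : M.trace = t) (hn : M.det = n)
    {z₁ z₂ : RMat} (hf : IsFrame (x₀ : RMat) x y₁ y₂) (hM : Acts (x₀ : RMat) y₁ y₂ M)
    (hd : IsContent (x₀ : RMat) x d) (hf' : IsFrame (x₀ : RMat) x' z₁ z₂)
    (hM' : Acts (x₀ : RMat) z₁ z₂ M) (hd' : IsContent (x₀ : RMat) x' d) :
    ∃ (z : RMat) (k : ℤ), z * y₁ = z₁ ∧ z * (x : RMat) = x' * z ∧ z.det = k ∧ 0 < k ∧
      (d : ℝ) • z ∈ order := by
  have h10 := corner_ne ht hn hD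
  obtain ⟨A, B, hB, hAB⟩ := hf.orient
  obtain ⟨A', B', hB', hAB'⟩ := hf'.orient
  obtain ⟨N₁, N₂, T, u, v, w, h1, h2, hT, hsum, -, -, -⟩ := exists_bezout hD hp hp₀ hf hd
  have hy0 : y₁.det ≠ 0 := fun h0 => by
    have hz := eq_zero_of_det hf.fst.1 h0
    rw [hz, adjugate_zero, Matrix.zero_mul] at hAB
    have := lin_injective x₀.2.2.1 x₀.2.2.2 hD.ne (A := A) (B := B) (A' := 0) (B' := 0)
      (by rw [← hAB]; simp [lin])
    omega
  set z : RMat := y₁.det⁻¹ • (z₁ * adjugate y₁) with hz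
  have hzy₁ : z * y₁ = z₁ := by
    rw [hz, Matrix.smul_mul, Matrix.mul_assoc, Matrix.adjugate_mul, Matrix.mul_smul,
      Matrix.mul_one, inv_smul_smul₀ hy0]
  have hzy₂ : z * y₂ = z₂ := by
    have e := congrArg (z * ·) hM.1
    simp only [comb, ← Matrix.mul_assoc, Matrix.mul_add, Matrix.mul_smul, hzy₁, hM'.1,
      add_right_inj] at e
    exact smul_right_injective _ (Int.cast_ne_zero.2 h10) e.symm
  have hzx : z * (x : RMat) = x' * z := by
    refine mul_right_cancel_det hy0 ?_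
    rw [Matrix.mul_assoc, hf.fst.2, ← Matrix.mul_assoc, hzy₁, Matrix.mul_assoc, hzy₁, hf'.fst.2]
  obtain ⟨M₁, hM₁⟩ := exists_det hf'.fst.1
  obtain ⟨M₂, hM₂⟩ := exists_det hf'.snd.1
  obtain ⟨S, hS⟩ := exists_trace (mul_mem (adjugate_mem hf'.fst.1) hf'.snd.1)
  have hscale : adjugate z₁ * z₂ = z.det • (adjugate y₁ * y₂) := by
    rw [← hzy₁, ← hzy₂, Matrix.adjugate_mul_distrib, Matrix.mul_assoc,
      ← Matrix.mul_assoc (adjugate z) z, Matrix.adjugate_mul, Matrix.smul_mul, Matrix.one_mul,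
      Matrix.mul_smul]
  have s1 : (M₁ : ℝ) = z.det * N₁ := by rw [← hM₁, ← hzy₁, det_mul, h1]
  have s2 : (M₂ : ℝ) = z.det * N₂ := by rw [← hM₂, ← hzy₂, det_mul, h2]
  have s3 : (S : ℝ) = z.det * T := by rw [← hS, hscale, trace_smul, hT, smul_eq_mul]
  obtain ⟨_, _, _, _, _, _, e1, e2, e3, -, hd1, hd2, hd3⟩ :=
    exists_bezout hD (x := x') hp' hp₀ hf' hd'
  obtain rfl : M₁ = _ := Int.cast_injective (α := ℝ) (hM₁.symm.trans e1)
  obtain rfl : M₂ = _ := Int.cast_injective (α := ℝ) (hM₂.symm.trans e2)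
  obtain rfl : S = _ := Int.cast_injective (α := ℝ) (hS.symm.trans e3)
  have hd0' : d ≠ 0 := fun h => by simpa [h] using hd.1
  have hd0 : (d : ℤ) ≠ 0 := Nat.cast_ne_zero.2 hd0'
  obtain ⟨k, hk⟩ : (d : ℤ) ∣ u * M₁ + v * S + w * M₂ :=
    dvd_add (dvd_add (hd1.mul_left u) (hd2.mul_left v)) (hd3.mul_left w)
  have hzk : z.det = (k : ℝ) := by
    refine mul_left_cancel₀ (show (d : ℝ) ≠ 0 by exact_mod_cast hd0) ?_
    have hk' : (u : ℝ) * M₁ + v * S + w * M₂ = d * k := by exact_mod_cast hk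
    have hs' : (d : ℝ) = u * N₁ + v * T + w * N₂ := by exact_mod_cast hsum
    rw [← hk', s1, s2, s3]
    conv_lhs => rw [hs']
    ring
  have hkB : B' = k * B := by
    have e : lin A' B' (x₀ : RMat) = lin (k * A) (k * B) x₀ := by
      rw [← hAB', hscale, hAB, hzk]
      simp [lin, smul_add, smul_smul]
    exact (lin_injective x₀.2.2.1 x₀.2.2.2 hD.ne e).2
  refine ⟨z, k, hzy₁, hzx, hzk, ?_, ?_⟩
  · by_contra hk0
    push Not at hk0
    nlinarith
  · have c1 : (N₁ : ℝ) • z = z₁ * adjugate y₁ := by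
      rw [hz, ← h1, smul_inv_smul₀ hy0]
    have c2 : (N₂ : ℝ) • z = z₂ * adjugate y₂ := by
      rw [← hzy₂, Matrix.mul_assoc, Matrix.mul_adjugate, h2, Matrix.mul_smul, Matrix.mul_one]
    have c3 : (T : ℝ) • z = z₁ * adjugate y₂ + z₂ * adjugate y₁ := by
      rw [← hzy₁, ← hzy₂, Matrix.mul_assoc, Matrix.mul_assoc, ← Matrix.mul_add,
        show y₁ * adjugate y₂ + y₂ * adjugate y₁ = (T : ℝ) • (1 : RMat) by
          rw [← hT]
          ext i j
          fin_cases i <;> fin_cases j <;>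
            simp [Matrix.mul_apply, Fin.sum_univ_two, adjugate_fin_two, trace_fin_two,
              Matrix.vecMul, dotProduct] <;> ring,
        Matrix.mul_smul, Matrix.mul_one]
    have m := add_mem (add_mem
      (intCast_smul_mem (mul_mem hf'.fst.1 (adjugate_mem hf.fst.1)) u)
      (intCast_smul_mem (add_mem (mul_mem hf'.fst.1 (adjugate_mem hf.snd.1))
        (mul_mem hf'.snd.1 (adjugate_mem hf.fst.1))) v))
      (intCast_smul_mem (mul_mem hf'.snd.1 (adjugate_mem hf.snd.1)) w)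
    rw [← c1, ← c2, ← c3] at m
    clear_value z
    simp only [smul_smul, ← add_smul] at m
    rwa [show (d : ℝ) = u * N₁ + v * T + w * N₂ by exact_mod_cast hsum]

include hD in
/-- **Injectivity.** -/
theorem conjO_of_matches {x' : OrdTN t n} (hp : Prim (x : RMat)) (hp' : Prim (x' : RMat))
    (hp₀ : Prim (x₀ : RMat)) {M : Mat} {d : ℕ} (ht : M.trace = t) (hn : M.det = n)
    (hm : Matches (x₀ : RMat) x M d) (hm' : Matches (x₀ : RMat) x' M d) : ConjO x x' := by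
  obtain ⟨y₁, y₂, hf, hM, hd⟩ := hm
  obtain ⟨z₁, z₂, hf', hM', hd'⟩ := hm'
  obtain ⟨z, k, e, hzx, hzk, hk, hzd⟩ := exists_scaling hD hp hp' hp₀ ht hn hf hM hd hf' hM' hd'
  obtain ⟨z', k', e', -, hzk', hk', -⟩ := exists_scaling hD hp' hp hp₀ ht hn hf' hM' hd' hf hM hd
  have hy0 : y₁.det ≠ 0 := fun h0 => by
    obtain ⟨A, B, hB, hAB⟩ := hf.orient
    rw [eq_zero_of_det hf.fst.1 h0, adjugate_zero, Matrix.zero_mul] at hAB
    have := lin_injective x₀.2.2.1 x₀.2.2.2 hD.ne (A := A) (B := B) (A' := 0) (B' := 0)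
      (by rw [← hAB]; simp [lin])
    omega
  have hone : z' * z = 1 := mul_right_cancel_det hy0 (by
    rw [Matrix.mul_assoc, e, e', Matrix.one_mul])
  have hkk : k' * k = 1 := by
    have h := congrArg Matrix.det hone
    rw [det_mul, hzk, hzk', det_one] at h
    exact_mod_cast h
  have hk1 : k = 1 := Int.eq_one_of_mul_eq_one_left hk.le hkk
  have hz1 : z.det = 1 := by rw [hzk, hk1, Int.cast_one]
  have hzo : z ∈ order := by
    have h := div_mem_six hd.1 hzd (N := (d : ℤ) ^ 2)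
      (by rw [det_smul, hz1, Fintype.card_fin]; simp) dvd_rfl
    rwa [inv_smul_smul₀ (Nat.cast_ne_zero.2 fun h0 => by simpa [h0] using hd.1)] at h
  exact ⟨⟨⟨z, hz1⟩, mem_orderUnits.2 hzo⟩, hzx⟩

end

end FA.QuaternionClasses

end
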