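import Fermat.Agent.QuaternionNormalizer.Classes
import Fermat.Agent.QuaternionClasses.Arith

/-!
# Primitive elements of the order

An element is primitive if it is congruent to a scalar modulo no prime; the elements of the order
commuting with a primitive one are its integral combinations with `1`, and every element that is
not a scalar is `a + k ω` with `ω` primitive.
-/

set_option autoImplicit false
set_option linter.unusedSectionVars false
set_option linter.style.haveILetI false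

noncomputable section

open Matrix
open scoped MatrixGroups
open FA.Horocycle FA.QuaternionHecke

namespace FA.QuaternionClasses

/-- The real matrices. -/
abbrev RMat : Type := Matrix (Fin 2) (Fin 2) ℝ

/-- The elements of the order of trace `t` and norm `n`. -/
abbrev OrdTN (t n : ℤ) : Type := {x : RMat // x ∈ order ∧ x.trace = (t : ℝ) ∧ x.det = (n : ℝ)}

/-- Conjugation by the units of norm one. -/
def ConjO {t n : ℤ} (x x' : OrdTN t n) : Prop :=
  ∃ γ : orderUnits, ((γ : SL(2, ℝ)) : RMat) * x = x' * ((γ : SL(2, ℝ)) : RMat)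

/-- Primitive elements. -/
def Prim (x : RMat) : Prop :=
  ∀ q : ℕ, q.Prime → ∀ k : ℤ, (q : ℝ)⁻¹ • (x - (k : ℝ) • 1) ∉ order

/-- An integral combination of `1` and `x`. -/
def lin (A B : ℤ) (x : RMat) : RMat := (A : ℝ) • 1 + (B : ℝ) • x

theorem lin_mem {x : RMat} (hx : x ∈ order) (A B : ℤ) : lin A B x ∈ order :=
  add_mem (intCast_smul_mem (one_mem _) A) (intCast_smul_mem hx B)

/-- The greatest common divisor of the three imaginary coordinates. -/
def vecGcd (r : Quad) : ℕ := Int.gcd (Int.gcd r.2.1 r.2.2.1) r.2.2.2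

theorem smul_hurMat (q : ℤ) (r : Quad) :
    (q : ℝ) • hurMat r = hurMat (q * r.1, q * r.2.1, q * r.2.2.1, q * r.2.2.2) := by
  simp only [hurMat, smul_realQuat]
  push_cast
  congr 1 <;> ring

theorem scalar_eq_hurMat (k : ℤ) : (k : ℝ) • (1 : RMat) = hurMat (k, 0, 0, 0) := by
  rw [← hurMat_one, smul_hurMat]
  simp

theorem sub_scalar_hurMat (r : Quad) (k : ℤ) :
    hurMat r - (k : ℝ) • (1 : RMat) = hurMat (r.1 - k, r.2.1, r.2.2.1, r.2.2.2) := by
  rw [sub_eq_iff_eq_add, scalar_eq_hurMat, ← hurMat_add]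
  exact congrArg hurMat (Prod.ext (by simp) (Prod.ext (by simp) (Prod.ext (by simp) (by simp))))

theorem div_mem_order_iff {q : ℤ} (hq : q ≠ 0) (r : Quad) :
    (q : ℝ)⁻¹ • hurMat r ∈ order ↔ q ∣ r.1 ∧ q ∣ r.2.1 ∧ q ∣ r.2.2.1 ∧ q ∣ r.2.2.2 := by
  have hq' : (q : ℝ) ≠ 0 := Int.cast_ne_zero.2 hq
  constructor
  · rintro ⟨s, hs⟩
    have e : hurMat r = hurMat (q * s.1, q * s.2.1, q * s.2.2.1, q * s.2.2.2) := by
      rw [← smul_hurMat, hs, smul_inv_smul₀ hq']
    rw [hurMat_injective e]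
    exact ⟨dvd_mul_right _ _, dvd_mul_right _ _, dvd_mul_right _ _, dvd_mul_right _ _⟩
  · rintro ⟨⟨a, ha⟩, ⟨b, hb⟩, ⟨c, hc⟩, ⟨e, he⟩⟩
    refine ⟨(a, b, c, e), ?_⟩
    rw [show r = (q * a, q * b, q * c, q * e) from
      Prod.ext ha (Prod.ext hb (Prod.ext hc he)), ← smul_hurMat q (a, b, c, e),
      inv_smul_smul₀ hq']

theorem prim_hurMat_iff (r : Quad) : Prim (hurMat r) ↔ vecGcd r = 1 := by
  refine ⟨fun h => ?_, fun h q hq k hmem => ?_⟩
  · by_contra hne
    obtain ⟨q, hq, hd⟩ := Nat.exists_prime_and_dvd hne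
    refine h q hq r.1 ?_
    rw [sub_scalar_hurMat]
    have hd' : (q : ℤ) ∣ (vecGcd r : ℤ) := Int.natCast_dvd_natCast.2 hd
    exact_mod_cast (div_mem_order_iff (q := (q : ℤ)) (by exact_mod_cast hq.ne_zero)
      (r.1 - r.1, r.2.1, r.2.2.1, r.2.2.2)).2
      ⟨by simp, (hd'.trans (Int.gcd_dvd_left _ _)).trans (Int.gcd_dvd_left _ _),
        (hd'.trans (Int.gcd_dvd_left _ _)).trans (Int.gcd_dvd_right _ _),
        hd'.trans (Int.gcd_dvd_right _ _)⟩
  · rw [sub_scalar_hurMat] at hmem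
    obtain ⟨-, h1, h2, h3⟩ := (div_mem_order_iff (q := (q : ℤ)) (by exact_mod_cast hq.ne_zero) _).1
      (by exact_mod_cast hmem)
    have hd : q ∣ vecGcd r := by
      rw [← Int.natCast_dvd_natCast]
      exact Int.dvd_coe_gcd (Int.dvd_coe_gcd h1 h2) h3
    rw [h] at hd
    exact hq.one_lt.ne' (Nat.dvd_one.1 hd)

section quadratic

variable {x : RMat} {t n : ℤ} (ht : x.trace = (t : ℝ)) (hn : x.det = (n : ℝ))

include ht in
theorem adjugate_eq : adjugate x = (t : ℝ) • 1 - x := by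
  rw [← ht, adjugate_fin_two]
  ext i j
  fin_cases i <;> fin_cases j <;> simp [trace_fin_two]

include ht hn in
theorem mul_self_eq : x * x = (t : ℝ) • x - (n : ℝ) • 1 := by
  rw [← ht, ← hn]
  ext i j
  fin_cases i <;> fin_cases j <;>
    simp [Matrix.mul_apply, Fin.sum_univ_two, trace_fin_two, det_fin_two] <;> ring

include ht hn in
theorem det_lin (A B : ℤ) : (lin A B x).det = ((A ^ 2 + t * A * B + n * B ^ 2 : ℤ) : ℝ) := by
  push_cast
  rw [← ht, ← hn]
  simp [lin, det_fin_two, trace_fin_two]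
  ring

include ht in
theorem trace_lin (A B : ℤ) : (lin A B x).trace = ((2 * A + t * B : ℤ) : ℝ) := by
  rw [lin, trace_add, trace_smul, trace_smul, trace_one, ht]
  push_cast
  simp [mul_comm]

include ht hn in
theorem lin_injective (hD : t ^ 2 - 4 * n ≠ 0) {A B A' B' : ℤ} (h : lin A B x = lin A' B' x) :
    A = A' ∧ B = B' := by
  have hB : B = B' := by
    by_contra hne
    have e : ((B : ℝ) - B') • x = ((A' : ℝ) - A) • (1 : RMat) := by
      rw [sub_smul, sub_smul, sub_eq_sub_iff_add_eq_add, add_comm _ ((A : ℝ) • (1 : RMat))]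
      exact h
    have hne' : ((B : ℝ) - B') ≠ 0 := sub_ne_zero.2 (Int.cast_injective.ne hne)
    have e2 : x = (((A' : ℝ) - A) / ((B : ℝ) - B')) • (1 : RMat) := by
      rw [div_eq_inv_mul, mul_smul, ← e, inv_smul_smul₀ hne']
    refine hD (Int.cast_injective (α := ℝ) ?_)
    push_cast
    rw [← ht, ← hn, e2]
    simp
    ring
  subst hB
  refine ⟨Int.cast_injective (α := ℝ) ?_, rfl⟩
  have e := congrFun (congrFun h 0) 0
  simpa [lin] using e

include ht hn in
theorem exists_real_lin {w : RMat} (hw : w * x = x * w) (hD : t ^ 2 - 4 * n ≠ 0) :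
    ∃ α β : ℝ, w = α • (1 : RMat) + β • x := by
  have e00 := congrFun (congrFun hw 0) 0
  have e01 := congrFun (congrFun hw 0) 1
  have e10 := congrFun (congrFun hw 1) 0
  simp [Matrix.mul_apply, Fin.sum_univ_two] at e00 e01 e10
  have key : x 0 1 ≠ 0 ∨ x 1 0 ≠ 0 ∨ x 0 0 - x 1 1 ≠ 0 := by
    by_contra h
    push Not at h
    refine hD (Int.cast_injective (α := ℝ) ?_)
    push_cast
    rw [← ht, ← hn, trace_fin_two, det_fin_two, h.1, h.2.1, sub_eq_zero.1 h.2.2]
    ring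
  obtain ⟨β, h01, h10, hd⟩ : ∃ β, w 0 1 = β * x 0 1 ∧ w 1 0 = β * x 1 0 ∧
      w 0 0 - w 1 1 = β * (x 0 0 - x 1 1) := by
    rcases key with h | h | h
    · exact ⟨w 0 1 / x 0 1, by field_simp, by field_simp; linarith, by field_simp; linarith⟩
    · exact ⟨w 1 0 / x 1 0, by field_simp; linarith, by field_simp, by field_simp; linarith⟩
    · exact ⟨(w 0 0 - w 1 1) / (x 0 0 - x 1 1), by field_simp; linarith, by field_simp; linarith,
        by field_simp⟩
  refine ⟨w 1 1 - β * x 1 1, β, ?_⟩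
  ext i j
  fin_cases i <;> fin_cases j <;> simp <;> linarith

include ht hn in
/-- **The commutant of a primitive element.** -/
theorem exists_lin (hx : x ∈ order) (hp : Prim x) {w : RMat} (hw : w ∈ order)
    (hc : w * x = x * w) (hD : t ^ 2 - 4 * n ≠ 0) : ∃ A B : ℤ, w = lin A B x := by
  obtain ⟨α, β, e⟩ := exists_real_lin ht hn hc hD
  obtain ⟨r, rfl⟩ := hx
  obtain ⟨s, rfl⟩ := hw
  obtain ⟨a, b, c, f⟩ := r
  obtain ⟨a', b', c', f'⟩ := s
  have hs : Real.sqrt 3 ≠ 0 := by positivity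
  have e00 := congrFun (congrFun e 0) 0
  have e01 := congrFun (congrFun e 0) 1
  have e10 := congrFun (congrFun e 1) 0
  have e11 := congrFun (congrFun e 1) 1
  simp [hurMat, realQuat] at e00 e01 e10 e11
  have h4 : (f' : ℝ) = β * f := mul_right_cancel₀ hs (by linarith)
  have h2 : (b' : ℝ) = β * b := by linarith
  have h3 : (c' : ℝ) = β * c := mul_right_cancel₀ hs (by rw [h4] at e00 e11; linarith)
  have hg := (prim_hurMat_iff _).1 hp
  simp only [vecGcd] at hg
  obtain ⟨B, hB⟩ : ∃ B : ℤ, (B : ℝ) = β := by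
    refine ⟨b' * Int.gcdA b c * Int.gcdA (Int.gcd b c) f +
      c' * Int.gcdB b c * Int.gcdA (Int.gcd b c) f + f' * Int.gcdB (Int.gcd b c) f, ?_⟩
    have e1 : ((Int.gcd b c : ℕ) : ℝ) = (b : ℝ) * Int.gcdA b c + c * Int.gcdB b c := by
      exact_mod_cast Int.gcd_eq_gcd_ab b c
    have e2 := Int.gcd_eq_gcd_ab (Int.gcd b c) f
    rw [hg] at e2
    have e3 : (1 : ℝ) = ((Int.gcd b c : ℕ) : ℝ) * Int.gcdA (Int.gcd b c) f +
        f * Int.gcdB (Int.gcd b c) f := by exact_mod_cast e2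
    rw [e1] at e3
    push_cast
    rw [h2, h3, h4]
    linear_combination (-β) * e3
  subst hB
  refine ⟨a' - B * a, B, ?_⟩
  have hA : α = ((a' - B * a : ℤ) : ℝ) := by
    push_cast
    linarith
  rw [e, hA, lin]

end quadratic

/-- **Decomposition.** -/
theorem exists_decomp {x : RMat} {t n : ℤ} (hx : x ∈ order) (ht : x.trace = (t : ℝ))
    (hn : x.det = (n : ℝ)) (hD : t ^ 2 - 4 * n ≠ 0) :
    ∃ (a k t₀ n₀ : ℤ) (ω : OrdTN t₀ n₀), 0 < k ∧ (t₀ = 0 ∨ t₀ = 1) ∧ Prim (ω : RMat) ∧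
      x = lin a k ω ∧ t = 2 * a + k * t₀ ∧ n = a ^ 2 + a * k * t₀ + k ^ 2 * n₀ := by
  obtain ⟨⟨u, b, c, e⟩, rfl⟩ := hx
  set g := vecGcd (u, b, c, e) with hg
  have hg0 : g ≠ 0 := fun h0 => by
    simp only [hg, vecGcd, Int.gcd_eq_zero_iff, Nat.cast_eq_zero] at h0
    obtain ⟨⟨rfl, rfl⟩, rfl⟩ := h0
    rw [← scalar_eq_hurMat] at ht hn
    refine hD (Int.cast_injective (α := ℝ) ?_)
    push_cast
    rw [← ht, ← hn]
    simp
    ring
  obtain ⟨b₀, hb⟩ : (g : ℤ) ∣ b := (Int.gcd_dvd_left _ _).trans (Int.gcd_dvd_left _ _)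
  obtain ⟨c₀, hc⟩ : (g : ℤ) ∣ c := (Int.gcd_dvd_left _ _).trans (Int.gcd_dvd_right _ _)
  obtain ⟨e₀, he⟩ : (g : ℤ) ∣ e := Int.gcd_dvd_right _ _
  obtain ⟨l, s, hs01, hls⟩ : ∃ l s : ℤ, (s = 0 ∨ s = 1) ∧ e₀ = 2 * l + s :=
    ⟨e₀ / 2, e₀ % 2, Int.emod_two_eq_zero_or_one _, by omega⟩
  have hω1 : vecGcd (-l, b₀, c₀, e₀) = 1 := by
    refine mul_left_cancel₀ hg0 ?_
    conv_rhs => rw [mul_one, hg, vecGcd]
    simp only [vecGcd]
    rw [hb, hc, he, Int.gcd_mul_left, Int.natAbs_natCast]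
    push_cast
    rw [Int.gcd_mul_left, Int.natAbs_natCast]
  set ω := hurMat (-l, b₀, c₀, e₀)
  have htω : ω.trace = (s : ℝ) := by
    simp [ω, hurMat, realQuat, trace_fin_two]
    rw [show (e₀ : ℝ) = 2 * l + s by exact_mod_cast hls]
    ring
  obtain ⟨n₀, hn₀⟩ := exists_det (M := ω) ⟨_, rfl⟩
  have hlin : hurMat (u, b, c, e) = lin (u + g * l) g ω := by
    rw [lin, scalar_eq_hurMat, smul_hurMat, ← hurMat_add]
    congr 1
    simp [hb, hc, he]
  refine ⟨u + g * l, g, s, n₀, ⟨ω, ⟨_, rfl⟩, htω, hn₀⟩, by exact_mod_cast Nat.pos_of_ne_zero hg0,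
    hs01, (prim_hurMat_iff _).2 hω1, hlin, ?_, ?_⟩
  · rw [hlin, trace_lin htω] at ht
    rw [Int.cast_injective ht.symm]
    ring
  · rw [hlin, det_lin htω hn₀] at hn
    rw [Int.cast_injective hn.symm]
    ring

/-- **Uniqueness of the decomposition.** -/
theorem decomp_unique {ω ω' : RMat} {a a' k k' s s' : ℤ} (hk : 0 < k) (hk' : 0 < k')
    (hω : ω ∈ order) (hω' : ω' ∈ order) (hp : Prim ω) (hp' : Prim ω')
    (hs : ω.trace = (s : ℝ)) (hs' : ω'.trace = (s' : ℝ)) (h01 : s = 0 ∨ s = 1)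
    (h01' : s' = 0 ∨ s' = 1) (h : lin a k ω = lin a' k' ω') :
    a = a' ∧ k = k' ∧ ω = ω' := by
  have htr := congrArg Matrix.trace h
  rw [trace_lin hs, trace_lin hs', Int.cast_inj] at htr
  obtain ⟨⟨u, b, c, e⟩, rfl⟩ := hω
  obtain ⟨⟨u', b', c', e'⟩, rfl⟩ := hω'
  rw [lin, lin, scalar_eq_hurMat, scalar_eq_hurMat, smul_hurMat, smul_hurMat, ← hurMat_add,
    ← hurMat_add] at h
  have h' := hurMat_injective h
  simp [Prod.ext_iff] at h'
  obtain ⟨h1, h2, h3, h4⟩ := h'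
  have g1 := (prim_hurMat_iff _).1 hp
  have g2 := (prim_hurMat_iff _).1 hp'
  simp only [vecGcd] at g1 g2
  have hkk : k = k' := by
    have e1 : Int.gcd (Int.gcd (k * b) (k * c) : ℤ) (k * e) = k.natAbs := by
      rw [Int.gcd_mul_left, Nat.cast_mul, Int.natCast_natAbs, abs_of_pos hk, Int.gcd_mul_left,
        g1, mul_one]
    have e2 : Int.gcd (Int.gcd (k' * b') (k' * c') : ℤ) (k' * e') = k'.natAbs := by
      rw [Int.gcd_mul_left, Nat.cast_mul, Int.natCast_natAbs, abs_of_pos hk', Int.gcd_mul_left,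
        g2, mul_one]
    rw [h2, h3, h4, e2] at e1
    omega
  subst hkk
  have hb := mul_left_cancel₀ hk.ne' h2
  have hc := mul_left_cancel₀ hk.ne' h3
  have he := mul_left_cancel₀ hk.ne' h4
  subst hb hc he
  have hs2 : s = 2 * u + e := Int.cast_injective (α := ℝ) (by
    rw [← hs]; simp [hurMat, realQuat, trace_fin_two]; ring)
  have hs2' : s' = 2 * u' + e := Int.cast_injective (α := ℝ) (by
    rw [← hs']; simp [hurMat, realQuat, trace_fin_two]; ring)
  have hu : u = u' := by omega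
  subst hu
  refine ⟨?_, rfl, rfl⟩
  subst hs2 hs2'
  linarith

end FA.QuaternionClasses

end
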