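import Fermat.Agent.QuaternionClasses.Formula
import Fermat.Agent.CocompactTrace.Quaternion

/-!
# An example: weight four and `n = 5`

The forms of weight four are a line, and `T 5` in its arithmetic normalisation acts on it by `6`.
-/

set_option autoImplicit false
set_option linter.unusedSectionVars false
set_option linter.style.haveILetI false

noncomputable section

open UpperHalfPlane hiding I
open FA.CocompactForms FA.QuaternionHecke FA.QuaternionArith
open FA.ClassRelation (redForms weight)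

namespace FA.QuaternionClasses

theorem redForms_values :
    redForms 4 = {(1, 0, 1)} ∧ redForms 11 = {(1, 1, 3)} ∧
      redForms 16 = {(1, 0, 4), (2, 0, 2)} ∧ redForms 19 = {(1, 1, 5)} ∧
      redForms 20 = {(1, 0, 5), (2, 2, 3)} := by
  decide +kernel

theorem quatClassNumber_values :
    quatClassNumber 4 = 1 ∧ quatClassNumber 11 = 0 ∧ quatClassNumber 16 = 1 ∧
      quatClassNumber 19 = 4 ∧ quatClassNumber 20 = 0 := by
  obtain ⟨h4, h11, h16, h19, h20⟩ := redForms_values
  have he : formEps (1, 0, 1) = 2 ∧ formEps (1, 1, 3) = 0 ∧ formEps (1, 0, 4) = 0 ∧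
      formEps (2, 0, 2) = 2 ∧ formEps (1, 1, 5) = 4 ∧ formEps (1, 0, 5) = 0 ∧
      formEps (2, 2, 3) = 0 := by decide +kernel
  simp [quatClassNumber, h4, h11, h16, h19, h20, weight, he]

theorem finrank_weight_four :
    Module.finrank ℂ (forms orderUnits ((2 * 2 : ℕ) : ℤ)) = 1 := by
  have h := FA.CocompactTrace.finrank_orderUnits (m := 2) le_rfl
  norm_num at h ⊢
  exact_mod_cast h

theorem trace_five :
    ((5 : ℕ+) : ℂ) ^ (2 - 1) * LinearMap.trace ℂ (forms orderUnits ((2 * 2 : ℕ) : ℤ))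
      (hecke ((2 * 2 : ℕ) : ℤ) (5 : ℕ+)) = 6 := by
  have h := trace_explicit (5 : ℕ+) (le_refl 2)
  have hn : ((5 : ℕ+) : ℕ) = 5 := rfl
  have hsq : ¬IsSquare 5 := by
    rintro ⟨r, hr⟩
    have : r < 3 := by nlinarith
    interval_cases r <;> omega
  have hts : tset 5 = {-4, -3, -2, -1, 0, 1, 2, 3, 4} := by decide +kernel
  obtain ⟨q4, q11, q16, q19, q20⟩ := quatClassNumber_values
  simp only [hn, hts, if_neg hsq] at h ⊢
  rw [h]
  norm_num [lucas, Int.toNat, q4, q11, q16, q19, q20]

theorem hecke_five (f : forms orderUnits ((2 * 2 : ℕ) : ℤ)) :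
    ((5 : ℕ+) : ℂ) ^ (2 - 1) • hecke ((2 * 2 : ℕ) : ℤ) (5 : ℕ+) f = (6 : ℂ) • f := by
  obtain ⟨b, a, hb⟩ := exists_arith_eigenbasis 2
  have htr : LinearMap.trace ℂ (forms orderUnits ((2 * 2 : ℕ) : ℤ)) (arith 2 (5 : ℕ+)) = 6 := by
    rw [arith, map_smul, smul_eq_mul]
    exact trace_five
  rw [trace_eq_sum b fun i => hb i (5 : ℕ+)] at htr
  haveI : Subsingleton (Fin (Module.finrank ℂ (forms orderUnits ((2 * 2 : ℕ) : ℤ)))) := by
    rw [finrank_weight_four]
    infer_instance
  have hval : ∀ i, (a i (5 : ℕ+) : ℂ) = 6 := fun i => by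
    rw [Fintype.sum_subsingleton _ i] at htr
    exact htr
  have e : arith 2 (5 : ℕ+) = (6 : ℂ) • LinearMap.id :=
    b.ext fun i => by rw [hb, hval, LinearMap.smul_apply, LinearMap.id_apply]
  exact LinearMap.congr_fun e f

end FA.QuaternionClasses

end
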