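import Fermat.Agent.QuaternionClasses.Bijection
import Fermat.Agent.QuaternionEmbedding.Criterion

/-!
# Existence

Every primitive matrix and every possible content occur: the left ideal spanned by the conjugate of
the lattice of the matrix is principal, and conjugation by an element of norm `2` or `3` changes
the content.  A primitive element exists as soon as the local factors are not zero.
-/

set_option autoImplicit false
set_option linter.unusedSectionVars false
set_option linter.style.haveILetI false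

noncomputable section

open Matrix
open scoped MatrixGroups
open FA.Horocycle FA.QuaternionHecke FA.QuaternionNormalizer FA.QuaternionEmbedding
open FA.MatrixClasses
open FA.ClassRelation (Mat)

namespace FA.QuaternionClasses

section

variable {t n : ℤ} {x₀ : OrdTN t n}

theorem exists_generator_pos {e₁ e₂ : RMat} (h₁ : e₁ ∈ order) (h₂ : e₂ ∈ order)
    (hd : e₁.det ≠ 0) (pos : Prop) [Decidable pos] :
    ∃ g ∈ order, g.det ≠ 0 ∧ (pos → 0 < g.det) ∧ (¬pos → g.det < 0) ∧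
      (∃ a ∈ order, ∃ b ∈ order, g = a * e₁ + b * e₂) ∧
      ∃ u₁ ∈ order, ∃ u₂ ∈ order, e₁ = u₁ * g ∧ e₂ = u₂ * g := by
  let I : AddSubgroup RMat :=
    { carrier := {y | ∃ a ∈ order, ∃ b ∈ order, y = a * e₁ + b * e₂}
      add_mem' := by
        rintro _ _ ⟨a, ha, b, hb, rfl⟩ ⟨a', ha', b', hb', rfl⟩
        exact ⟨a + a', add_mem ha ha', b + b', add_mem hb hb', by
          rw [Matrix.add_mul, Matrix.add_mul]; abel⟩
      zero_mem' := ⟨0, zero_mem _, 0, zero_mem _, by simp⟩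
      neg_mem' := by
        rintro _ ⟨a, ha, b, hb, rfl⟩
        exact ⟨-a, neg_mem ha, -b, neg_mem hb, by rw [Matrix.neg_mul, Matrix.neg_mul]; abel⟩ }
  have hIO : ∀ y ∈ I, y ∈ order := by
    rintro _ ⟨a, ha, b, hb, rfl⟩
    exact add_mem (mul_mem ha h₁) (mul_mem hb h₂)
  have hImul : ∀ c ∈ order, ∀ y ∈ I, c * y ∈ I := by
    rintro c hc _ ⟨a, ha, b, hb, rfl⟩
    exact ⟨c * a, mul_mem hc ha, c * b, mul_mem hc hb, by
      rw [Matrix.mul_add, Matrix.mul_assoc, Matrix.mul_assoc]⟩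
  obtain ⟨g₀, hg₀, hdiv⟩ := exists_generator I hIO hImul
  obtain ⟨u₁, hu₁, hu₁e⟩ := hdiv e₁ ⟨1, one_mem _, 0, zero_mem _, by simp⟩
  obtain ⟨u₂, hu₂, hu₂e⟩ := hdiv e₂ ⟨0, zero_mem _, 1, one_mem _, by simp⟩
  have hg0 : g₀.det ≠ 0 := fun h0 => hd (by rw [hu₁e, det_mul, h0, mul_zero])
  obtain ⟨w, hw, hw1⟩ := exists_det_neg_one
  have hgood : ∀ g ∈ I, g.det ≠ 0 → (∀ y ∈ I, ∃ q ∈ order, y = q * g) →
      (pos → 0 < g.det) → (¬pos → g.det < 0) →
      ∃ g ∈ order, g.det ≠ 0 ∧ (pos → 0 < g.det) ∧ (¬pos → g.det < 0) ∧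
        (∃ a ∈ order, ∃ b ∈ order, g = a * e₁ + b * e₂) ∧
        ∃ u₁ ∈ order, ∃ u₂ ∈ order, e₁ = u₁ * g ∧ e₂ = u₂ * g := fun g hg hgd hdiv hp hn => by
    obtain ⟨a, ha, hae⟩ := hdiv e₁ ⟨1, one_mem _, 0, zero_mem _, by simp⟩
    obtain ⟨b, hb, hbe⟩ := hdiv e₂ ⟨0, zero_mem _, 1, one_mem _, by simp⟩
    exact ⟨g, hIO g hg, hgd, hp, hn, hg, a, ha, b, hb, hae, hbe⟩
  by_cases hsign : (pos → 0 < g₀.det) ∧ (¬pos → g₀.det < 0)
  · exact hgood g₀ hg₀ hg0 hdiv hsign.1 hsign.2
  · refine hgood (w * g₀) (hImul w hw g₀ hg₀) (by rw [det_mul, hw1]; simpa using hg0)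
      (fun y hy => ?_) (fun hp => ?_) fun hn => ?_
    · obtain ⟨q, hq, rfl⟩ := hdiv y hy
      refine ⟨q * -adjugate w, mul_mem hq (neg_mem (adjugate_mem hw)), ?_⟩
      rw [← Matrix.mul_assoc, Matrix.mul_assoc q, Matrix.neg_mul, Matrix.adjugate_mul, hw1]
      simp
    · rw [det_mul, hw1]
      have : g₀.det < 0 := lt_of_le_of_ne (not_lt.1 fun h => hsign ⟨fun _ => h, absurd hp⟩) hg0
      linarith
    · rw [det_mul, hw1]
      have : 0 < g₀.det := lt_of_le_of_ne
        (not_lt.1 fun h => hsign ⟨fun h' => absurd h' hn, fun _ => h⟩) hg0.symm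
      linarith

variable (hD : t ^ 2 - 4 * n < 0)

include hD in
/-- **Every primitive matrix occurs.** -/
theorem exists_matches (hp₀ : Prim (x₀ : RMat)) {M : Mat} (ht : M.trace = t) (hn : M.det = n)
    (hM : PrimM M) : ∃ (x : OrdTN t n) (d : ℕ), Prim (x : RMat) ∧ Matches (x₀ : RMat) x M d := by
  classical
  have hc := corner_ne ht hn hD
  set m := M 1 0 with hm
  set a := M 0 0 with ha
  set e₂ : RMat := lin (-a) 1 x₀ with he₂
  set f₂ : RMat := lin (t - a) (-1) x₀ with hf₂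
  rw [Matrix.trace_fin_two] at ht
  rw [Matrix.det_fin_two] at hn
  have htR : (a : ℝ) + M 1 1 = t := by exact_mod_cast ht
  have hnR : (a : ℝ) * M 1 1 - M 0 1 * m = n := by exact_mod_cast hn
  have hxx := mul_self_eq x₀.2.2.1 x₀.2.2.2
  have hadj : adjugate e₂ = f₂ := by
    rw [he₂, adjugate_eq (trace_lin x₀.2.2.1 (-a) 1), hf₂, lin, lin]
    push_cast
    module
  obtain ⟨g, hg, hgd, hpos, hneg, ⟨p, hp, r, hr, hgpr⟩, u₁, hu₁, u₂, hu₂, hu₁g, hu₂g⟩ :=
    exists_generator_pos (e₁ := (m : ℝ) • (1 : RMat)) (e₂ := f₂)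
      (intCast_smul_mem (one_mem _) m) (lin_mem x₀.2.1 _ _) (by simpa using hc) (0 < m)
  obtain ⟨N, hN⟩ := exists_det hg
  -- the element
  have hf₂x : f₂ * (x₀ : RMat) = (a : ℝ) • f₂ - (M 0 1 : ℝ) • ((m : ℝ) • (1 : RMat)) := by
    simp only [hf₂, lin, Matrix.add_mul, Matrix.smul_mul, Matrix.one_mul, hxx, smul_sub, smul_add,
      smul_smul]
    push_cast
    match_scalars <;> (try simp only [← htR, ← hnR]) <;> ring
  have hmx : ((m : ℝ) • (1 : RMat)) * (x₀ : RMat) =
      ((t - a : ℤ) : ℝ) • ((m : ℝ) • (1 : RMat)) - (m : ℝ) • f₂ := by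
    simp only [hf₂, lin, Matrix.smul_mul, Matrix.one_mul, smul_add, smul_smul]
    push_cast
    module
  set q : RMat := p * (((t - a : ℤ) : ℝ) • u₁ - (m : ℝ) • u₂) +
    r * ((a : ℝ) • u₂ - (M 0 1 : ℝ) • u₁) with hq
  have hqo : q ∈ order := add_mem (mul_mem hp (sub_mem (intCast_smul_mem hu₁ _)
    (intCast_smul_mem hu₂ _))) (mul_mem hr (sub_mem (intCast_smul_mem hu₂ _)
    (intCast_smul_mem hu₁ _)))
  have hqg : g * (x₀ : RMat) = q * g := by
    conv_lhs => rw [hgpr]
    rw [Matrix.add_mul, Matrix.mul_assoc, Matrix.mul_assoc, hmx, hf₂x, hq, Matrix.add_mul,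
      Matrix.mul_assoc, Matrix.mul_assoc, Matrix.sub_mul, Matrix.sub_mul, Matrix.smul_mul,
      Matrix.smul_mul, Matrix.smul_mul, Matrix.smul_mul, ← hu₁g, ← hu₂g]
  have hqd : q.det = n := by
    have e := congrArg Matrix.det hqg
    rw [det_mul, det_mul, x₀.2.2.2] at e
    exact mul_right_cancel₀ hgd (by linarith)
  have hqt : q.trace = t := by
    have e := congrArg (fun X : RMat => (X * adjugate g).trace) hqg
    simp only [Matrix.mul_assoc q, Matrix.mul_adjugate, Matrix.mul_smul, Matrix.mul_one] at e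
    rw [trace_mul_comm, ← Matrix.mul_assoc, Matrix.adjugate_mul, Matrix.smul_mul, Matrix.one_mul,
      trace_smul, trace_smul, x₀.2.2.1] at e
    simp only [smul_eq_mul] at e
    exact mul_left_cancel₀ hgd e.symm
  set x : OrdTN t n := ⟨q, hqo, hqt, hqd⟩
  set y₁ := adjugate u₁ with hy₁def
  set y₂ := adjugate u₂ with hy₂def
  have he₁ : adjugate g * y₁ = (m : ℝ) • (1 : RMat) := by
    rw [hy₁def, ← Matrix.adjugate_mul_distrib, ← hu₁g, adjugate_smul, adjugate_one]
    simp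
  have he₂' : adjugate g * y₂ = e₂ := by
    rw [hy₂def, ← Matrix.adjugate_mul_distrib, ← hu₂g, ← hadj]
    ext i j
    fin_cases i <;> fin_cases j <;> simp [adjugate_fin_two]
  have hcancel : ∀ X Y : RMat, adjugate g * X = adjugate g * Y → X = Y := fun X Y h => by
    have e := congrArg (g * ·) h
    simp only [← Matrix.mul_assoc, Matrix.mul_adjugate, Matrix.smul_mul, Matrix.one_mul] at e
    exact smul_right_injective _ hgd e
  have hgq : adjugate g * q = (x₀ : RMat) * adjugate g := by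
    have e := congrArg (fun X : RMat => adjugate g * X * adjugate g) hqg
    simp only [Matrix.mul_assoc, Matrix.mul_adjugate, Matrix.mul_smul, Matrix.mul_one] at e
    rw [← Matrix.mul_assoc (adjugate g) g, Matrix.adjugate_mul, Matrix.smul_mul,
      Matrix.one_mul] at e
    exact (smul_right_injective _ hgd e).symm
  have hinter : ∀ y : RMat, y ∈ order → (x₀ : RMat) * (adjugate g * y) = adjugate g * y * x₀ →
      Inter (x₀ : RMat) x y := fun y hy e => ⟨hy, hcancel _ _ (by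
    show adjugate g * (q * y) = _
    rw [← Matrix.mul_assoc, hgq, Matrix.mul_assoc, e, Matrix.mul_assoc])⟩
  have hi₁ : Inter (x₀ : RMat) x y₁ := hinter y₁ (adjugate_mem hu₁) (by
    rw [he₁]; simp)
  have hi₂ : Inter (x₀ : RMat) x y₂ := hinter y₂ (adjugate_mem hu₂) (by
    rw [he₂', he₂]
    simp [lin, Matrix.mul_add, Matrix.add_mul])
  have hcomb : ∀ P Q : ℤ, adjugate g * comb y₁ y₂ P Q = lin (P * m - Q * a) Q x₀ := fun P Q => by
    rw [comb, Matrix.mul_add, Matrix.mul_smul, Matrix.mul_smul, he₁, he₂', he₂, lin, lin,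
      smul_add, smul_smul, smul_smul, smul_smul]
    push_cast
    module
  have hspan : ∀ h, Inter (x₀ : RMat) x h → ∃ P Q : ℤ, h = comb y₁ y₂ P Q := by
    intro h hh
    obtain ⟨A, B, hk⟩ : ∃ A B : ℤ, adjugate g * h = lin A B x₀ := by
      refine exists_lin x₀.2.2.1 x₀.2.2.2 x₀.2.1 hp₀ (mul_mem (adjugate_mem hg) hh.1) ?_ hD.ne
      rw [Matrix.mul_assoc, ← hh.2, ← Matrix.mul_assoc, hgq, Matrix.mul_assoc]
    suffices hdvd : m ∣ A + a * B by
      obtain ⟨P, hP⟩ := hdvd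
      refine ⟨P, B, hcancel _ _ ?_⟩
      rw [hk, hcomb, show P * m - B * a = A by linarith]
    -- the conjugate of `A + B x₀` lies in the left ideal
    have hkI : lin (A + t * B) (-B) (x₀ : RMat) =
        adjugate h * p * ((m : ℝ) • (1 : RMat)) + adjugate h * r * f₂ := by
      rw [Matrix.mul_assoc, Matrix.mul_assoc, ← Matrix.mul_add, ← hgpr]
      have e := congrArg Matrix.adjugate hk
      rw [Matrix.adjugate_mul_distrib, adjugate_eq (trace_lin x₀.2.2.1 A B)] at e
      rw [show adjugate (adjugate g) = g by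
        ext i j
        fin_cases i <;> fin_cases j <;> simp [adjugate_fin_two]] at e
      rw [e, lin, lin]
      push_cast
      module
    have hm' : (m : ℝ) ≠ 0 := Int.cast_ne_zero.2 hc
    have hmem : ∀ (C D : ℤ), (m : ℝ)⁻¹ • lin C D (x₀ : RMat) ∈ order → m ∣ C ∧ m ∣ D := by
      intro C D hmem
      obtain ⟨C', D', e⟩ := exists_lin x₀.2.2.1 x₀.2.2.2 x₀.2.1 hp₀ hmem (by
        simp [lin, Matrix.add_mul, Matrix.mul_add]) hD.ne
      have e' : lin C D (x₀ : RMat) = lin (m * C') (m * D') x₀ := by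
        have e2 := congrArg ((m : ℝ) • ·) e
        simp only [smul_inv_smul₀ hm'] at e2
        rw [e2]
        simp [lin, smul_add, smul_smul]
      obtain ⟨h1, h2⟩ := lin_injective x₀.2.2.1 x₀.2.2.2 hD.ne e'
      exact ⟨⟨C', h1⟩, ⟨D', h2⟩⟩
    have hff : f₂ * e₂ = (m : ℝ) • ((-(M 0 1) : ℤ) : ℝ) • (1 : RMat) := by
      rw [← hadj, Matrix.adjugate_mul, he₂, det_lin x₀.2.2.1 x₀.2.2.2, smul_smul]
      congr 1
      push_cast
      rw [← htR, ← hnR]
      ring
    have hdiv : (m : ℝ)⁻¹ • (lin (A + t * B) (-B) (x₀ : RMat) * e₂) ∈ order := by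
      rw [hkI, Matrix.add_mul, Matrix.mul_smul, Matrix.mul_one, Matrix.smul_mul,
        Matrix.mul_assoc _ f₂, hff, Matrix.mul_smul, ← smul_add, inv_smul_smul₀ hm']
      exact add_mem (mul_mem (mul_mem (adjugate_mem hh.1) hp) (lin_mem x₀.2.1 _ _))
        (mul_mem (mul_mem (adjugate_mem hh.1) hr) (intCast_smul_mem (one_mem _) _))
    have e : lin (A + t * B) (-B) (x₀ : RMat) * e₂ =
        lin (-(a * (A + t * B)) + n * B) (A + a * B) x₀ := by
      simp only [he₂, lin, Matrix.mul_add, Matrix.add_mul, Matrix.smul_mul, Matrix.mul_smul,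
        Matrix.one_mul, Matrix.mul_one, hxx, smul_sub, smul_add, smul_smul]
      push_cast
      module
    rw [e] at hdiv
    exact (hmem _ _ hdiv).2
  -- orientation
  obtain ⟨A, B, hAB⟩ := inner hD hp₀ hi₁ hi₂
  have hBpos : 0 < B := by
    have h1 : adjugate (adjugate g * y₁) * (adjugate g * y₂) =
        g.det • (adjugate y₁ * y₂) := by
      rw [Matrix.adjugate_mul_distrib, Matrix.mul_assoc,
        ← Matrix.mul_assoc (adjugate (adjugate g)), Matrix.adjugate_mul, det_adjugate]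
      simp
    rw [he₁, he₂', adjugate_smul, adjugate_one, hAB, hN] at h1
    have e : lin (-(m * a)) m (x₀ : RMat) = lin (N * A) (N * B) x₀ := by
      simpa [he₂, lin, smul_add, smul_smul] using h1
    obtain ⟨-, h2⟩ := lin_injective x₀.2.2.1 x₀.2.2.2 hD.ne e
    rcases lt_or_gt_of_ne hc with hlt | hgt
    · have := hneg (not_lt.2 hlt.le)
      rw [hN] at this
      have hN0 : N < 0 := by exact_mod_cast this
      nlinarith
    · have := hpos hgt
      rw [hN] at this
      have hN0 : 0 < N := by exact_mod_cast this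
      nlinarith
  obtain ⟨d, hd⟩ := exists_content (x₀ : RMat) x
  have hmatch : Matches (x₀ : RMat) x M d := by
    refine ⟨y₁, y₂, ⟨hi₁, hi₂, hspan, A, B, hBpos, hAB⟩, ⟨hcancel _ _ ?_, hcancel _ _ ?_⟩, hd⟩
    · rw [← Matrix.mul_assoc, he₁, hcomb, lin, ← hm, ← ha]
      rw [Matrix.smul_mul, Matrix.one_mul]
      push_cast
      module
    · rw [← Matrix.mul_assoc, he₂', hcomb, he₂]
      simp only [lin, Matrix.add_mul, Matrix.smul_mul, Matrix.one_mul, hxx, smul_sub, smul_smul]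
      push_cast
      match_scalars <;> (try simp only [← htR, ← hnR]) <;> ring
  exact ⟨x, d, prim_of_matches hD hp₀ hM hmatch, hmatch⟩

theorem det_conj {W : RMat} {q : ℕ} (hW : W.det = (q : ℝ)) (hq : (q : ℝ) ≠ 0) (X : RMat) :
    ((q : ℝ)⁻¹ • (W * X * adjugate W)).det = X.det ∧
      ((q : ℝ)⁻¹ • (W * X * adjugate W)).trace = X.trace := by
  refine ⟨?_, ?_⟩
  · rw [det_smul, det_mul, det_mul, det_adjugate, hW, Fintype.card_fin]
    simp
    field_simp
  · rw [trace_smul, trace_mul_cycle, Matrix.adjugate_mul, hW, Matrix.smul_mul, Matrix.one_mul,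
      trace_smul, smul_eq_mul, smul_eq_mul, inv_mul_cancel_left₀ hq]

theorem exists_norm_element {q : ℕ} (hq : q = 2 ∨ q = 3) : ∃ W ∈ order, W.det = (q : ℝ) := by
  have hd : q ∣ 6 := by rcases hq with rfl | rfl <;> norm_num
  obtain ⟨g, hg⟩ := exists_class hd
  exact ⟨_, hg, det_sqrt_smul q g⟩

include hD in
/-- **Changing the content at an inert prime.** -/
theorem exists_flip (hp₀ : Prim (x₀ : RMat)) {x : OrdTN t n} {M : Mat}
    {d : ℕ} (hm : Matches (x₀ : RMat) x M d) {q : ℕ} (hq : q = 2 ∨ q = 3) (hI : Inert t n q)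
    (hM : PrimM M) :
    ∃ (x' : OrdTN t n) (d' : ℕ), Prim (x' : RMat) ∧ Matches (x₀ : RMat) x' M d' ∧
      (q ∣ d' ↔ ¬q ∣ d) ∧ ∀ q' : ℕ, q' = 2 ∨ q' = 3 → q' ≠ q → (q' ∣ d' ↔ q' ∣ d) := by
  have hqp : q.Prime := by rcases hq with rfl | rfl <;> norm_num
  have hqi := Nat.prime_iff_prime_int.1 hqp
  have hq0 : (q : ℝ) ≠ 0 := Nat.cast_ne_zero.2 hqp.ne_zero
  obtain ⟨W, hW, hWd⟩ := exists_norm_element hq
  have hWq : W.det = (((q : ℤ)) : ℝ) := by rw [hWd]; simp
  obtain ⟨y₁, y₂, hf, hA, hd⟩ := hm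
  have hx' : (q : ℝ)⁻¹ • (W * (x : RMat) * adjugate W) ∈ order :=
    div_mem_prime hq (mul_mem (mul_mem hW x.2.1) (adjugate_mem hW)) (N := (q : ℤ) ^ 2 * n)
      (by rw [det_mul, det_mul, det_adjugate, hWd, x.2.2.2]; simp; ring) (dvd_mul_right _ _)
  set x' : OrdTN t n := ⟨_, hx', (det_conj hWd hq0 x).2.trans x.2.2.1,
    (det_conj hWd hq0 x).1.trans x.2.2.2⟩ with hx'def
  have hW' : adjugate W * W = (q : ℝ) • (1 : RMat) := by rw [Matrix.adjugate_mul, hWd]
  have hW'' : W * adjugate W = (q : ℝ) • (1 : RMat) := by rw [Matrix.mul_adjugate, hWd]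
  have fwd : ∀ (c : ℝ) h, Inter (x₀ : RMat) x h → c • (W * h) ∈ order →
      Inter (x₀ : RMat) x' (c • (W * h)) := fun c h hh hmem => ⟨hmem, by
    show ((q : ℝ)⁻¹ • (W * (x : RMat) * adjugate W)) * (c • (W * h)) = _
    rw [Matrix.smul_mul, Matrix.mul_smul, Matrix.smul_mul, ← Matrix.mul_assoc,
      Matrix.mul_assoc (W * (x : RMat)), hW', Matrix.mul_smul, Matrix.mul_one, Matrix.smul_mul,
      smul_comm c, inv_smul_smul₀ hq0, Matrix.mul_assoc W, hh.2, Matrix.mul_assoc]⟩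
  have bwd : ∀ h, Inter (x₀ : RMat) x' h → Inter (x₀ : RMat) x (adjugate W * h) := fun h hh =>
    ⟨mul_mem (adjugate_mem hW) hh.1, by
      have e := congrArg (adjugate W * ·) hh.2
      simp only [hx'def, Matrix.smul_mul, Matrix.mul_smul, ← Matrix.mul_assoc, hW',
        Matrix.one_mul, inv_smul_smul₀ hq0] at e
      rw [← Matrix.mul_assoc]
      exact e⟩
  obtain ⟨A, B, hB, hAB⟩ := hf.orient
  by_cases hqd : q ∣ d
  · -- divide by `q`
    have hall := (hd.2 q hq).1 hqd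
    have hmem : ∀ h, Inter (x₀ : RMat) x h → (q : ℝ)⁻¹ • (W * h) ∈ order := fun h hh => by
      obtain ⟨N, hN⟩ := exists_det hh.1
      refine div_mem_prime hq (mul_mem hW hh.1) (N := q * N)
        (by rw [det_mul, hWd, hN]; simp) ?_
      rw [sq]
      exact mul_dvd_mul_left _ (hall h hh N hN)
    set z₁ := (q : ℝ)⁻¹ • (W * y₁)
    set z₂ := (q : ℝ)⁻¹ • (W * y₂)
    have hc : ∀ P Q, comb z₁ z₂ P Q = (q : ℝ)⁻¹ • (W * comb y₁ y₂ P Q) := fun P Q => by
      simp [z₁, z₂, comb, Matrix.mul_add, smul_add, smul_smul, mul_comm]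
    have i₁ := fwd _ _ hf.fst (hmem _ hf.fst)
    have i₂ := fwd _ _ hf.snd (hmem _ hf.snd)
    have hsp : ∀ h, Inter (x₀ : RMat) x' h → ∃ P Q : ℤ, h = comb z₁ z₂ P Q := fun h hh => by
      obtain ⟨P, Q, e⟩ := hf.span _ (bwd h hh)
      refine ⟨P, Q, ?_⟩
      rw [hc, ← e, ← Matrix.mul_assoc, hW'', Matrix.smul_mul, Matrix.one_mul, inv_smul_smul₀ hq0]
    obtain ⟨A', B', hAB'⟩ := inner hD hp₀ i₁ i₂
    have hB' : 0 < B' := by
      have e : lin A B (x₀ : RMat) = lin (q * A') (q * B') x₀ := by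
        rw [← hAB, show lin ((q : ℤ) * A') (q * B') (x₀ : RMat) = (q : ℝ) • lin A' B' x₀ by
          simp [lin, smul_add, smul_smul], ← hAB', adjugate_smul, Matrix.adjugate_mul_distrib]
        simp [Matrix.mul_assoc, ← Matrix.mul_assoc _ W, hW', smul_smul]
        field_simp
        simp
      have := (lin_injective x₀.2.2.1 x₀.2.2.2 hD.ne e).2
      nlinarith [hqp.pos]
    obtain ⟨d', hd'⟩ := exists_content (x₀ : RMat) x'
    have hacts : Acts (x₀ : RMat) z₁ z₂ M := by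
      constructor
      · rw [hc, ← hA.1]; simp [z₁, Matrix.mul_assoc]
      · rw [hc, ← hA.2]; simp [z₂, Matrix.mul_assoc]
    have hmatch : Matches (x₀ : RMat) x' M d' :=
      ⟨z₁, z₂, ⟨i₁, i₂, hsp, A', B', hB', hAB'⟩, hacts, hd'⟩
    refine ⟨x', d', prim_of_matches hD hp₀ hM hmatch, hmatch, ?_, fun q' hq' hne => ?_⟩
    · simp only [hqd, not_true_eq_false, iff_false]
      intro h
      obtain ⟨y, N, hy, hN, hnd⟩ := exists_sq_not_dvd hD hf hq
      obtain ⟨N', rfl⟩ := hall y hy N hN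
      refine hnd ?_
      rw [sq]
      refine mul_dvd_mul_left _ ((hd'.2 q hq).1 h _ (fwd _ _ hy (hmem _ hy)) N' ?_)
      rw [det_smul, det_mul, hWd, hN, Fintype.card_fin]
      push_cast
      field_simp
    · have hq'p : q'.Prime := by rcases hq' with rfl | rfl <;> norm_num
      have hq'q : ¬(q' : ℤ) ∣ (q : ℤ) := fun h =>
        hne ((Nat.prime_dvd_prime_iff_eq hq'p hqp).1 (Int.natCast_dvd_natCast.1 h))
      rw [hd'.2 q' hq', hd.2 q' hq']
      constructor
      · intro H h hh N hN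
        obtain ⟨N', rfl⟩ := hall h hh N hN
        exact (H _ (fwd _ _ hh (hmem _ hh)) N' (by
          rw [det_smul, det_mul, hWd, hN, Fintype.card_fin]
          push_cast
          field_simp)).mul_left _
      · intro H h hh N hN
        exact ((Nat.prime_iff_prime_int.1 hq'p).dvd_or_dvd (H _ (bwd h hh) (q * N) (by
          rw [det_mul, det_adjugate, hWd, hN]; simp))).resolve_left hq'q
  · -- multiply by `q`
    obtain ⟨y, N₀, hy, hN₀, hnd⟩ : ∃ y N₀, Inter (x₀ : RMat) x y ∧ y.det = ((N₀ : ℤ) : ℝ) ∧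
        ¬(q : ℤ) ∣ N₀ := by
      have h : ¬∀ h, Inter (x₀ : RMat) x h → ∀ N : ℤ, h.det = (N : ℝ) → (q : ℤ) ∣ N :=
        fun H => hqd ((hd.2 q hq).2 H)
      push Not at h
      obtain ⟨y, hy, N, hN, hnd⟩ := h
      exact ⟨y, N, hy, hN, hnd⟩
    set z₁ := (1 : ℝ) • (W * y₁)
    set z₂ := (1 : ℝ) • (W * y₂)
    have hmem : ∀ h, Inter (x₀ : RMat) x h → (1 : ℝ) • (W * h) ∈ order := fun h hh => by
      rw [one_smul]; exact mul_mem hW hh.1
    have hc : ∀ P Q, comb z₁ z₂ P Q = W * comb y₁ y₂ P Q := fun P Q => by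
      simp [z₁, z₂, comb, Matrix.mul_add]
    have i₁ := fwd _ _ hf.fst (hmem _ hf.fst)
    have i₂ := fwd _ _ hf.snd (hmem _ hf.snd)
    have key : ∀ h, Inter (x₀ : RMat) x' h → (q : ℝ)⁻¹ • (adjugate W * h) ∈ order := fun h hh => by
      obtain ⟨P, Q, hPQ⟩ := inner hD hp₀ hy (bwd h hh)
      obtain ⟨N, hN⟩ := exists_det hh.1
      have hdet : (q : ℤ) * (N₀ * N) = P ^ 2 + t * P * Q + n * Q ^ 2 :=
        Int.cast_injective (α := ℝ) (by
          rw [← det_lin x₀.2.2.1 x₀.2.2.2, ← hPQ, det_mul, det_mul, det_adjugate, det_adjugate,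
            hWd, hN₀, hN]
          simp
          ring)
      obtain ⟨⟨P', hP'⟩, ⟨Q', hQ'⟩⟩ := inert_dvd hqp hI (hdet ▸ dvd_mul_right _ _)
      obtain ⟨u, v, huv⟩ := (Prime.coprime_iff_not_dvd hqi).2 hnd
      have e : (q : ℝ)⁻¹ • (adjugate W * h) = (u : ℝ) • (adjugate W * h) +
          (v : ℝ) • (y * lin P' Q' (x₀ : RMat)) := by
        have e1 : y * lin P Q (x₀ : RMat) = (N₀ : ℝ) • (adjugate W * h) := by
          rw [← hPQ, ← Matrix.mul_assoc, Matrix.mul_adjugate, hN₀, Matrix.smul_mul, Matrix.one_mul]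
        have e2 : y * lin P' Q' (x₀ : RMat) = ((q : ℝ)⁻¹ * N₀) • (adjugate W * h) := by
          rw [mul_smul, ← e1, hP', hQ', show lin ((q : ℤ) * P') (q * Q') (x₀ : RMat) =
            (q : ℝ) • lin P' Q' x₀ by simp [lin, smul_add, smul_smul],
            Matrix.mul_smul, inv_smul_smul₀ hq0]
        rw [e2, smul_smul, ← add_smul]
        congr 1
        have h1 : (u : ℝ) * q + v * N₀ = 1 := by exact_mod_cast huv
        field_simp
        linarith
      rw [e]
      exact add_mem (intCast_smul_mem (mul_mem (adjugate_mem hW) hh.1) u)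
        (intCast_smul_mem (mul_mem hy.1 (lin_mem x₀.2.1 _ _)) v)
    have hsp : ∀ h, Inter (x₀ : RMat) x' h → ∃ P Q : ℤ, h = comb z₁ z₂ P Q := fun h hh => by
      obtain ⟨P, Q, e⟩ := hf.span _ ((bwd h hh).smul_inv (key h hh))
      refine ⟨P, Q, ?_⟩
      rw [hc, ← e, Matrix.mul_smul, ← Matrix.mul_assoc, hW'', Matrix.smul_mul, Matrix.one_mul,
        inv_smul_smul₀ hq0]
    obtain ⟨A', B', hAB'⟩ := inner hD hp₀ i₁ i₂
    have hB' : 0 < B' := by
      have e : lin A' B' (x₀ : RMat) = lin (q * A) (q * B) x₀ := by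
        rw [← hAB']
        simp only [one_smul, Matrix.adjugate_mul_distrib, Matrix.mul_assoc]
        rw [← Matrix.mul_assoc (adjugate W), hW', Matrix.smul_mul, Matrix.one_mul, Matrix.mul_smul,
          hAB]
        simp [lin, smul_add, smul_smul]
      have := (lin_injective x₀.2.2.1 x₀.2.2.2 hD.ne e).2
      nlinarith [hqp.pos]
    obtain ⟨d', hd'⟩ := exists_content (x₀ : RMat) x'
    have hacts : Acts (x₀ : RMat) z₁ z₂ M := by
      constructor
      · rw [hc, ← hA.1]; simp [z₁, Matrix.mul_assoc]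
      · rw [hc, ← hA.2]; simp [z₂, Matrix.mul_assoc]
    have hmatch : Matches (x₀ : RMat) x' M d' :=
      ⟨z₁, z₂, ⟨i₁, i₂, hsp, A', B', hB', hAB'⟩, hacts, hd'⟩
    refine ⟨x', d', prim_of_matches hD hp₀ hM hmatch, hmatch, ?_, fun q' hq' hne => ?_⟩
    · simp only [hqd, not_false_eq_true, iff_true]
      refine (hd'.2 q hq).2 fun h hh N hN => ?_
      obtain ⟨L, hL⟩ := exists_det (key h hh)
      rw [det_smul, det_mul, det_adjugate, hWd, hN, Fintype.card_fin] at hL
      refine ⟨L, Int.cast_injective (α := ℝ) ?_⟩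
      push_cast at hL ⊢
      rw [← hL]
      simp
      field_simp
    · have hq'p : q'.Prime := by rcases hq' with rfl | rfl <;> norm_num
      have hq'q : ¬(q' : ℤ) ∣ (q : ℤ) := fun h =>
        hne ((Nat.prime_dvd_prime_iff_eq hq'p hqp).1 (Int.natCast_dvd_natCast.1 h))
      rw [hd'.2 q' hq', hd.2 q' hq']
      constructor
      · intro H h hh N hN
        exact ((Nat.prime_iff_prime_int.1 hq'p).dvd_or_dvd
          (H _ (fwd _ _ hh (hmem _ hh)) (q * N) (by
            rw [one_smul, det_mul, hWd, hN]; simp))).resolve_left hq'q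
      · intro H h hh N hN
        obtain ⟨L, hL⟩ := exists_det (key h hh)
        have hNL : N = q * L := Int.cast_injective (α := ℝ) (by
          rw [det_smul, det_mul, det_adjugate, hWd, hN, Fintype.card_fin] at hL
          push_cast at hL ⊢
          rw [← hL]
          simp
          field_simp)
        exact hNL ▸ (H _ ((bwd h hh).smul_inv (key h hh)) L hL).mul_left _

include hD in
/-- **Surjectivity.** -/
theorem exists_matches_content (hp₀ : Prim (x₀ : RMat)) {M : Mat} (ht : M.trace = t)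
    (hn : M.det = n) (hM : PrimM M) {e : ℕ} (he : e ∈ contents t n) :
    ∃ x : OrdTN t n, Prim (x : RMat) ∧ Matches (x₀ : RMat) x M e := by
  classical
  obtain ⟨x, d, hx, hm⟩ := exists_matches hD hp₀ ht hn hM
  rw [contents] at he
  split_ifs at he with hadm
  · rw [Finset.mem_filter] at he
    have he6 : e ∣ 6 := (Nat.mem_divisors.1 he.1).1
    have hI : ∀ q : ℕ, q = 2 ∨ q = 3 → q ∣ e → Inert t n q := by
      rintro q (rfl | rfl) h
      exacts [he.2.1 h, he.2.2 h]
    have fix : ∀ q : ℕ, q = 2 ∨ q = 3 → ∀ (x : OrdTN t n) d, Prim (x : RMat) →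
        Matches (x₀ : RMat) x M d → ∃ (x' : OrdTN t n) (d' : ℕ), Prim (x' : RMat) ∧
          Matches (x₀ : RMat) x' M d' ∧ (q ∣ d' ↔ q ∣ e) ∧
          ∀ q' : ℕ, q' = 2 ∨ q' = 3 → q' ≠ q → (q' ∣ d' ↔ q' ∣ d) := fun q hq x d hx hm => by
      by_cases h : q ∣ d ↔ q ∣ e
      · exact ⟨x, d, hx, hm, h, fun q' _ _ => Iff.rfl⟩
      · have hIq : Inert t n q := by
          by_cases hqe : q ∣ e
          · exact hI q hq hqe
          · have hqd : q ∣ d := by tauto
            have hmem := matches_contents hD hp₀ hm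
            rw [contents, if_pos hadm, Finset.mem_filter] at hmem
            rcases hq with rfl | rfl
            exacts [hmem.2.1 hqd, hmem.2.2 hqd]
        obtain ⟨x', d', hx', hm', hflip, hother⟩ := exists_flip hD hp₀ hm hq hIq hM
        exact ⟨x', d', hx', hm', by tauto, hother⟩
    obtain ⟨x₁, d₁, hx₁, hm₁, h2, -⟩ := fix 2 (.inl rfl) x d hx hm
    obtain ⟨x₂, d₂, hx₂, hm₂, h3, hother⟩ := fix 3 (.inr rfl) x₁ d₁ hx₁ hm₁
    have h2' := (hother 2 (.inl rfl) (by norm_num)).trans h2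
    obtain ⟨y₁, y₂, hf, hA, hd⟩ := hm₂
    have : d₂ = e := by
      rcases cases_of_dvd_six hd.1 with rfl | rfl | rfl | rfl <;>
        rcases cases_of_dvd_six he6 with rfl | rfl | rfl | rfl <;> first
        | rfl | exact absurd h2' (by decide) | exact absurd h3 (by decide)
    exact ⟨x₂, hx₂, this ▸ ⟨y₁, y₂, hf, hA, hd⟩⟩
  · simp at he

end

theorem prim_add_scalar {x : RMat} (h : Prim x) (c : ℤ) : Prim (x + (c : ℝ) • 1) :=
  fun q hq k hm => h q hq (k - c) (by
    convert hm using 2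
    push_cast
    module)

theorem exists_prim_mul {t₀ n₀ : ℤ} (h : ∃ ω : OrdTN t₀ n₀, Prim (ω : RMat)) :
    ∀ k : ℕ, 0 < k → (∀ q : ℕ, q.Prime → q ∣ k → 5 ≤ q) →
      ∃ x : OrdTN ((k : ℤ) * t₀) ((k : ℤ) ^ 2 * n₀), Prim (x : RMat) := by
  intro k
  induction k using Nat.recOnMul with
  | zero => intro h0; exact absurd h0 (lt_irrefl 0)
  | one =>
    intro _ _
    obtain ⟨⟨ω, hω⟩, hp⟩ := h
    exact ⟨⟨ω, by simpa using hω⟩, hp⟩
  | prime p hp =>
    intro _ hk
    obtain ⟨ω, hω⟩ := h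
    haveI := Fact.mk hp
    exact exists_raise p (hk p hp dvd_rfl) hω
  | mul a b iha ihb =>
    intro hab hk
    have ha : 0 < a := Nat.pos_of_ne_zero fun h => by simp [h] at hab
    have hb : 0 < b := Nat.pos_of_ne_zero fun h => by simp [h] at hab
    -- apply the induction hypothesis to the larger discriminant
    obtain ⟨x, hx⟩ := iha ha fun q hq hd => hk q hq (hd.mul_right b)
    have key : ∀ (k : ℕ), (∀ q : ℕ, q.Prime → q ∣ k → 5 ≤ q) → 0 < k →
        ∀ (s m : ℤ) (x : OrdTN s m), Prim (x : RMat) →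
          ∃ y : OrdTN ((k : ℤ) * s) ((k : ℤ) ^ 2 * m), Prim (y : RMat) := by
      intro k
      induction k using Nat.recOnMul with
      | zero => intro _ h0; exact absurd h0 (lt_irrefl 0)
      | one => intro _ _ s m x hx; exact ⟨⟨x, by simpa using x.2⟩, hx⟩
      | prime p hp =>
        intro hk _ s m x hx
        haveI := Fact.mk hp
        exact exists_raise p (hk p hp dvd_rfl) hx
      | mul c e ihc ihe =>
        intro hk hce s m x hx
        have hc : 0 < c := Nat.pos_of_ne_zero fun h => by simp [h] at hce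
        have he : 0 < e := Nat.pos_of_ne_zero fun h => by simp [h] at hce
        obtain ⟨y, hy⟩ := ihc (fun q hq hd => hk q hq (hd.mul_right e)) hc s m x hx
        obtain ⟨z, hz⟩ := ihe (fun q hq hd => hk q hq (hd.mul_left c)) he _ _ y hy
        refine ⟨⟨z, z.2.1, z.2.2.1.trans ?_, z.2.2.2.trans ?_⟩, hz⟩ <;> (push_cast; ring)
    obtain ⟨y, hy⟩ := key b (fun q hq hd => hk q hq (hd.mul_left a)) hb _ _ x hx
    refine ⟨⟨y, y.2.1, y.2.2.1.trans ?_, y.2.2.2.trans ?_⟩, hy⟩ <;> (push_cast; ring)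

theorem embeds_of_adm {t n : ℤ} (h2 : Adm t n 2) (h3 : Adm t n 3) :
    Embeds ((t ^ 2 - 4 * n : ℤ) : ℚ) := by
  set D := t ^ 2 - 4 * n with hD
  have c2 : D % 8 = 5 ∨ D % 16 = 8 ∨ D % 16 = 12 := by
    rw [hD, (two_cases t n).2]
    intro a ha
    exact h2 a (by simpa using ha)
  have c3 : D % 3 = 2 ∨ D % 9 = 3 ∨ D % 9 = 6 := by
    rw [hD, (three_cases t n).2]
    intro a ha
    exact h3 a (by simpa using ha)
  refine ⟨?_, ?_⟩
  · rw [Rat.cast_intCast]
    by_cases h4 : (4 : ℤ) ∣ D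
    · obtain ⟨D', hD'⟩ := h4
      rw [hD']
      intro hsq
      have hsq' : IsSquare (D' : ℚ_[2]) := by
        obtain ⟨r, hr⟩ := hsq
        refine ⟨r / 2, ?_⟩
        push_cast at hr
        linear_combination hr / 4
      rw [isSquare_two_iff (by omega)] at hsq'
      omega
    · rw [isSquare_two_iff h4]
      omega
  · rw [Rat.cast_intCast, isSquare_three_iff (by omega)]
    omega

/-- **A primitive element exists.** -/
theorem exists_prim {t n : ℤ} (hD : t ^ 2 - 4 * n < 0) (h2 : Adm t n 2) (h3 : Adm t n 3) :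
    ∃ x : OrdTN t n, Prim (x : RMat) := by
  obtain ⟨y, hy, hyt, hyn⟩ := (exists_mem_iff hD.ne).2 (embeds_of_adm h2 h3)
  obtain ⟨a, k, t₀, n₀, ω, hk, -, hω, -, ht, hn⟩ := exists_decomp hy hyt hyn hD.ne
  lift k to ℕ using hk.le
  have hbad : ∀ q : ℕ, q.Prime → q ∣ k → 5 ≤ q := fun q hq hqk => by
    by_contra h
    have hq' : q = 2 ∨ q = 3 := by
      have := hq.two_le
      interval_cases q <;> first | omega | norm_num at hq
    obtain ⟨k', rfl⟩ := hqk
    have : Adm t n q := by rcases hq' with rfl | rfl <;> assumption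
    refine this a ⟨(k' : ℤ) ^ 2 * n₀, ?_⟩
    rw [charVal, ht, hn]
    push_cast
    ring
  obtain ⟨x, hx⟩ := exists_prim_mul ⟨ω, hω⟩ k (by exact_mod_cast hk) hbad
  refine ⟨⟨(x : RMat) + (a : ℝ) • 1, add_mem x.2.1 (intCast_smul_mem (one_mem _) a), ?_, ?_⟩,
    prim_add_scalar hx a⟩
  · rw [trace_add, x.2.2.1, ht]
    simp
    ring
  · have e := det_lin x.2.2.1 x.2.2.2 a 1
    simp only [lin, Int.cast_one, one_smul] at e
    rw [add_comm, e, hn]
    push_cast
    ring

end FA.QuaternionClasses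

end
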