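import Fermat.Agent.QuaternionClasses.Primitive
import Fermat.Agent.QuaternionArith.Systems

/-!
# The explicit trace formula

The elliptic elements of norm `n` up to conjugation by units are, scaled by `√n`, the classes of
elements of the order of norm `n` and trace `t` with `t ^ 2 < 4 n`; their terms are values of the
Lucas sequence of `(t, n)` divided by the orders of the centralisers.
-/

set_option autoImplicit false
set_option linter.unusedSectionVars false
set_option linter.style.haveILetI false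

noncomputable section

open Complex Matrix
open UpperHalfPlane hiding I
open FA.CocompactForms FA.CocompactDegree FA.CocompactGaussBonnet FA.QuaternionHecke
open FA.QuaternionTrace FA.QuaternionArith
open scoped MatrixGroups

namespace FA.QuaternionClasses

/-- The traces of the elliptic elements of norm `n`. -/
def tset (n : ℕ) : Finset ℤ :=
  (Finset.Icc (-(2 * (n : ℤ))) (2 * (n : ℤ))).filter fun t => t ^ 2 < 4 * (n : ℤ)

theorem mem_tset {n : ℕ} {t : ℤ} : t ∈ tset n ↔ t ^ 2 < 4 * (n : ℤ) := by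
  refine ⟨fun h => (Finset.mem_filter.1 h).2, fun h => Finset.mem_filter.2 ⟨?_, h⟩⟩
  rw [Finset.mem_Icc]
  constructor <;> nlinarith

theorem scaled_chebyU {n : ℕ} {τ : ℝ} {t : ℤ} (ht : Real.sqrt n * τ = t) :
    ∀ i : ℕ, Real.sqrt n ^ i * chebyU i τ = lucas t n i := by
  intro i
  induction i using Nat.strong_induction_on with
  | _ i ih =>
    match i with
    | 0 => simp [chebyU_zero, lucas]
    | 1 => simp [chebyU_one, lucas, ht]
    | i + 2 =>
      rw [lucas]
      push_cast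
      rw [← ih (i + 1) (by omega), ← ih i (by omega), ← ht, chebyU_add_two]
      linear_combination
        -(Real.sqrt n ^ i * chebyU i τ) * Real.sq_sqrt (Nat.cast_nonneg (α := ℝ) n)

variable {n : ℕ} [NeZero n]

theorem sqrt_ne_zero : Real.sqrt n ≠ 0 :=
  (Real.sqrt_pos.2 (Nat.cast_pos.2 (NeZero.pos n))).ne'

/-- The element of determinant one of an element of norm `n`. -/
def toSL {t : ℤ} (x : OrdTN t (n : ℤ)) : SL(2, ℝ) :=
  ⟨(Real.sqrt n)⁻¹ • (x : RMat), by
    rw [det_smul, Fintype.card_fin, x.2.2.2, inv_pow, Real.sq_sqrt (Nat.cast_nonneg n),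
      Int.cast_natCast, inv_mul_cancel₀ (Nat.cast_ne_zero.2 (NeZero.ne n))]⟩

theorem smul_toSL {t : ℤ} (x : OrdTN t (n : ℤ)) :
    Real.sqrt n • (toSL x : RMat) = (x : RMat) :=
  smul_inv_smul₀ sqrt_ne_zero _

theorem sqrt_mul_trace_toSL {t : ℤ} (x : OrdTN t (n : ℤ)) :
    Real.sqrt n * (toSL x 0 0 + toSL x 1 1) = t := by
  rw [← trace_fin_two, ← smul_eq_mul, ← trace_smul, smul_toSL]
  exact x.2.2.1

/-- The elliptic element of an element of norm `n`. -/
def toEll {t : ℤ} (ht : t ∈ tset n) (x : OrdTN t (n : ℤ)) : ellSet n :=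
  ⟨toSL x, by
    show Real.sqrt n • (toSL x : RMat) ∈ order
    rw [smul_toSL]
    exact x.2.1, by
    have h : ((t : ℝ)) ^ 2 < 4 * (n : ℝ) := by exact_mod_cast mem_tset.1 ht
    rw [← sqrt_mul_trace_toSL x, mul_pow, Real.sq_sqrt (Nat.cast_nonneg n), mul_comm 4] at h
    exact lt_of_mul_lt_mul_left h (Nat.cast_nonneg n)⟩

/-- The classes of all traces. -/
abbrev AllClasses (n : ℕ) : Type := Σ t : tset n, ClassesO (t : ℤ) (n : ℤ)

/-- The elliptic class of a class of elements. -/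
def ellClass (p : AllClasses n) : Quotient (conjSetoid (ellSet n)) :=
  Quotient.mk _ (toEll p.1.2 p.2.out)

theorem bijective_ellClass : Function.Bijective (ellClass (n := n)) := by
  constructor
  · rintro ⟨⟨t, ht⟩, c⟩ ⟨⟨t', ht'⟩, c'⟩ h
    obtain ⟨γ, hγ⟩ := Quotient.exact h
    have htr := trace_conj (γ : SL(2, ℝ)) (toSL c.out)
    rw [show (γ : SL(2, ℝ)) * toSL c.out * (γ : SL(2, ℝ))⁻¹ = toSL c'.out from hγ] at htr
    obtain rfl : t = t' := Int.cast_injective (α := ℝ) (by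
      show (t : ℝ) = (t' : ℝ)
      rw [← sqrt_mul_trace_toSL c.out, ← sqrt_mul_trace_toSL c'.out, htr])
    have hc : ConjO c.out c'.out := ⟨γ, by
      have e' : (γ : SL(2, ℝ)) * toSL c.out = toSL c'.out * (γ : SL(2, ℝ)) :=
        mul_inv_eq_iff_eq_mul.1 hγ
      have e : ((γ : SL(2, ℝ)) : RMat) * (toSL c.out : RMat) =
          (toSL c'.out : RMat) * ((γ : SL(2, ℝ)) : RMat) := congrArg Subtype.val e'
      rw [← smul_toSL c.out, ← smul_toSL c'.out, Matrix.mul_smul, e, Matrix.smul_mul]⟩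
    obtain rfl : c = c' := by
      rw [← Quot.out_eq c, ← Quot.out_eq c']
      exact Quot.sound hc
    rfl
  · intro q
    induction q using Quotient.inductionOn with
    | _ g =>
      obtain ⟨t, ht⟩ := exists_trace (show Real.sqrt n • ((g : SL(2, ℝ)) : RMat) ∈ order from g.2.1)
      have hmem : t ∈ tset n := by
        rw [trace_smul, trace_fin_two, smul_eq_mul] at ht
        rw [mem_tset]
        have h := mul_lt_mul_of_pos_left g.2.2 (Nat.cast_pos.2 (NeZero.pos n) : (0 : ℝ) < n)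
        rw [← Real.sq_sqrt (Nat.cast_nonneg (α := ℝ) n), ← mul_pow, ht,
          Real.sq_sqrt (Nat.cast_nonneg (α := ℝ) n), mul_comm] at h
        exact_mod_cast h
      let x : OrdTN t (n : ℤ) := ⟨Real.sqrt n • ((g : SL(2, ℝ)) : RMat), g.2.1, ht, by
        rw [det_smul, Fintype.card_fin, Real.sq_sqrt (Nat.cast_nonneg n),
          show ((g : SL(2, ℝ)) : RMat).det = 1 from (g : SL(2, ℝ)).prop, mul_one,
          Int.cast_natCast]⟩
      obtain ⟨γ, hγ⟩ := (conjO_equivalence _ _).symm (cent_out x)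
      refine ⟨⟨⟨t, hmem⟩, Quot.mk _ x⟩, Quotient.sound (s := conjSetoid (ellSet n)) ⟨γ, ?_⟩⟩
      show (γ : SL(2, ℝ)) * toSL _ * (γ : SL(2, ℝ))⁻¹ = (g : SL(2, ℝ))
      rw [mul_inv_eq_iff_eq_mul]
      refine Subtype.ext ?_
      show ((γ : SL(2, ℝ)) : RMat) * ((Real.sqrt n)⁻¹ • _) = ((g : SL(2, ℝ)) : RMat) * _
      rw [Matrix.mul_smul, hγ, Matrix.smul_mul, inv_smul_smul₀ sqrt_ne_zero]

theorem card_centralUnits {t : ℤ} (x : OrdTN t (n : ℤ)) :
    Nat.card (centralUnits (toSL x)) = Nat.card (centO (x : RMat)) := by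
  refine Nat.card_congr (Equiv.subtypeEquivRight fun γ => ?_)
  rw [mem_centralUnits]
  show _ ↔ ((γ : SL(2, ℝ)) : RMat) * (x : RMat) = (x : RMat) * ((γ : SL(2, ℝ)) : RMat)
  rw [← smul_toSL x, Matrix.mul_smul, Matrix.smul_mul,
    (smul_right_injective RMat (sqrt_ne_zero (n := n))).eq_iff, eq_comm]
  exact Subtype.ext_iff

theorem card_centralUnits_conj {g h : SL(2, ℝ)} {γ : orderUnits}
    (hγ : (γ : SL(2, ℝ)) * g * (γ : SL(2, ℝ))⁻¹ = h) :
    Nat.card (centralUnits g) = Nat.card (centralUnits h) := by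
  refine Nat.card_congr ((MulAut.conj γ).toEquiv.subtypeEquiv fun δ => ?_)
  rw [mem_centralUnits, mem_centralUnits, ← hγ]
  simp [mul_assoc]
  rw [← mul_assoc, ← mul_assoc, mul_left_inj]

theorem re_ellTerm {t : ℤ} (g : ellSet n) (ht : Real.sqrt n * ((g : SL(2, ℝ)) 0 0 +
    (g : SL(2, ℝ)) 1 1) = t) {m : ℕ} (hm : 1 ≤ m) :
    (n : ℝ) ^ (m - 1) * (ellTerm m g).re =
      -(lucas t n (2 * m - 2) : ℝ) / 2 / Nat.card (centralUnits (g : SL(2, ℝ))) := by
  have h2 := re_eta_term (fixPt_spec g) g.2.2 hm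
  rw [ellTerm, div_natCast_re, ← scaled_chebyU ht, show 2 * m - 2 = 2 * (m - 1) by omega,
    pow_mul, Real.sq_sqrt (Nat.cast_nonneg n), mul_div_assoc']
  rw [show 2 * m - 2 = 2 * (m - 1) by omega] at h2
  congr 1
  linear_combination (n : ℝ) ^ (m - 1) / 2 * h2

/-- **The explicit trace formula.** -/
theorem trace_explicit (n : ℕ+) {m : ℕ} (hm : 2 ≤ m) :
    ((n : ℕ) : ℂ) ^ (m - 1) *
        LinearMap.trace ℂ (forms orderUnits ((2 * m : ℕ) : ℤ)) (hecke ((2 * m : ℕ) : ℤ) n) =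
      (if IsSquare (n : ℕ) then ((n : ℕ) : ℂ) ^ (m - 1) * (2 * (m : ℂ) - 1) / 6 else 0) -
        1 / 2 * ∑ t ∈ tset n, (lucas t (n : ℕ) (2 * m - 2) : ℂ) *
          (quatClassNumber (4 * ((n : ℕ) : ℤ) - t ^ 2).toNat : ℂ) := by
  haveI : NeZero (n : ℕ) := ⟨n.ne_zero⟩
  haveI : ∀ t : tset (n : ℕ), Fintype (ClassesO (t : ℤ) ((n : ℕ) : ℤ)) :=
    fun t => haveI := (mass_classes (mem_tset.1 t.2)).1; Fintype.ofFinite _
  set T := LinearMap.trace ℂ (forms orderUnits ((2 * m : ℕ) : ℤ)) (hecke ((2 * m : ℕ) : ℤ) n)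
    with hT
  have hsum : ((n : ℕ) : ℝ) ^ (m - 1) *
      ∑ x : Quotient (conjSetoid (ellSet (n : ℕ))), (ellTerm m x.out).re =
      ((-1 / 2 * ∑ t ∈ tset n, (lucas t (n : ℕ) (2 * m - 2) : ℚ) *
        quatClassNumber (4 * ((n : ℕ) : ℤ) - t ^ 2).toNat : ℚ) : ℝ) := by
    rw [← Finset.sum_coe_sort (tset n), Finset.mul_sum, Finset.mul_sum, Rat.cast_sum]
    rw [← Fintype.sum_bijective ellClass bijective_ellClass _ _ fun p => rfl, Fintype.sum_sigma]
    refine Finset.sum_congr rfl fun t _ => ?_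
    rw [← (mass_classes (mem_tset.1 t.2)).2, finsum_eq_sum_of_fintype, Finset.mul_sum,
      Finset.mul_sum, Rat.cast_sum]
    refine Finset.sum_congr rfl fun c _ => ?_
    obtain ⟨γ, hγ⟩ := Quotient.mk_out (s := conjSetoid (ellSet (n : ℕ))) (toEll t.2 c.out)
    set g := (Quotient.mk (conjSetoid (ellSet (n : ℕ))) (toEll t.2 c.out)).out
    have hg : (γ : SL(2, ℝ)) * (g : SL(2, ℝ)) * (γ : SL(2, ℝ))⁻¹ = toSL c.out := hγ
    have htr := sqrt_mul_trace_toSL c.out
    rw [← hg, trace_conj] at htr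
    show ((n : ℕ) : ℝ) ^ (m - 1) * (ellTerm m g).re = _
    rw [re_ellTerm g htr (by omega), card_centralUnits_conj hg, card_centralUnits]
    push_cast
    ring
  have hTre : (T.re : ℂ) = T := Complex.ext (by simp) (by rw [ofReal_im, hT, trace_hecke_real])
  have hre : T.re = (if IsSquare (n : ℕ) then (2 * (m : ℝ) - 1) / 6 else 0) +
      ∑ x : Quotient (conjSetoid (ellSet (n : ℕ))), (ellTerm m x.out).re := by
    rw [hT, trace_hecke n hm, Complex.add_re, Complex.re_sum]
    congr 1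
    split_ifs <;> simp
  rw [← hTre, hre]
  push_cast
  rw [mul_add, ← ofReal_sum, ← ofReal_natCast, ← ofReal_pow, ← ofReal_mul, ← ofReal_mul, hsum]
  split_ifs <;> push_cast <;> ring

end FA.QuaternionClasses

end
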