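import Fermat.Agent.QuaternionClasses.Residue

/-!
# Frames of the intertwiners

For a fixed primitive `x₀` the elements `y` of the order with `x y = y x₀` form a lattice of rank
two stable under `x₀` from the right.  A positively oriented basis gives an integral matrix, and
the norm form has a content dividing `6`; both together determine `x` up to conjugation.
-/

set_option autoImplicit false
set_option linter.unusedSectionVars false
set_option linter.style.haveILetI false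

noncomputable section

open Matrix
open scoped MatrixGroups
open FA.Horocycle FA.QuaternionHecke FA.QuaternionNormalizer

namespace FA.QuaternionClasses

/-- An intertwiner. -/
def Inter (x₀ x y : RMat) : Prop := y ∈ order ∧ x * y = y * x₀

/-- An integral combination of two matrices. -/
def comb (y₁ y₂ : RMat) (p r : ℤ) : RMat := (p : ℝ) • y₁ + (r : ℝ) • y₂

/-- An oriented basis of the intertwiners. -/
structure IsFrame (x₀ x y₁ y₂ : RMat) : Prop where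
  fst : Inter x₀ x y₁
  snd : Inter x₀ x y₂
  span : ∀ h, Inter x₀ x h → ∃ p r : ℤ, h = comb y₁ y₂ p r
  orient : ∃ A B : ℤ, 0 < B ∧ adjugate y₁ * y₂ = lin A B x₀

/-- The frame gives the matrix. -/
def Acts (x₀ y₁ y₂ : RMat) (M : FA.ClassRelation.Mat) : Prop :=
  y₁ * x₀ = comb y₁ y₂ (M 0 0) (M 1 0) ∧ y₂ * x₀ = comb y₁ y₂ (M 0 1) (M 1 1)

/-- The content of the norm form on the intertwiners. -/
def IsContent (x₀ x : RMat) (d : ℕ) : Prop :=
  d ∣ 6 ∧ ∀ q : ℕ, q = 2 ∨ q = 3 →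
    (q ∣ d ↔ ∀ h, Inter x₀ x h → ∀ N : ℤ, h.det = (N : ℝ) → (q : ℤ) ∣ N)

/-- `x` corresponds to the matrix `M` and the content `d`. -/
def Matches (x₀ x : RMat) (M : FA.ClassRelation.Mat) (d : ℕ) : Prop :=
  ∃ y₁ y₂, IsFrame x₀ x y₁ y₂ ∧ Acts x₀ y₁ y₂ M ∧ IsContent x₀ x d

theorem Inter.comb {x₀ x y₁ y₂ : RMat} (h₁ : Inter x₀ x y₁) (h₂ : Inter x₀ x y₂) (p r : ℤ) :
    Inter x₀ x (comb y₁ y₂ p r) :=
  ⟨add_mem (intCast_smul_mem h₁.1 p) (intCast_smul_mem h₂.1 r), by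
    simp [QuaternionClasses.comb, Matrix.mul_add, Matrix.add_mul, h₁.2, h₂.2]⟩

theorem Inter.smul_inv {x₀ x y : RMat} (h : Inter x₀ x y) {q : ℝ} (hq : q⁻¹ • y ∈ order) :
    Inter x₀ x (q⁻¹ • y) :=
  ⟨hq, by rw [Matrix.mul_smul, h.2, Matrix.smul_mul]⟩

theorem Inter.mul_self {x₀ x y : RMat} (hx₀ : x₀ ∈ order) (h : Inter x₀ x y) :
    Inter x₀ x (y * x₀) :=
  ⟨mul_mem h.1 hx₀, by rw [← Matrix.mul_assoc, h.2]⟩

section

variable {t n : ℤ} {x₀ x : OrdTN t n} (hD : t ^ 2 - 4 * n < 0)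

theorem det_ne {y : RMat} (h : y ∈ order) (hy : y ≠ 0) : y.det ≠ 0 :=
  fun h0 => hy (eq_zero_of_det h h0)

include hD in
theorem exists_inter (hp : Prim (x₀ : RMat)) :
    ∃ y, Inter (x₀ : RMat) x y ∧ y ≠ 0 := by
  have hmul : ∀ w ∈ order, Inter (x₀ : RMat) x
      ((x : RMat) * w - w * adjugate (x₀ : RMat)) := fun w hw => by
    refine ⟨sub_mem (mul_mem x.2.1 hw) (mul_mem hw (adjugate_mem x₀.2.1)), ?_⟩
    rw [adjugate_eq x₀.2.2.1, Matrix.mul_sub, ← Matrix.mul_assoc, mul_self_eq x.2.2.1 x.2.2.2,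
      Matrix.sub_mul, Matrix.sub_mul]
    simp only [Matrix.mul_sub, Matrix.sub_mul, Matrix.mul_smul, Matrix.smul_mul, Matrix.mul_one,
      Matrix.one_mul, Matrix.mul_assoc, mul_self_eq x₀.2.2.1 x₀.2.2.2]
    abel
  by_contra hno
  push Not at hno
  have h1 := hno _ (hmul 1 (one_mem _))
  rw [Matrix.mul_one, Matrix.one_mul, sub_eq_zero] at h1
  have hc : ∀ w ∈ order, (x : RMat) * w = w * x := fun w hw => by
    have e := hno _ (hmul w hw)
    rwa [sub_eq_zero, ← h1] at e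
  have hcx : ∀ w ∈ order, w * (x₀ : RMat) = x₀ * w := fun w hw => by
    have e := hc w hw
    rw [h1, adjugate_eq x₀.2.2.1] at e
    simp only [Matrix.sub_mul, Matrix.mul_sub, Matrix.smul_mul, Matrix.mul_smul, Matrix.one_mul,
      Matrix.mul_one, sub_right_inj] at e
    exact e.symm
  obtain ⟨A, B, hw⟩ := exists_lin x₀.2.2.1 x₀.2.2.2 x₀.2.1 hp
    (w := hurMat (0, 1, 0, 0)) ⟨_, rfl⟩ (hcx _ ⟨_, rfl⟩) hD.ne
  obtain ⟨A', B', hw'⟩ := exists_lin x₀.2.2.1 x₀.2.2.2 x₀.2.1 hp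
    (w := hurMat (0, 0, 1, 0)) ⟨_, rfl⟩ (hcx _ ⟨_, rfl⟩) hD.ne
  have e : hurMat (0, 1, 0, 0) * hurMat (0, 0, 1, 0) =
      hurMat (0, 0, 1, 0) * hurMat (0, 1, 0, 0) := by
    rw [hw, hw']
    simp only [lin, Matrix.mul_add, Matrix.add_mul, Matrix.mul_smul, Matrix.smul_mul,
      Matrix.mul_one, Matrix.one_mul, smul_add, smul_smul]
    rw [mul_comm (A : ℝ) A', mul_comm (B : ℝ) A', mul_comm (A : ℝ) B', mul_comm (B : ℝ) B']
    abel
  rw [hurMat_mul, hurMat_mul] at e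
  have e' := hurMat_injective e
  simp [hurMul] at e'

include hD in
theorem inner (hp : Prim (x₀ : RMat)) {y h : RMat} (hy : Inter (x₀ : RMat) x y)
    (hh : Inter (x₀ : RMat) x h) : ∃ A B : ℤ, adjugate y * h = lin A B x₀ := by
  refine exists_lin x₀.2.2.1 x₀.2.2.2 x₀.2.1 hp (mul_mem (adjugate_mem hy.1) hh.1) ?_ hD.ne
  have e := congrArg Matrix.adjugate hy.2
  rw [Matrix.adjugate_mul_distrib, Matrix.adjugate_mul_distrib, adjugate_eq x.2.2.1,
    adjugate_eq x₀.2.2.1] at e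
  simp only [Matrix.mul_sub, Matrix.sub_mul, Matrix.mul_smul, Matrix.smul_mul, Matrix.mul_one,
    Matrix.one_mul, sub_right_inj] at e
  calc adjugate y * h * (x₀ : RMat) = adjugate y * ((x : RMat) * h) := by
        rw [Matrix.mul_assoc, hh.2]
    _ = adjugate y * (x : RMat) * h := (Matrix.mul_assoc _ _ _).symm
    _ = (x₀ : RMat) * (adjugate y * h) := by rw [e, Matrix.mul_assoc]

include hD in
theorem comb_eq_zero {y₁ y₂ : RMat} (hf : IsFrame (x₀ : RMat) x y₁ y₂) {p r : ℤ}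
    (h : comb y₁ y₂ p r = 0) : p = 0 ∧ r = 0 := by
  obtain ⟨A, B, hB, hAB⟩ := hf.orient
  obtain ⟨N, hN⟩ := exists_det hf.fst.1
  have e : lin (p * N + r * A) (r * B) (x₀ : RMat) = lin 0 0 x₀ := by
    have e' := congrArg (adjugate y₁ * ·) h
    simp only [comb, Matrix.mul_add, Matrix.mul_smul, Matrix.adjugate_mul, hN, hAB,
      Matrix.mul_zero, lin, smul_add, smul_smul] at e' ⊢
    push_cast
    rw [zero_smul, zero_smul, add_zero, add_smul, add_assoc, e']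
  obtain ⟨h1, h2⟩ := lin_injective x₀.2.2.1 x₀.2.2.2 hD.ne e
  have hr : r = 0 := (mul_eq_zero.1 h2).resolve_right hB.ne'
  subst hr
  have hN0 : N ≠ 0 := fun h0 => det_ne hf.fst.1 (fun hz => ?_) (by rw [hN, h0, Int.cast_zero])
  · exact ⟨(mul_eq_zero.1 (by simpa using h1)).resolve_right hN0, rfl⟩
  · rw [hz, adjugate_zero, Matrix.zero_mul] at hAB
    have := lin_injective x₀.2.2.1 x₀.2.2.2 hD.ne (A := A) (B := B) (A' := 0) (B' := 0)
      (by rw [← hAB]; simp [lin])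
    omega

include hD in
theorem comb_inj {y₁ y₂ : RMat} (hf : IsFrame (x₀ : RMat) x y₁ y₂) {p r p' r' : ℤ}
    (h : comb y₁ y₂ p r = comb y₁ y₂ p' r') : p = p' ∧ r = r' := by
  have := comb_eq_zero hD hf (p := p - p') (r := r - r') (by
    rw [← sub_eq_zero.2 h]
    simp [comb, sub_smul]
    abel)
  omega

include hD in
theorem exists_frame (hp : Prim (x₀ : RMat)) :
    ∃ y₁ y₂, IsFrame (x₀ : RMat) x y₁ y₂ := by
  obtain ⟨y, hy, hy0⟩ := exists_inter (x := x) hD hp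
  obtain ⟨N, hN⟩ := exists_det hy.1
  have hN0 : N ≠ 0 := fun h0 => det_ne hy.1 hy0 (by rw [hN, h0, Int.cast_zero])
  have hco : ∀ h, Inter (x₀ : RMat) x h → ∀ h', Inter (x₀ : RMat) x h' →
      adjugate y * h = adjugate y * h' → h = h' := fun h _ h' _ e => by
    have e' := congrArg (y * ·) e
    simp only [← Matrix.mul_assoc, Matrix.mul_adjugate, Matrix.smul_mul, Matrix.one_mul] at e'
    exact smul_right_injective _ (det_ne hy.1 hy0) e'
  have hlin : ∀ h h' : RMat, ∀ A B A' B' p r : ℤ, adjugate y * h = lin A B x₀ →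
      adjugate y * h' = lin A' B' x₀ →
      adjugate y * comb h h' p r = lin (p * A + r * A') (p * B + r * B') x₀ :=
    fun h h' A B A' B' p r e e' => by
    rw [comb, Matrix.mul_add, Matrix.mul_smul, Matrix.mul_smul, e, e']
    simp only [lin, smul_add, smul_smul]
    push_cast
    rw [add_smul, add_smul]
    abel
  let SB : AddSubgroup ℤ :=
    { carrier := {B | ∃ h A, Inter (x₀ : RMat) x h ∧ adjugate y * h = lin A B x₀}
      add_mem' := by
        rintro B B' ⟨h, A, hh, e⟩ ⟨h', A', hh', e'⟩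
        exact ⟨comb h h' 1 1, A + A', hh.comb hh' 1 1, by
          simpa using hlin h h' A B A' B' 1 1 e e'⟩
      zero_mem' := ⟨comb y y 0 0, 0, hy.comb hy 0 0, by simp [comb, lin]⟩
      neg_mem' := by
        rintro B ⟨h, A, hh, e⟩
        exact ⟨comb h h (-1) 0, -A, hh.comb hh _ _, by
          simpa using hlin h h A B A B (-1) 0 e e⟩ }
  let SA : AddSubgroup ℤ :=
    { carrier := {A | ∃ h, Inter (x₀ : RMat) x h ∧ adjugate y * h = lin A 0 x₀}
      add_mem' := by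
        rintro A A' ⟨h, hh, e⟩ ⟨h', hh', e'⟩
        exact ⟨comb h h' 1 1, hh.comb hh' 1 1, by simpa using hlin h h' A 0 A' 0 1 1 e e'⟩
      zero_mem' := ⟨comb y y 0 0, hy.comb hy 0 0, by simp [comb, lin]⟩
      neg_mem' := by
        rintro A ⟨h, hh, e⟩
        exact ⟨comb h h (-1) 0, hh.comb hh _ _, by simpa using hlin h h A 0 A 0 (-1) 0 e e⟩ }
  have hNB : N ∈ SB := ⟨y * x₀, 0, hy.mul_self x₀.2.1, by
    rw [← Matrix.mul_assoc, Matrix.adjugate_mul, hN, Matrix.smul_mul, Matrix.one_mul]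
    simp [lin]⟩
  have hNA : N ∈ SA := ⟨y, hy, by rw [Matrix.adjugate_mul, hN]; simp [lin]⟩
  obtain ⟨b, hb⟩ := Int.subgroup_cyclic SB
  obtain ⟨a, ha⟩ := Int.subgroup_cyclic SA
  obtain ⟨y₂, A₂, hy₂, e₂⟩ : b ∈ SB := hb ▸ AddSubgroup.subset_closure (Set.mem_singleton b)
  obtain ⟨y₁, hy₁, e₁⟩ : a ∈ SA := ha ▸ AddSubgroup.subset_closure (Set.mem_singleton a)
  rw [hb, AddSubgroup.mem_closure_singleton] at hNB
  rw [ha, AddSubgroup.mem_closure_singleton] at hNA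
  have hab : a ≠ 0 ∧ b ≠ 0 :=
    ⟨fun h => hN0 (by obtain ⟨k, hk⟩ := hNA; simp [h] at hk; omega),
      fun h => hN0 (by obtain ⟨k, hk⟩ := hNB; simp [h] at hk; omega)⟩
  have hspan : ∀ h, Inter (x₀ : RMat) x h → ∃ p r : ℤ, h = comb y₁ y₂ p r := fun h hh => by
    obtain ⟨A, B, e⟩ := inner hD hp hy hh
    have hBm : B ∈ SB := ⟨h, A, hh, e⟩
    rw [hb, AddSubgroup.mem_closure_singleton] at hBm
    obtain ⟨r, hr⟩ := hBm
    rw [smul_eq_mul] at hr
    have hh' := hh.comb hy₂ 1 (-r)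
    have e' := hlin h y₂ A B A₂ b 1 (-r) e e₂
    rw [show 1 * B + -r * b = 0 by rw [← hr]; ring] at e'
    have hAm : 1 * A + -r * A₂ ∈ SA := ⟨_, hh', e'⟩
    rw [ha, AddSubgroup.mem_closure_singleton] at hAm
    obtain ⟨p, hp'⟩ := hAm
    rw [smul_eq_mul] at hp'
    refine ⟨p, r, hco h hh _ (hy₁.comb hy₂ p r) ?_⟩
    rw [e, hlin y₁ y₂ a 0 A₂ b p r e₁ e₂, hp']
    congr 1
    · ring
    · rw [← hr]; ring
  obtain ⟨A, B, hAB⟩ := inner hD hp hy₁ hy₂
  have hNB' : N * B = a * b := by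
    have hy1 : (N : ℝ) • y₁ = (a : ℝ) • y := by
      have e' := congrArg (y * ·) e₁
      simp only [← Matrix.mul_assoc, Matrix.mul_adjugate, hN, Matrix.smul_mul,
        Matrix.one_mul] at e'
      rw [e']
      simp [lin]
    have e' : (N : ℝ) • lin A B (x₀ : RMat) = (a : ℝ) • lin A₂ b x₀ := by
      rw [← hAB, ← Matrix.smul_mul, ← e₂, ← Matrix.smul_mul]
      congr 1
      have h' := congrArg Matrix.adjugate hy1
      rw [adjugate_smul, adjugate_smul] at h'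
      simpa using h'
    have e'' : lin (N * A) (N * B) (x₀ : RMat) = lin (a * A₂) (a * b) x₀ := by
      simpa [lin, smul_add, smul_smul] using e'
    exact (lin_injective x₀.2.2.1 x₀.2.2.2 hD.ne e'').2
  rcases lt_trichotomy B 0 with hB | hB | hB
  · refine ⟨-y₁, y₂, ⟨⟨neg_mem hy₁.1, by simp [hy₁.2]⟩, hy₂, fun h hh => ?_, -A, -B,
      by omega, ?_⟩⟩
    · obtain ⟨p, r, e⟩ := hspan h hh
      exact ⟨-p, r, by rw [e]; simp [comb]⟩
    · rw [← neg_one_smul ℝ y₁, adjugate_smul, Matrix.smul_mul, hAB]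
      simp [lin]
  · rw [hB, mul_zero] at hNB'
    exact absurd hNB'.symm (mul_ne_zero hab.1 hab.2)
  · exact ⟨y₁, y₂, hy₁, hy₂, hspan, A, B, hB, hAB⟩

include hD in
theorem exists_acts {y₁ y₂ : RMat} (hf : IsFrame (x₀ : RMat) x y₁ y₂) :
    ∃ M : FA.ClassRelation.Mat, Acts (x₀ : RMat) y₁ y₂ M ∧ M.trace = t ∧ M.det = n := by
  obtain ⟨a, c, h1⟩ := hf.span _ (hf.fst.mul_self x₀.2.1)
  obtain ⟨b, d, h2⟩ := hf.span _ (hf.snd.mul_self x₀.2.1)
  refine ⟨!![a, b; c, d], ⟨h1, h2⟩, ?_⟩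
  have e : comb y₁ y₂ (a * a + c * b) (a * c + c * d) = comb y₁ y₂ (t * a - n) (t * c) := by
    have h := congrArg (y₁ * ·) (mul_self_eq x₀.2.2.1 x₀.2.2.2)
    simp only [← Matrix.mul_assoc, h1, Matrix.mul_sub, Matrix.mul_smul, Matrix.mul_one] at h
    simp only [comb, Matrix.add_mul, Matrix.smul_mul, h1, h2, smul_add, smul_smul] at h ⊢
    push_cast
    simp only [add_smul, sub_smul] at h ⊢
    convert h using 1 <;> abel
  obtain ⟨e1, e2⟩ := comb_inj hD hf e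
  have hc : c ≠ 0 := fun h0 => by
    subst h0
    have hy : adjugate y₁ * (y₁ * x₀) = adjugate y₁ * comb y₁ y₂ a 0 := by rw [h1]
    obtain ⟨N, hN⟩ := exists_det hf.fst.1
    simp only [comb, Int.cast_zero, zero_smul, add_zero, ← Matrix.mul_assoc, Matrix.mul_smul,
      Matrix.adjugate_mul, hN, Matrix.smul_mul, Matrix.one_mul] at hy
    have e'' : lin 0 N (x₀ : RMat) = lin (a * N) 0 x₀ := by
      simpa [lin, smul_smul] using hy
    obtain ⟨A, B, hB, hAB⟩ := hf.orient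
    have hN0 := (lin_injective x₀.2.2.1 x₀.2.2.2 hD.ne e'').2
    have hy0 : y₁ = 0 := eq_zero_of_det hf.fst.1 (by rw [hN, hN0, Int.cast_zero])
    rw [hy0, adjugate_zero, Matrix.zero_mul] at hAB
    have := lin_injective x₀.2.2.1 x₀.2.2.2 hD.ne (A := A) (B := B) (A' := 0) (B' := 0)
      (by rw [← hAB]; simp [lin])
    omega
  have htr : a + d = t := mul_left_cancel₀ hc (by linarith)
  refine ⟨by simpa [Matrix.trace_fin_two] using htr, ?_⟩
  rw [Matrix.det_fin_two_of]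
  subst htr
  linarith

include hD in
theorem hind_of_frame {y₁ y₂ : RMat} (hf : IsFrame (x₀ : RMat) x y₁ y₂) {q : ℕ} (hq : q ≠ 0)
    (A B : ℤ) (h : (q : ℝ)⁻¹ • ((A : ℝ) • y₁ + (B : ℝ) • y₂) ∈ order) :
    (q : ℤ) ∣ A ∧ (q : ℤ) ∣ B := by
  obtain ⟨p, r, e⟩ := hf.span _ ((hf.fst.comb hf.snd A B).smul_inv (q := (q : ℝ)) h)
  have e' := congrArg ((q : ℝ) • ·) e
  simp only [smul_inv_smul₀ (Nat.cast_ne_zero.2 hq : (q : ℝ) ≠ 0)] at e'
  have e'' : comb y₁ y₂ A B = comb y₁ y₂ (q * p) (q * r) := by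
    rw [e']; simp [comb, smul_add, smul_smul]
  obtain ⟨h1, h2⟩ := comb_inj hD hf e''
  exact ⟨⟨p, h1⟩, ⟨r, h2⟩⟩

include hD in
theorem exists_sq_not_dvd {y₁ y₂ : RMat} (hf : IsFrame (x₀ : RMat) x y₁ y₂) {q : ℕ}
    (hq : q = 2 ∨ q = 3) :
    ∃ h N, Inter (x₀ : RMat) x h ∧ h.det = ((N : ℤ) : ℝ) ∧ ¬(q : ℤ) ^ 2 ∣ N := by
  by_contra hno
  push Not at hno
  obtain ⟨N, hN⟩ := exists_det hf.fst.1
  have h1 := div_mem_prime hq hf.fst.1 hN (hno y₁ N hf.fst hN)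
  obtain ⟨hd, -⟩ := hind_of_frame hD hf (q := q) (by omega) 1 0
    (by simpa using h1)
  rcases hq with rfl | rfl <;> omega

include hD in
theorem exists_not_dvd_frame (hp : Prim (x : RMat)) (hp₀ : Prim (x₀ : RMat)) {y₁ y₂ : RMat}
    (hf : IsFrame (x₀ : RMat) x y₁ y₂) {q : ℕ} (hq : q.Prime) (h5 : 5 ≤ q) :
    ∃ h N, Inter (x₀ : RMat) x h ∧ h.det = ((N : ℤ) : ℝ) ∧ ¬(q : ℤ) ∣ N := by
  haveI := Fact.mk hq
  obtain ⟨A, B, N, hN, hd⟩ := exists_not_dvd q h5 hp hp₀ hf.fst.1 hf.snd.1 hf.fst.2 hf.snd.2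
    (hind_of_frame hD hf hq.ne_zero)
  exact ⟨_, N, hf.fst.comb hf.snd A B, hN, hd⟩

open scoped Classical in
theorem exists_content (x₀ x : RMat) : ∃ d, IsContent x₀ x d := by
  set P : ℕ → Prop := fun q => ∀ h, Inter x₀ x h → ∀ N : ℤ, h.det = (N : ℝ) → (q : ℤ) ∣ N
  refine ⟨(if P 2 then 2 else 1) * (if P 3 then 3 else 1), ?_, ?_⟩
  · split_ifs <;> norm_num
  · rintro q (rfl | rfl)
    · show _ ↔ P 2
      split_ifs with h2 h3 <;> simp_all
    · show _ ↔ P 3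
      split_ifs with h2 h3 <;> simp_all

theorem IsContent.unique {x₀ x : RMat} {d d' : ℕ} (h : IsContent x₀ x d)
    (h' : IsContent x₀ x d') : d = d' := by
  have h2 := (h.2 2 (.inl rfl)).trans (h'.2 2 (.inl rfl)).symm
  have h3 := (h.2 3 (.inr rfl)).trans (h'.2 3 (.inr rfl)).symm
  have b1 := cases_of_dvd_six h.1
  have b2 := cases_of_dvd_six h'.1
  rcases b1 with rfl | rfl | rfl | rfl <;> rcases b2 with rfl | rfl | rfl | rfl <;> norm_num at *

include hD in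
theorem matches_total (hp₀ : Prim (x₀ : RMat)) :
    ∃ M d, Matches (x₀ : RMat) x M d ∧ M.trace = t ∧ M.det = n := by
  obtain ⟨y₁, y₂, hf⟩ := exists_frame (x := x) hD hp₀
  obtain ⟨M, hM, ht, hn⟩ := exists_acts hD hf
  obtain ⟨d, hd⟩ := exists_content (x₀ : RMat) x
  exact ⟨M, d, ⟨y₁, y₂, hf, hM, hd⟩, ht, hn⟩

end

end FA.QuaternionClasses

end
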