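import Fermat.Agent.QuaternionClasses.Exists

/-!
# The quaternionic class numbers

The classes of trace `t` and norm `n` correspond to the pairs of a class of integral matrices of
trace `t` and determinant `n` and one of its possible contents, with the same centralisers; so
their mass is the sum of the factors times the weights over the reduced forms.
-/

set_option autoImplicit false
set_option linter.unusedSectionVars false
set_option linter.style.haveILetI false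

noncomputable section

open Matrix
open scoped MatrixGroups
open FA.Horocycle FA.QuaternionHecke FA.MatrixClasses
open FA.ClassRelation (Mat redForms weight)

namespace FA.QuaternionClasses

/-- The quaternionic Hurwitz class number. -/
def quatClassNumber (N : ℕ) : ℚ := ∑ f ∈ redForms N, (formEps f : ℚ) * weight f

/-- The units commuting with an element. -/
def centO (x : RMat) : Set orderUnits :=
  {γ | ((γ : SL(2, ℝ)) : RMat) * x = x * ((γ : SL(2, ℝ)) : RMat)}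

/-- An integral combination of `1` and a matrix. -/
def mlin (a k : ℤ) (M : Mat) : Mat := a • 1 + k • M

theorem mlin_apply (a k : ℤ) (M : Mat) (i j : Fin 2) :
    mlin a k M i j = (if i = j then a else 0) + k * M i j := by
  simp only [mlin, Matrix.add_apply, Matrix.smul_apply, Matrix.one_apply, smul_eq_mul, mul_ite,
    mul_one, mul_zero]

theorem formOf_mlin (a k : ℤ) (M : Mat) :
    formOf (mlin a k M) = FA.ClassRelation.smulForm k (formOf M) := by
  simp [formOf, mlin_apply, FA.ClassRelation.smulForm]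
  ring

theorem formContent_smul {k : ℤ} (hk : 0 < k) (f : ℤ × ℤ × ℤ) :
    (formContent (FA.ClassRelation.smulForm k f) : ℤ) = k * formContent f := by
  rw [formContent, formContent, FA.ClassRelation.smulForm, Int.gcd_mul_left, Nat.cast_mul,
    Int.natCast_natAbs, abs_of_pos hk, Int.gcd_mul_left, Nat.cast_mul, Int.natCast_natAbs,
    abs_of_pos hk]

theorem formEps_neg (f : ℤ × ℤ × ℤ) :
    formEps (FA.ClassRelation.smulForm (-1) f) = formEps f := by
  obtain ⟨a, b, c⟩ := f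
  simp [formEps, formContent, FA.ClassRelation.smulForm, FA.Singular.disc]

theorem mlin_trace_det (a k : ℤ) {M : Mat} {t₀ n₀ : ℤ} (ht : M.trace = t₀) (hn : M.det = n₀) :
    (mlin a k M).trace = 2 * a + k * t₀ ∧
      (mlin a k M).det = a ^ 2 + a * k * t₀ + k ^ 2 * n₀ := by
  subst ht hn
  simp [mlin_apply, trace_fin_two, det_fin_two]
  constructor <;> ring

theorem exists_mdecomp {M : Mat} {t n : ℤ} (ht : M.trace = t) (hn : M.det = n)
    (hD : t ^ 2 - 4 * n < 0) : ∃ (a k t₀ n₀ : ℤ) (M₀ : Mat), 0 < k ∧ (t₀ = 0 ∨ t₀ = 1) ∧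
      PrimM M₀ ∧ M₀.trace = t₀ ∧ M₀.det = n₀ ∧ M = mlin a k M₀ ∧ t₀ ^ 2 - 4 * n₀ < 0 := by
  set g := formContent (formOf M) with hg
  have hg0 : g ≠ 0 := fun h0 => corner_ne ht hn hD (by
    simp only [hg, formContent, formOf, Int.gcd_eq_zero_iff, Nat.cast_eq_zero] at h0
    exact h0.1.1)
  obtain ⟨c, hc⟩ : (g : ℤ) ∣ M 1 0 := (Int.gcd_dvd_left _ _).trans (Int.gcd_dvd_left _ _)
  obtain ⟨b, hb⟩ : (g : ℤ) ∣ M 1 1 - M 0 0 := (Int.gcd_dvd_left _ _).trans (Int.gcd_dvd_right _ _)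
  obtain ⟨e, he⟩ : (g : ℤ) ∣ M 0 1 := dvd_neg.1 (Int.gcd_dvd_right _ _)
  set s := -(b / 2)
  set M₀ : Mat := !![s, e; c, b + s]
  have hM : M = mlin (M 0 0 - g * s) g M₀ := by
    ext i j
    fin_cases i <;> fin_cases j <;> simp [mlin_apply, M₀] <;> linarith
  have hprim : PrimM M₀ := by
    have h := formContent_smul (k := (g : ℤ)) (by omega) (formOf M₀)
    rw [← formOf_mlin (M 0 0 - g * s), ← hM, ← hg] at h
    unfold PrimM
    exact_mod_cast (mul_left_cancel₀ (Nat.cast_ne_zero.2 hg0) (h.symm.trans (mul_one _).symm))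
  have htr : M₀.trace = b % 2 := by
    simp [M₀, s, trace_fin_two]
    omega
  refine ⟨_, g, b % 2, M₀.det, M₀, by omega, Int.emod_two_eq_zero_or_one b, hprim, htr, rfl, hM,
    ?_⟩
  obtain ⟨e1, e2⟩ := mlin_trace_det (M 0 0 - g * s) g htr (rfl : M₀.det = _)
  rw [← hM, ht] at e1
  rw [← hM, hn] at e2
  rw [e1, e2] at hD
  nlinarith [sq_nonneg (g : ℤ)]

theorem mdecomp_unique {M₀ M₀' : Mat} {a a' k k' s s' : ℤ} (hk : 0 < k) (hk' : 0 < k')
    (hp : PrimM M₀) (hp' : PrimM M₀') (hs : M₀.trace = s) (hs' : M₀'.trace = s')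
    (h01 : s = 0 ∨ s = 1) (h01' : s' = 0 ∨ s' = 1) (h : mlin a k M₀ = mlin a' k' M₀') :
    a = a' ∧ k = k' ∧ M₀ = M₀' := by
  have e1 := formContent_smul hk (formOf M₀)
  have e2 := formContent_smul hk' (formOf M₀')
  rw [hp, Nat.cast_one, mul_one, ← formOf_mlin a] at e1
  rw [hp', Nat.cast_one, mul_one, ← formOf_mlin a'] at e2
  rw [h, e2] at e1
  subst e1
  have e00 := congrFun (congrFun h 0) 0
  have e01 := congrFun (congrFun h 0) 1
  have e10 := congrFun (congrFun h 1) 0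
  have e11 := congrFun (congrFun h 1) 1
  simp [mlin_apply] at e00 e01 e10 e11
  rw [trace_fin_two] at hs hs'
  have hdiff : k' * ((M₀ 1 1 - M₀ 0 0) - (M₀' 1 1 - M₀' 0 0)) = 0 := by linarith
  have hd := (mul_eq_zero.1 hdiff).resolve_left hk'.ne'
  have h00 : M₀ 0 0 = M₀' 0 0 := by omega
  have h11 : M₀ 1 1 = M₀' 1 1 := by omega
  have h01 : M₀ 0 1 = M₀' 0 1 := e01.resolve_right hk'.ne'
  have h10 : M₀ 1 0 = M₀' 1 0 := e10.resolve_right hk'.ne'
  refine ⟨by rw [h00] at e00; linarith, rfl, ?_⟩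
  ext i j
  fin_cases i <;> fin_cases j <;> assumption

open scoped Classical in
/-- The base element of a discriminant. -/
def base (t₀ n₀ : ℤ) : RMat :=
  if h : ∃ x : OrdTN t₀ n₀, Prim (x : RMat) then (h.choose : RMat) else 0

theorem exists_base {t₀ n₀ : ℤ} (h : ∃ x : OrdTN t₀ n₀, Prim (x : RMat)) :
    ∃ x₀ : OrdTN t₀ n₀, Prim (x₀ : RMat) ∧ (x₀ : RMat) = base t₀ n₀ :=
  ⟨h.choose, h.choose_spec, by rw [base, dif_pos h]⟩

variable {t : ℤ} {n : ℕ}

/-- The correspondence. -/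
def Corr (x : OrdTN t (n : ℤ)) (M : MatTN t n) (d : ℕ) : Prop :=
  ∃ (a k t₀ n₀ : ℤ) (ω : OrdTN t₀ n₀) (M₀ : Mat), 0 < k ∧ (t₀ = 0 ∨ t₀ = 1) ∧
    t₀ ^ 2 - 4 * n₀ < 0 ∧ Prim (ω : RMat) ∧ PrimM M₀ ∧ M₀.trace = t₀ ∧ M₀.det = n₀ ∧
    (x : RMat) = lin a k ω ∧ (M : Mat) = mlin a k M₀ ∧ Matches (base t₀ n₀) ω M₀ d

theorem conjO_equivalence (t n : ℤ) : Equivalence (ConjO (t := t) (n := n)) where
  refl x := ⟨1, by simp⟩
  symm := by
    rintro x x' ⟨γ, hγ⟩
    refine ⟨γ⁻¹, ?_⟩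
    set G := ((γ : SL(2, ℝ)) : RMat)
    set G' := (((γ⁻¹ : orderUnits) : SL(2, ℝ)) : RMat)
    have h1 : G' * G = 1 := congrArg Subtype.val (inv_mul_cancel (γ : SL(2, ℝ)))
    have h2 : G * G' = 1 := congrArg Subtype.val (mul_inv_cancel (γ : SL(2, ℝ)))
    calc G' * (x' : RMat) = G' * ((x' : RMat) * (G * G')) := by rw [h2, Matrix.mul_one]
      _ = G' * (G * (x : RMat)) * G' := by rw [hγ]; simp only [Matrix.mul_assoc]
      _ = (x : RMat) * G' := by rw [← Matrix.mul_assoc G', h1, Matrix.one_mul]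
  trans := by
    rintro x x' x'' ⟨γ, hγ⟩ ⟨δ, hδ⟩
    refine ⟨δ * γ, ?_⟩
    change ((δ : SL(2, ℝ)) : RMat) * ((γ : SL(2, ℝ)) : RMat) * (x : RMat) =
      (x'' : RMat) * (((δ : SL(2, ℝ)) : RMat) * ((γ : SL(2, ℝ)) : RMat))
    rw [Matrix.mul_assoc, hγ, ← Matrix.mul_assoc, hδ, Matrix.mul_assoc]

theorem disc_sub_neg (htn : t ^ 2 < 4 * (n : ℤ)) : t ^ 2 - 4 * (n : ℤ) < 0 := by linarith

variable (htn : t ^ 2 < 4 * (n : ℤ))

include htn in
theorem corr_total (x : OrdTN t (n : ℤ)) : ∃ M d, Corr x M d := by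
  obtain ⟨a, k, t₀, n₀, ω, hk, h01, hω, hx, ht, hn⟩ :=
    exists_decomp x.2.1 x.2.2.1 x.2.2.2 (disc_sub_neg htn).ne
  have hD₀ : t₀ ^ 2 - 4 * n₀ < 0 := by
    have := disc_sub_neg htn
    rw [ht, hn] at this
    nlinarith [sq_nonneg k]
  obtain ⟨x₀, hx₀, hb⟩ := exists_base ⟨ω, hω⟩
  obtain ⟨M₀, d, hm, htM, hnM⟩ := matches_total (x := ω) hD₀ hx₀
  have hp := matches_primM hD₀ hω hx₀ htM hnM hm
  obtain ⟨e1, e2⟩ := mlin_trace_det a k htM hnM
  rw [hb] at hm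
  exact ⟨⟨mlin a k M₀, e1.trans ht.symm, e2.trans hn.symm⟩, d, a, k, t₀, n₀, ω, M₀, hk, h01,
    hD₀, hω, hp, htM, hnM, hx, rfl, hm⟩

theorem corr_unique {x : OrdTN t (n : ℤ)} {M M' : MatTN t n} {d d' : ℕ} (h : Corr x M d)
    (h' : Corr x M' d') : Conj M M' ∧ d = d' := by
  obtain ⟨a, k, t₀, n₀, ω, M₀, hk, h01, hD₀, hω, -, -, -, hx, hM, hm⟩ := h
  obtain ⟨a', k', s₀, m₀, ω', M₀', hk', h01', -, hω', -, -, -, hx', hM', hm'⟩ := h'
  obtain ⟨rfl, rfl, e⟩ := decomp_unique hk hk' ω.2.1 ω'.2.1 hω hω' ω.2.2.1 ω'.2.2.1 h01 h01'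
    (hx.symm.trans hx')
  obtain rfl : t₀ = s₀ := Int.cast_injective (α := ℝ) (by rw [← ω.2.2.1, ← ω'.2.2.1, e])
  obtain rfl : n₀ = m₀ := Int.cast_injective (α := ℝ) (by rw [← ω.2.2.2, ← ω'.2.2.2, e])
  obtain rfl : ω = ω' := Subtype.ext e
  obtain ⟨x₀, -, hb⟩ := exists_base ⟨ω, hω⟩
  rw [← hb] at hm hm'
  obtain ⟨⟨g, hg⟩, hd⟩ := matches_unique hD₀ hm hm'
  refine ⟨⟨g, ?_⟩, hd⟩
  rw [hM, hM', mlin, mlin, Matrix.mul_add, Matrix.add_mul, Matrix.mul_smul, Matrix.smul_mul,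
    Matrix.mul_smul, Matrix.smul_mul, hg, Matrix.mul_one, Matrix.one_mul]

theorem Corr.conjM {x : OrdTN t (n : ℤ)} {M M' : MatTN t n} {d : ℕ} (h : Corr x M d)
    (hc : Conj M M') : Corr x M' d := by
  obtain ⟨a, k, t₀, n₀, ω, M₀, hk, h01, hD₀, hω, -, htM, hnM, hx, hM, hm⟩ := h
  obtain ⟨g, hg⟩ := hc
  set h : Mat := ((g⁻¹ : SL(2, ℤ)) : Mat)
  have hhg : h * (g : Mat) = 1 := congrArg Subtype.val (inv_mul_cancel g)
  have hgh : (g : Mat) * h = 1 := congrArg Subtype.val (mul_inv_cancel g)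
  set N : Mat := (g : Mat) * M₀ * h
  have hN : (g : Mat) * M₀ = N * g := by
    simp only [N, Matrix.mul_assoc, hhg, Matrix.mul_one]
  have htN : N.trace = t₀ := by
    rw [trace_mul_cycle, hhg, Matrix.one_mul, htM]
  have hnN : N.det = n₀ := by
    rw [det_mul, det_mul, mul_right_comm, ← det_mul, hgh, det_one, one_mul, hnM]
  obtain ⟨x₀, hx₀, hb⟩ := exists_base ⟨ω, hω⟩
  rw [← hb] at hm
  have hmN := Matches.conjM hN hm
  have hMN : (M' : Mat) = mlin a k N := by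
    have e : (M' : Mat) = (g : Mat) * M * h := by
      rw [hg, Matrix.mul_assoc, hgh, Matrix.mul_one]
    rw [e, hM]
    simp only [mlin, N, Matrix.mul_add, Matrix.add_mul, Matrix.mul_smul, Matrix.smul_mul,
      Matrix.mul_one, hgh]
  exact ⟨a, k, t₀, n₀, ω, N, hk, h01, hD₀, hω, matches_primM hD₀ hω hx₀ htN hnN hmN, htN, hnN,
    hx, hMN, hb ▸ hmN⟩

theorem Corr.conjO {x x' : OrdTN t (n : ℤ)} {M : MatTN t n} {d : ℕ} (h : Corr x M d)
    (hc : ConjO x x') : Corr x' M d := by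
  obtain ⟨a, k, t₀, n₀, ω, M₀, hk, h01, hD₀, hω, hp, htM, hnM, hx, hM, hm⟩ := h
  obtain ⟨γ, hγ⟩ := hc
  set G := ((γ : SL(2, ℝ)) : RMat)
  set G' := (((γ⁻¹ : orderUnits) : SL(2, ℝ)) : RMat)
  have h1 : G' * G = 1 := congrArg Subtype.val (inv_mul_cancel (γ : SL(2, ℝ)))
  have h2 : G * G' = 1 := congrArg Subtype.val (mul_inv_cancel (γ : SL(2, ℝ)))
  set ω' : OrdTN t₀ n₀ := ⟨G * (ω : RMat) * G', mul_mem (mul_mem γ.2 ω.2.1) (γ⁻¹).2,
    by rw [trace_mul_cycle, h1, Matrix.one_mul, ω.2.2.1],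
    by rw [det_mul, det_mul, mul_right_comm, ← det_mul, h2, det_one, one_mul, ω.2.2.2]⟩
  have hωω' : ConjO ω ω' := ⟨γ, by
    show G * (ω : RMat) = G * (ω : RMat) * G' * G
    rw [Matrix.mul_assoc _ G', h1, Matrix.mul_one]⟩
  obtain ⟨x₀, hx₀, hb⟩ := exists_base ⟨ω, hω⟩
  rw [← hb] at hm
  have hm' := Matches.conjO hωω' hm
  have hx' : (x' : RMat) = lin a k ω' := by
    have e : (x' : RMat) = G * (x : RMat) * G' := by
      rw [hγ, Matrix.mul_assoc, h2, Matrix.mul_one]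
    rw [e, hx]
    simp [lin, ω', Matrix.mul_add, Matrix.add_mul, h2]
  exact ⟨a, k, t₀, n₀, ω', M₀, hk, h01, hD₀, prim_of_matches hD₀ hx₀ hp hm', hp, htM, hnM, hx',
    hM, hb ▸ hm'⟩

theorem corr_inj {x x' : OrdTN t (n : ℤ)} {M : MatTN t n} {d : ℕ} (h : Corr x M d)
    (h' : Corr x' M d) : ConjO x x' := by
  obtain ⟨a, k, t₀, n₀, ω, M₀, hk, h01, hD₀, hω, hp, htM, hnM, hx, hM, hm⟩ := h
  obtain ⟨a', k', s₀, m₀, ω', M₀', hk', h01', -, hω', hp', htM', hnM', hx', hM', hm'⟩ := h'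
  obtain ⟨rfl, rfl, rfl⟩ := mdecomp_unique hk hk' hp hp' htM htM' h01 h01' (hM.symm.trans hM')
  obtain rfl := htM.symm.trans htM'
  obtain rfl := hnM.symm.trans hnM'
  obtain ⟨x₀, hx₀, hb⟩ := exists_base ⟨ω, hω⟩
  rw [← hb] at hm hm'
  obtain ⟨γ, hγ⟩ := conjO_of_matches hD₀ hω hω' hx₀ htM hnM hm hm'
  refine ⟨γ, ?_⟩
  rw [hx, hx', lin, lin, Matrix.mul_add, Matrix.add_mul, Matrix.mul_smul, Matrix.smul_mul,
    Matrix.mul_smul, Matrix.smul_mul, hγ, Matrix.mul_one, Matrix.one_mul]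

/-- The contents over a matrix. -/
def CorrSet (M : MatTN t n) : Set ℕ := {d | ∃ x : OrdTN t (n : ℤ), Corr x M d}

include htn in
theorem ncard_corrSet (M : MatTN t n) :
    (CorrSet M).Finite ∧ (CorrSet M).ncard = formEps (formOf (M : Mat)) := by
  classical
  obtain ⟨a, k, t₀, n₀, M₀, hk, h01, hp, htM, hnM, hM, hD₀⟩ :=
    exists_mdecomp M.2.1 M.2.2 (disc_sub_neg htn)
  have hset : CorrSet M = ↑(contents t₀ n₀) := by
    ext d
    constructor
    · rintro ⟨x, a', k', s₀, m₀, ω, M₀', hk', h01', hD', hω, hp', htM', hnM', -, hM', hm⟩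
      obtain ⟨rfl, rfl, rfl⟩ :=
        mdecomp_unique hk hk' hp hp' htM htM' h01 h01' (hM.symm.trans hM')
      obtain rfl := htM.symm.trans htM'
      obtain rfl := hnM.symm.trans hnM'
      obtain ⟨x₀, hx₀, hb⟩ := exists_base ⟨ω, hω⟩
      rw [← hb] at hm
      exact matches_contents hD₀ hx₀ hm
    · intro hd
      have hadm : Adm t₀ n₀ 2 ∧ Adm t₀ n₀ 3 := by
        by_contra hne
        simp [contents, hne] at hd
      obtain ⟨x₀, hx₀, hb⟩ := exists_base (exists_prim hD₀ hadm.1 hadm.2)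
      obtain ⟨ω, hω, hm⟩ := exists_matches_content hD₀ hx₀ htM hnM hp (Finset.mem_coe.1 hd)
      obtain ⟨e1, e2⟩ := mlin_trace_det a k htM hnM
      rw [← hM, M.2.1] at e1
      rw [← hM, M.2.2] at e2
      refine ⟨⟨lin a k (ω : RMat), lin_mem ω.2.1 a k, ?_, ?_⟩, a, k, t₀, n₀, ω, M₀, hk, h01,
        hD₀, hω, hp, htM, hnM, rfl, hM, hb ▸ hm⟩
      · rw [trace_lin ω.2.2.1, e1]
        push_cast
        ring
      · rw [det_lin ω.2.2.1 ω.2.2.2, e2]
        push_cast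
        ring
  rw [hset]
  refine ⟨Finset.finite_toSet _, ?_⟩
  rw [Set.ncard_coe_finset, card_contents, formEps, hM, formOf_mlin, formContent_smul hk, hp,
    Nat.cast_one, mul_one, FA.ClassRelation.disc_smulForm,
    Int.mul_ediv_cancel_left _ (pow_ne_zero 2 hk.ne'), disc_formOf, htM, hnM]

theorem card_lin_cent {s m : ℤ} {ω : RMat} (hω : ω ∈ order) (hp : Prim ω)
    (ht : ω.trace = (s : ℝ)) (hn : ω.det = (m : ℝ)) (hD : s ^ 2 - 4 * m < 0) {a k : ℤ}
    (hk : 0 < k) :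
    Nat.card (centO (lin a k ω)) =
      Nat.card {p : ℤ × ℤ // p.1 ^ 2 + s * p.1 * p.2 + m * p.2 ^ 2 = 1} := by
  have hcomm : ∀ w : RMat, w * lin a k ω = lin a k ω * w ↔ w * ω = ω * w := fun w => by
    simp only [lin, Matrix.mul_add, Matrix.add_mul, Matrix.mul_smul, Matrix.smul_mul,
      Matrix.mul_one, Matrix.one_mul, add_right_inj]
    exact ⟨fun h => smul_right_injective _ (Int.cast_ne_zero.2 hk.ne') h, fun h => by rw [h]⟩
  symm
  refine Nat.card_eq_of_bijective (fun p => ⟨⟨⟨lin p.1.1 p.1.2 ω,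
    by rw [det_lin ht hn, p.2, Int.cast_one]⟩, lin_mem hω _ _⟩,
    (hcomm _).2 (by simp [lin, Matrix.add_mul, Matrix.mul_add])⟩) ⟨fun p q h => ?_, fun γ => ?_⟩
  · have e := congrArg (fun γ : centO (lin a k ω) => (((γ : orderUnits) : SL(2, ℝ)) : RMat)) h
    obtain ⟨h1, h2⟩ := lin_injective ht hn hD.ne e
    exact Subtype.ext (Prod.ext h1 h2)
  · obtain ⟨A, B, e⟩ := exists_lin ht hn hω hp
      (w := (((γ : orderUnits) : SL(2, ℝ)) : RMat)) (γ : orderUnits).2 ((hcomm _).1 γ.2) hD.ne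
    have hd : A ^ 2 + s * A * B + m * B ^ 2 = 1 := Int.cast_injective (α := ℝ) (by
      rw [← det_lin ht hn, ← e, Int.cast_one]
      exact ((γ : orderUnits) : SL(2, ℝ)).prop)
    exact ⟨⟨(A, B), hd⟩, Subtype.ext (Subtype.ext (Subtype.ext e.symm))⟩

theorem card_mlin_cent {s m : ℤ} {M₀ : Mat} (hp : PrimM M₀) (ht : M₀.trace = s)
    (hn : M₀.det = m) (hD : s ^ 2 - 4 * m < 0) {a k : ℤ} (hk : 0 < k) :
    Nat.card (cent (mlin a k M₀)) =
      Nat.card {p : ℤ × ℤ // p.1 ^ 2 + s * p.1 * p.2 + m * p.2 ^ 2 = 1} := by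
  have hc := corner_ne ht hn hD
  rw [trace_fin_two] at ht
  rw [det_fin_two] at hn
  have hdet : ∀ A B : ℤ, (mlin A B M₀).det = A ^ 2 + s * A * B + m * B ^ 2 := fun A B => by
    subst ht hn
    simp [mlin_apply, det_fin_two]
    ring
  have hcomm : ∀ w : Mat, w * mlin a k M₀ = mlin a k M₀ * w ↔ w * M₀ = M₀ * w := fun w => by
    simp only [mlin, Matrix.mul_add, Matrix.add_mul, Matrix.mul_smul, Matrix.smul_mul,
      Matrix.mul_one, Matrix.one_mul, add_right_inj]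
    exact ⟨fun h => smul_right_injective _ hk.ne' h, fun h => by rw [h]⟩
  symm
  refine Nat.card_eq_of_bijective (fun p => ⟨⟨mlin p.1.1 p.1.2 M₀, by rw [hdet, p.2]⟩,
    (hcomm _).2 (by simp only [mlin, Matrix.add_mul, Matrix.mul_add, Matrix.mul_smul,
      Matrix.smul_mul, Matrix.mul_one, Matrix.one_mul])⟩) ⟨fun p q h => ?_, fun γ => ?_⟩
  · have e := congrArg (fun γ : cent (mlin a k M₀) => ((γ : SL(2, ℤ)) : Mat)) h
    have e10 := congrFun (congrFun e 1) 0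
    have e00 := congrFun (congrFun e 0) 0
    simp [mlin_apply] at e10 e00
    have hB := e10.resolve_right hc
    rw [hB] at e00
    exact Subtype.ext (Prod.ext (by linarith) hB)
  · set w : Mat := ((γ : SL(2, ℤ)) : Mat)
    have hw : w * M₀ = M₀ * w := (hcomm _).1 γ.2
    have e10 := congrFun (congrFun hw 1) 0
    have e00 := congrFun (congrFun hw 0) 0
    simp [Matrix.mul_apply, Fin.sum_univ_two] at e10 e00
    obtain ⟨u, v, huv⟩ : ∃ u v, u * M₀ 1 0 + v * (M₀ 1 1 - M₀ 0 0) + (Int.gcdB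
        (Int.gcd (M₀ 1 0) (M₀ 1 1 - M₀ 0 0)) (-(M₀ 0 1))) * (-(M₀ 0 1)) = 1 := by
      have g1 := Int.gcd_eq_gcd_ab (M₀ 1 0) (M₀ 1 1 - M₀ 0 0)
      have g2 := Int.gcd_eq_gcd_ab (Int.gcd (M₀ 1 0) (M₀ 1 1 - M₀ 0 0)) (-(M₀ 0 1))
      have hp' : Int.gcd (Int.gcd (M₀ 1 0) (M₀ 1 1 - M₀ 0 0)) (-(M₀ 0 1)) = 1 := hp
      rw [hp', Nat.cast_one] at g2
      refine ⟨Int.gcdA (M₀ 1 0) (M₀ 1 1 - M₀ 0 0) *
        Int.gcdA (Int.gcd (M₀ 1 0) (M₀ 1 1 - M₀ 0 0)) (-(M₀ 0 1)),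
        Int.gcdB (M₀ 1 0) (M₀ 1 1 - M₀ 0 0) *
        Int.gcdA (Int.gcd (M₀ 1 0) (M₀ 1 1 - M₀ 0 0)) (-(M₀ 0 1)), ?_⟩
      linear_combination
        -g2 - (Int.gcdA (Int.gcd (M₀ 1 0) (M₀ 1 1 - M₀ 0 0)) (-(M₀ 0 1))) * g1
    set r := Int.gcdB (Int.gcd (M₀ 1 0) (M₀ 1 1 - M₀ 0 0)) (-(M₀ 0 1))
    set B := u * w 1 0 + v * (w 1 1 - w 0 0) + r * (-(w 0 1)) with hBdef
    have hB1 : w 1 0 = B * M₀ 1 0 := by
      rw [hBdef]
      linear_combination (-(w 1 0)) * huv - v * e10 + r * e00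
    have hB2 : w 1 1 - w 0 0 = B * (M₀ 1 1 - M₀ 0 0) :=
      mul_left_cancel₀ hc (by linear_combination e10 + (M₀ 1 1 - M₀ 0 0) * hB1)
    have hB3 : w 0 1 = B * M₀ 0 1 :=
      mul_left_cancel₀ hc (by linear_combination e00 + M₀ 0 1 * hB1)
    have e : mlin (w 0 0 - B * M₀ 0 0) B M₀ = w := by
      ext i j
      fin_cases i <;> fin_cases j <;> simp [mlin_apply] <;> linarith
    refine ⟨⟨(w 0 0 - B * M₀ 0 0, B), ?_⟩, Subtype.ext (Subtype.ext e)⟩
    rw [← hdet, e]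
    exact (γ : SL(2, ℤ)).prop

theorem Corr.card_cent {x : OrdTN t (n : ℤ)} {M : MatTN t n} {d : ℕ} (h : Corr x M d) :
    Nat.card (centO (x : RMat)) = Nat.card (cent (M : Mat)) := by
  obtain ⟨a, k, t₀, n₀, ω, M₀, hk, -, hD₀, hω, hp, htM, hnM, hx, hM, -⟩ := h
  rw [hx, hM, card_lin_cent ω.2.1 hω ω.2.2.1 ω.2.2.2 hD₀ hk,
    card_mlin_cent hp htM hnM hD₀ hk]

/-- The classes of elements. -/
abbrev ClassesO (t n : ℤ) : Type := Quot (ConjO (t := t) (n := n))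

theorem cent_out (x : OrdTN t (n : ℤ)) :
    ConjO x (Quot.mk ConjO x : ClassesO t (n : ℤ)).out :=
  (conjO_equivalence _ _).symm ((conjO_equivalence _ _).eqvGen_iff.1
    (Quot.eqvGen_exact (Quot.out_eq (Quot.mk ConjO x))))

include htn in
/-- **The bijection of classes.** -/
theorem exists_classes_bijection :
    ∃ Φ : (Σ c : Quot (Conj (t := t) (n := n)), CorrSet c.out) → ClassesO t (n : ℤ),
      Function.Bijective Φ ∧ ∀ p, Corr (Φ p).out p.1.out p.2 := by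
  classical
  let Φ : (Σ c : Quot (Conj (t := t) (n := n)), CorrSet c.out) → ClassesO t (n : ℤ) :=
    fun p => Quot.mk _ p.2.2.choose
  have hΦ : Function.Bijective Φ := by
    constructor
    · rintro ⟨c, d, hd⟩ ⟨c', d', hd'⟩ h
      have h1 := hd.choose_spec
      have h2 := hd'.choose_spec
      have hc : ConjO hd.choose hd'.choose :=
        (conjO_equivalence _ _).eqvGen_iff.1 (Quot.eqvGen_exact h)
      obtain ⟨hM, rfl⟩ := corr_unique (h1.conjO hc) h2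
      obtain rfl : c = c' := by
        rw [← Quot.out_eq c, ← Quot.out_eq c']
        exact Quot.sound hM
      rfl
    · intro c
      induction c using Quot.ind with
      | _ x =>
        obtain ⟨M, d, h⟩ := corr_total htn x
        set c := Quot.mk (Conj (t := t) (n := n)) M
        have hMc : Conj M c.out := (conj_equivalence t n).symm
          ((conj_equivalence t n).eqvGen_iff.1 (Quot.eqvGen_exact (Quot.out_eq c)))
        refine ⟨⟨c, d, x, h.conjM hMc⟩, Quot.sound ?_⟩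
        exact corr_inj (Exists.choose_spec (⟨x, h.conjM hMc⟩ : d ∈ CorrSet c.out))
          (h.conjM hMc)
  exact ⟨Φ, hΦ, fun p => p.2.2.choose_spec.conjO (cent_out _)⟩

include htn in
/-- **The mass formula.** -/
theorem mass_classes :
    Finite (ClassesO t (n : ℤ)) ∧ ∑ᶠ c : ClassesO t (n : ℤ),
      (1 : ℚ) / Nat.card (centO (c.out : RMat)) =
        quatClassNumber (4 * (n : ℤ) - t ^ 2).toNat := by
  classical
  haveI : Fintype (Quot (Conj (t := t) (n := n))) := Fintype.ofBijective _ (bijective_rep htn)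
  haveI : ∀ c : Quot (Conj (t := t) (n := n)), Fintype (CorrSet c.out) :=
    fun c => (ncard_corrSet htn c.out).1.fintype
  obtain ⟨Φ, hΦ, hcorr⟩ := exists_classes_bijection htn
  haveI : Fintype (ClassesO t (n : ℤ)) := Fintype.ofBijective Φ hΦ
  refine ⟨Finite.of_fintype _, ?_⟩
  rw [finsum_eq_sum_of_fintype, ← Fintype.sum_bijective Φ hΦ
    (fun p => (1 : ℚ) / Nat.card (cent (p.1.out : Mat))) _ fun p => ?_, Fintype.sum_sigma]
  swap
  · rw [← (hcorr p).card_cent]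
  simp only [Finset.sum_const, Finset.card_univ, ← Nat.card_eq_fintype_card, Nat.card_coe_set_eq]
  rw [← Fintype.sum_bijective _ (bijective_rep htn)
    (fun q => (formEps q.1.1 : ℚ) * (weight q.1.1 / 2)) _ fun q => ?_, Fintype.sum_prod_type]
  · simp only [Fintype.sum_bool]
    rw [Finset.sum_add_distrib, Finset.sum_coe_sort (redForms _)
      (fun f => (formEps f : ℚ) * (weight f / 2)), ← Finset.sum_add_distrib, quatClassNumber]
    exact Finset.sum_congr rfl fun f _ => by ring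
  · set c := Quot.mk (Conj (t := t) (n := n)) (rep htn q)
    have hc : Conj (rep htn q) c.out := (conj_equivalence t n).symm
      ((conj_equivalence t n).eqvGen_iff.1 (Quot.eqvGen_exact (Quot.out_eq c)))
    have hsets : CorrSet (rep htn q) = CorrSet c.out := Set.ext fun d =>
      ⟨fun ⟨x, h⟩ => ⟨x, h.conjM hc⟩,
        fun ⟨x, h⟩ => ⟨x, h.conjM ((conj_equivalence t n).symm hc)⟩⟩
    have hsgn : formEps (FA.ClassRelation.smulForm (if q.2 then 1 else -1) q.1.1) =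
        formEps q.1.1 := by
      cases q.2
      · exact formEps_neg _
      · simp [FA.ClassRelation.smulForm]
    rw [← hsets, (ncard_corrSet htn _).2, formOf_rep, hsgn, nsmul_eq_mul,
      ← Nat.card_coe_set_eq, ← cent_conj hc, ← two_div_cent htn q]
    ring

end FA.QuaternionClasses

end
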