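import Fermat.Agent.QuaternionClasses.Mass

/-!
# The classes of primitive elements

An element is primitive exactly if the matrices corresponding to it are; so the classes of
primitive elements of trace `t` and norm `n` under the units of norm one are the factor of
`t ^ 2 - 4 n` times the classes of primitive matrices, two for each primitive reduced form.
-/

set_option autoImplicit false
set_option linter.unusedSectionVars false
set_option linter.style.haveILetI false

noncomputable section

open Matrix
open scoped MatrixGroups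
open FA.Horocycle FA.QuaternionHecke FA.MatrixClasses
open FA.ClassRelation (Mat redForms smulForm)

namespace FA.QuaternionClasses

variable {t : ℤ} {n : ℕ}

theorem prim_lin_iff {ω : RMat} (hω : ω ∈ order) (hp : Prim ω) {a k : ℤ} (hk : 0 < k) :
    Prim (lin a k ω) ↔ k = 1 := by
  constructor
  · intro h
    by_contra hne
    obtain ⟨q, hq, hd⟩ := Nat.exists_prime_and_dvd (n := k.natAbs) (by omega)
    obtain ⟨j, hj⟩ := Int.natCast_dvd.2 hd
    refine h q hq a ?_
    have e : (q : ℝ)⁻¹ • (lin a k ω - (a : ℝ) • 1) = (j : ℝ) • ω := by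
      rw [lin, add_sub_cancel_left, smul_smul, hj]
      push_cast
      rw [inv_mul_cancel_left₀ (Nat.cast_ne_zero.2 hq.ne_zero)]
    rw [e]
    exact intCast_smul_mem hω j
  · rintro rfl q hq j
    have e : lin a 1 ω - (j : ℝ) • (1 : RMat) = ω - ((j - a : ℤ) : ℝ) • 1 := by
      rw [lin]
      push_cast
      rw [sub_smul, one_smul]
      abel
    rw [e]
    exact hp q hq _

theorem Corr.prim_iff {x : OrdTN t (n : ℤ)} {M : MatTN t n} {d : ℕ} (h : Corr x M d) :
    Prim (x : RMat) ↔ formContent (formOf (M : Mat)) = 1 := by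
  obtain ⟨a, k, t₀, n₀, ω, M₀, hk, -, -, hω, hp, -, -, hx, hM, -⟩ := h
  have e := formContent_smul hk (formOf M₀)
  rw [hp, Nat.cast_one, mul_one, ← formOf_mlin a, ← hM] at e
  rw [hx, prim_lin_iff ω.2.1 hω hk, ← e, Nat.cast_eq_one]

theorem formContent_neg (f : ℤ × ℤ × ℤ) : formContent (smulForm (-1) f) = formContent f := by
  simp [formContent, smulForm]

theorem formContent_dvd_of_conj (htn : t ^ 2 < 4 * (n : ℤ)) {M M' : MatTN t n} (h : Conj M M') :
    formContent (formOf (M : Mat)) ∣ formContent (formOf (M' : Mat)) := by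
  obtain ⟨g, hg⟩ := h
  obtain ⟨a, k, t₀, n₀, M₀, hk, -, hp, -, -, hM, -⟩ :=
    exists_mdecomp M.2.1 M.2.2 (disc_sub_neg htn)
  set h' : Mat := ((g⁻¹ : SL(2, ℤ)) : Mat)
  have hgh : (g : Mat) * h' = 1 := congrArg Subtype.val (mul_inv_cancel g)
  have hM' : (M' : Mat) = mlin a k ((g : Mat) * M₀ * h') := by
    have e : (M' : Mat) = (g : Mat) * M * h' := by
      rw [hg, Matrix.mul_assoc, hgh, Matrix.mul_one]
    rw [e, hM]
    simp only [mlin, Matrix.mul_add, Matrix.add_mul, Matrix.mul_smul, Matrix.smul_mul,
      Matrix.mul_one, hgh]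
  rw [hM, hM', formOf_mlin, formOf_mlin, ← Int.natCast_dvd_natCast, formContent_smul hk,
    formContent_smul hk, hp, Nat.cast_one, mul_one]
  exact dvd_mul_right _ _

theorem formContent_conj (htn : t ^ 2 < 4 * (n : ℤ)) {M M' : MatTN t n} (h : Conj M M') :
    formContent (formOf (M : Mat)) = formContent (formOf (M' : Mat)) :=
  Nat.dvd_antisymm (formContent_dvd_of_conj htn h)
    (formContent_dvd_of_conj htn ((conj_equivalence t n).symm h))

theorem disc_of_mem {N : ℕ} {f : ℤ × ℤ × ℤ} (hf : f ∈ redForms N) :
    FA.Singular.disc f = -(N : ℤ) :=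
  (FA.ClassRelation.mem_redForms.1 hf).1

/-- **The optimal embeddings.** -/
theorem card_prim_classes (htn : t ^ 2 < 4 * (n : ℤ)) :
    Nat.card {c : ClassesO t (n : ℤ) // Prim (c.out : RMat)} =
      2 * eps (t ^ 2 - 4 * n) *
        ((redForms (4 * (n : ℤ) - t ^ 2).toNat).filter fun f => formContent f = 1).card := by
  classical
  obtain ⟨Φ, hΦ, hcorr⟩ := exists_classes_bijection htn
  let P : Quot (Conj (t := t) (n := n)) → Prop := fun c =>
    formContent (formOf (c.out : Mat)) = 1
  have h1 : Nat.card {c : ClassesO t (n : ℤ) // Prim (c.out : RMat)} =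
      Nat.card (Σ c : Subtype P, CorrSet c.1.out) :=
    (Nat.card_congr (((Equiv.subtypeSigmaEquiv _ P).symm).trans
      ((Equiv.ofBijective Φ hΦ).subtypeEquiv fun p => ((hcorr p).prim_iff).symm))).symm
  haveI : Fintype (Quot (Conj (t := t) (n := n))) := Fintype.ofBijective _ (bijective_rep htn)
  haveI : Fintype (Subtype P) := Subtype.fintype P
  haveI : ∀ c : Subtype P, Finite (CorrSet c.1.out) :=
    fun c => (ncard_corrSet htn c.1.out).1.to_subtype
  rw [h1, Nat.card_sigma]
  have heps : ∀ c : Subtype P, Nat.card (CorrSet c.1.out) = eps (t ^ 2 - 4 * n) := fun c => by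
    rw [Nat.card_coe_set_eq, (ncard_corrSet htn c.1.out).2, formEps, c.2, Nat.cast_one, one_pow,
      Int.ediv_one, disc_formOf, c.1.out.2.1, c.1.out.2.2]
  rw [Finset.sum_congr rfl fun c _ => heps c, Finset.sum_const, smul_eq_mul, Finset.card_univ,
    ← Nat.card_eq_fintype_card]
  have hP : ∀ q, P (Quot.mk (Conj (t := t) (n := n)) (rep htn q)) ↔
      formContent q.1.1 = 1 := fun q => by
    have hc : Conj (rep htn q) (Quot.mk (Conj (t := t) (n := n)) (rep htn q)).out :=
      (conj_equivalence t n).symm ((conj_equivalence t n).eqvGen_iff.1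
        (Quot.eqvGen_exact (Quot.out_eq _)))
    show formContent _ = 1 ↔ _
    rw [← formContent_conj htn hc, formOf_rep]
    cases q.2
    · simp [formContent_neg]
    · simp [smulForm]
  set R := redForms (4 * (n : ℤ) - t ^ 2).toNat
  have hcard : Nat.card (Subtype P) = (R.filter fun f => formContent f = 1).card * 2 := by
    rw [← Nat.card_congr ((Equiv.ofBijective _ (bijective_rep htn)).subtypeEquiv
      fun q => (hP q).symm), ← Nat.card_congr ((Equiv.prodSubtypeFstEquivSubtypeProd
        (p := fun f : R => formContent f.1 = 1) (β := Bool)).symm), Nat.card_prod,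
      Nat.card_congr (Equiv.subtypeSubtypeEquivSubtypeInter (fun f => f ∈ R)
        fun f => formContent f = 1)]
    rw [show Nat.card Bool = 2 by simp, ← Nat.card_eq_finsetCard]
    refine congrArg (· * 2) (Nat.card_congr (Equiv.subtypeEquivRight fun x => ?_))
    simp
  rw [hcard]
  ring

end FA.QuaternionClasses

end
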