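import Fermat.Agent.QuaternionClasses.Elements
import Mathlib.NumberTheory.SumTwoSquares

/-!
# The order modulo a prime not dividing `6`

Modulo such a prime the order is the algebra of two by two matrices; so two primitive elements with
the same trace and norm have an intertwiner of norm prime to `q`, and a primitive element can be
raised to one of conductor multiplied by `q`.
-/

set_option autoImplicit false
set_option linter.unusedSectionVars false
set_option linter.style.haveILetI false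

noncomputable section

open Matrix
open FA.Horocycle FA.QuaternionHecke

namespace FA.QuaternionClasses

section field

variable {F : Type*} [Field F]

/-- The companion matrix. -/
def comp2 (T d : F) : Matrix (Fin 2) (Fin 2) F := !![0, -d; 1, T]

theorem exists_cyclic {X : Matrix (Fin 2) (Fin 2) F}
    (hX : ¬(X 0 1 = 0 ∧ X 1 0 = 0 ∧ X 0 0 = X 1 1)) :
    ∃ P : Matrix (Fin 2) (Fin 2) F, P.det ≠ 0 ∧ X * P = P * comp2 X.trace X.det := by
  obtain ⟨v, w, hvw⟩ : ∃ v w : F,
      v * (X 1 0 * v + X 1 1 * w) - (X 0 0 * v + X 0 1 * w) * w ≠ 0 := by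
    by_contra h
    push Not at h
    have e1 := h 1 0
    have e2 := h 0 1
    have e3 := h 1 1
    simp at e1 e2 e3
    refine hX ⟨e2, e1, ?_⟩
    rw [e1, e2] at e3
    linear_combination -e3
  refine ⟨!![v, X 0 0 * v + X 0 1 * w; w, X 1 0 * v + X 1 1 * w], by
    rwa [det_fin_two_of], ?_⟩
  ext i j
  fin_cases i <;> fin_cases j <;>
    simp [comp2, Matrix.mul_apply, Fin.sum_univ_two, trace_fin_two, det_fin_two] <;> ring

/-- The intertwiners of two conjugate nonscalar matrices. -/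
theorem exists_intertwiner {X X' : Matrix (Fin 2) (Fin 2) F}
    (hX : ¬(X 0 1 = 0 ∧ X 1 0 = 0 ∧ X 0 0 = X 1 1))
    (hX' : ¬(X' 0 1 = 0 ∧ X' 1 0 = 0 ∧ X' 0 0 = X' 1 1))
    (ht : X'.trace = X.trace) (hd : X'.det = X.det) :
    ∃ G : Matrix (Fin 2) (Fin 2) F, G.det ≠ 0 ∧
      ∀ Y, X' * Y = Y * X → ∃ A B : F, Y = G * (A • 1 + B • X) := by
  obtain ⟨P, hP, eP⟩ := exists_cyclic hX
  obtain ⟨P', hP', eP'⟩ := exists_cyclic hX'
  rw [ht, hd] at eP'
  set C := comp2 X.trace X.det with hC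
  refine ⟨P' * adjugate P, by rw [det_mul, det_adjugate]; simp [hP, hP'], fun Y hY => ?_⟩
  set Z := adjugate P' * (Y * P) with hZdef
  have hP'Z : P' * Z = P'.det • (Y * P) := by
    rw [hZdef, ← Matrix.mul_assoc, Matrix.mul_adjugate, Matrix.smul_mul, Matrix.one_mul]
  have h1 : adjugate P' * X' = C * adjugate P' := by
    have e := congrArg (fun M => adjugate P' * M * adjugate P') eP'
    simp only [Matrix.mul_assoc, Matrix.mul_adjugate, Matrix.mul_smul, Matrix.mul_one] at e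
    rw [← Matrix.mul_assoc (adjugate P') P' (C * adjugate P'), Matrix.adjugate_mul,
      Matrix.smul_mul, Matrix.one_mul] at e
    exact smul_right_injective _ hP' e
  have hcomm : Z * C = C * Z := by
    calc Z * C = adjugate P' * (Y * (P * C)) := by simp only [hZdef, Matrix.mul_assoc]
      _ = adjugate P' * (X' * Y * P) := by rw [← eP, hY]; simp only [Matrix.mul_assoc]
      _ = C * Z := by simp only [hZdef, ← Matrix.mul_assoc, h1]
  have hform : Z = Z 0 0 • (1 : Matrix (Fin 2) (Fin 2) F) + Z 1 0 • C := by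
    have e00 := congrFun (congrFun hcomm 0) 0
    have e10 := congrFun (congrFun hcomm 1) 0
    simp [hC, comp2, Matrix.mul_apply, Fin.sum_univ_two] at e00 e10
    ext i j
    fin_cases i <;> fin_cases j <;> simp [hC, comp2]
    · linear_combination e00
    · linear_combination e10
  have hPC : C * adjugate P = adjugate P * X := by
    have e := congrArg (fun M => adjugate P * M * adjugate P) eP
    simp only [Matrix.mul_assoc, Matrix.mul_adjugate, Matrix.mul_smul, Matrix.mul_one] at e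
    rw [← Matrix.mul_assoc (adjugate P) P (C * adjugate P), Matrix.adjugate_mul,
      Matrix.smul_mul, Matrix.one_mul] at e
    exact (smul_right_injective _ hP e).symm
  refine ⟨(P'.det * P.det)⁻¹ * Z 0 0, (P'.det * P.det)⁻¹ * Z 1 0, ?_⟩
  refine smul_right_injective _ (mul_ne_zero hP' hP) ?_
  show (P'.det * P.det) • Y = (P'.det * P.det) • _
  have e : P' * Z * adjugate P = (P'.det * P.det) • Y := by
    rw [hP'Z, Matrix.smul_mul, Matrix.mul_assoc, Matrix.mul_adjugate, Matrix.mul_smul,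
      Matrix.mul_one, smul_smul]
  rw [← e, ← Matrix.mul_smul (P' * adjugate P), smul_add, smul_smul, smul_smul,
    mul_inv_cancel_left₀ (mul_ne_zero hP' hP), mul_inv_cancel_left₀ (mul_ne_zero hP' hP)]
  conv_lhs => rw [hform]
  simp only [Matrix.mul_add, Matrix.add_mul, Matrix.mul_smul, Matrix.smul_mul, Matrix.mul_one,
    Matrix.mul_assoc, hPC]

/-- A singular matrix that does not annihilate `X`. -/
theorem exists_singular {X : Matrix (Fin 2) (Fin 2) F}
    (hX : ¬(X 0 1 = 0 ∧ X 1 0 = 0 ∧ X 0 0 = X 1 1)) :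
    ∃ Z : Matrix (Fin 2) (Fin 2) F, Z.det = 0 ∧ Z * X * adjugate Z ≠ 0 := by
  by_contra h
  push Not at h
  have key : ∀ a b : F, a * (a * X 0 1 + b * X 1 1) - b * (a * X 0 0 + b * X 1 0) = 0 :=
    fun a b => by
    have e := congrFun (congrFun (h !![a, b; 0, 0] (by simp [det_fin_two_of])) 0) 1
    rw [adjugate_fin_two_of] at e
    simp [Matrix.mul_apply, Fin.sum_univ_two, Matrix.vecMul, dotProduct] at e
    linear_combination e
  have e1 := key 1 0
  have e2 := key 0 1
  have e3 := key 1 1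
  simp at e1 e2
  rw [e1, e2] at e3
  exact hX ⟨e1, e2, by linear_combination -e3⟩

end field

section residue

variable (q : ℕ) [hq : Fact q.Prime]

/-- A pair with `a² + b² = 3`. -/
def sqPair : {ab : ZMod q × ZMod q // ab.1 ^ 2 + ab.2 ^ 2 = 3} :=
  ⟨((ZMod.sq_add_sq q 3).choose, (ZMod.sq_add_sq q 3).choose_spec.choose),
    (ZMod.sq_add_sq q 3).choose_spec.choose_spec⟩

/-- The matrix of a quaternion modulo `q`. -/
def quatMod (A B C D : ZMod q) : Matrix (Fin 2) (Fin 2) (ZMod q) :=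
  !![A + (sqPair q).1.1 * C - (sqPair q).1.2 * D, B + (sqPair q).1.2 * C + (sqPair q).1.1 * D;
    -B + (sqPair q).1.2 * C + (sqPair q).1.1 * D, A - (sqPair q).1.1 * C + (sqPair q).1.2 * D]

theorem quatMod_mul (A B C D A' B' C' D' : ZMod q) :
    quatMod q A B C D * quatMod q A' B' C' D' =
      quatMod q (A * A' - B * B' + 3 * C * C' + 3 * D * D')
        (A * B' + B * A' + 3 * C * D' - 3 * D * C') (A * C' + C * A' + B * D' - D * B')
        (A * D' + D * A' + C * B' - B * C') := by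
  have h := (sqPair q).2
  ext i j
  fin_cases i <;> fin_cases j <;> simp [quatMod, Matrix.mul_apply, Fin.sum_univ_two]
  · linear_combination (C * C' + D * D') * h
  · linear_combination (C * D' - D * C') * h
  · linear_combination (-(C * D') + D * C') * h
  · linear_combination (C * C' + D * D') * h

/-- The coordinates modulo `q`. -/
def phiQuad (r : Quad) : Matrix (Fin 2) (Fin 2) (ZMod q) :=
  quatMod q ((r.1 : ZMod q) + r.2.2.2 * 2⁻¹) ((r.2.1 : ZMod q) + r.2.2.2 * 2⁻¹)
    ((r.2.2.1 : ZMod q) + r.2.2.2 * 2⁻¹) ((r.2.2.2 : ZMod q) * 2⁻¹)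

/-- The coordinates of an element. -/
def coordOf (x : RMat) : Quad := Function.invFun hurMat x

/-- Reduction modulo `q`. -/
def redMat (x : RMat) : Matrix (Fin 2) (Fin 2) (ZMod q) := phiQuad q (coordOf x)

theorem redMat_hurMat (r : Quad) : redMat q (hurMat r) = phiQuad q r := by
  rw [redMat, coordOf, Function.leftInverse_invFun hurMat_injective r]

theorem two_ne (h5 : 5 ≤ q) : (2 : ZMod q) ≠ 0 := fun h => by
  have h' : ((2 : ℕ) : ZMod q) = 0 := by exact_mod_cast h
  rw [ZMod.natCast_eq_zero_iff] at h'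
  have := Nat.le_of_dvd (by norm_num) h'
  omega

theorem three_ne (h5 : 5 ≤ q) : (3 : ZMod q) ≠ 0 := fun h => by
  have h' : ((3 : ℕ) : ZMod q) = 0 := by exact_mod_cast h
  rw [ZMod.natCast_eq_zero_iff] at h'
  have := Nat.le_of_dvd (by norm_num) h'
  omega

theorem redMat_mul (h5 : 5 ≤ q) {x y : RMat} (hx : x ∈ order) (hy : y ∈ order) :
    redMat q (x * y) = redMat q x * redMat q y := by
  obtain ⟨r, rfl⟩ := hx
  obtain ⟨s, rfl⟩ := hy
  rw [hurMat_mul, redMat_hurMat, redMat_hurMat, redMat_hurMat, phiQuad, phiQuad, phiQuad,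
    quatMod_mul]
  simp only [hurMul]
  push_cast
  have h2 := mul_inv_cancel₀ (two_ne q h5)
  congr 1 <;> field_simp [two_ne q h5] <;> ring

theorem redMat_add {x y : RMat} (hx : x ∈ order) (hy : y ∈ order) :
    redMat q (x + y) = redMat q x + redMat q y := by
  obtain ⟨r, rfl⟩ := hx
  obtain ⟨s, rfl⟩ := hy
  rw [← hurMat_add, redMat_hurMat, redMat_hurMat, redMat_hurMat]
  ext i j
  fin_cases i <;> fin_cases j <;> simp [phiQuad, quatMod] <;> ring

theorem redMat_smul (k : ℤ) {x : RMat} (hx : x ∈ order) :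
    redMat q ((k : ℝ) • x) = (k : ZMod q) • redMat q x := by
  obtain ⟨r, rfl⟩ := hx
  rw [smul_hurMat, redMat_hurMat, redMat_hurMat]
  ext i j
  fin_cases i <;> fin_cases j <;> simp [phiQuad, quatMod] <;> ring

theorem redMat_one : redMat q (1 : RMat) = 1 := by
  rw [← hurMat_one, redMat_hurMat]
  ext i j
  fin_cases i <;> fin_cases j <;> simp [phiQuad, quatMod]

theorem redMat_det (h5 : 5 ≤ q) {x : RMat} (hx : x ∈ order) {N : ℤ} (hN : x.det = (N : ℝ)) :
    (redMat q x).det = (N : ZMod q) := by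
  obtain ⟨r, rfl⟩ := hx
  rw [det_hurMat, Int.cast_inj] at hN
  rw [← hN, redMat_hurMat]
  have h := (sqPair q).2
  have h2 := mul_inv_cancel₀ (two_ne q h5)
  simp [phiQuad, quatMod, det_fin_two, hurNorm]
  linear_combination (-((r.2.2.1 : ZMod q) + r.2.2.2 * 2⁻¹) ^ 2 -
      ((r.2.2.2 : ZMod q) * 2⁻¹) ^ 2) * h +
    ((r.1 : ZMod q) * r.2.2.2 + r.2.1 * r.2.2.2 - 3 * r.2.2.1 * r.2.2.2 -
      r.2.2.2 ^ 2 * (1 + 2 * 2⁻¹)) * h2

theorem redMat_trace (h5 : 5 ≤ q) {x : RMat} (hx : x ∈ order) {T : ℤ} (hT : x.trace = (T : ℝ)) :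
    (redMat q x).trace = (T : ZMod q) := by
  obtain ⟨r, rfl⟩ := hx
  have : T = 2 * r.1 + r.2.2.2 := Int.cast_injective (α := ℝ) (by
    rw [← hT]; simp [hurMat, realQuat, trace_fin_two]; ring)
  rw [this, redMat_hurMat]
  simp [phiQuad, quatMod, trace_fin_two]
  linear_combination (r.2.2.2 : ZMod q) * mul_inv_cancel₀ (two_ne q h5)

theorem redMat_adjugate (h5 : 5 ≤ q) {x : RMat} (hx : x ∈ order) :
    redMat q (adjugate x) = adjugate (redMat q x) := by
  obtain ⟨r, rfl⟩ := hx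
  rw [adjugate_hurMat, redMat_hurMat, redMat_hurMat]
  have h2 := mul_inv_cancel₀ (two_ne q h5)
  ext i j
  fin_cases i <;> fin_cases j <;> simp [phiQuad, quatMod, hurConj, adjugate_fin_two]
  · linear_combination -(r.2.2.2 : ZMod q) * h2
  · ring
  · ring
  · linear_combination -(r.2.2.2 : ZMod q) * h2

theorem quatMod_zero_iff (h5 : 5 ≤ q) {A B C D : ZMod q} (h : quatMod q A B C D = 0) :
    A = 0 ∧ B = 0 ∧ C = 0 ∧ D = 0 := by
  have e00 := congrFun (congrFun h 0) 0
  have e01 := congrFun (congrFun h 0) 1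
  have e10 := congrFun (congrFun h 1) 0
  have e11 := congrFun (congrFun h 1) 1
  simp [quatMod] at e00 e01 e10 e11
  have h2 := two_ne q h5
  have h3 := three_ne q h5
  have hab := (sqPair q).2
  exact ⟨(mul_eq_zero.1
      (show (2 : ZMod q) * A = 0 by linear_combination e00 + e11)).resolve_left h2,
    (mul_eq_zero.1 (show (2 : ZMod q) * B = 0 by linear_combination e01 - e10)).resolve_left h2,
    (mul_eq_zero.1 (show (2 * 3 : ZMod q) * C = 0 by
      linear_combination (sqPair q).1.1 * (e00 - e11) + (sqPair q).1.2 * (e01 + e10) -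
        2 * C * hab)).resolve_left (mul_ne_zero h2 h3),
    (mul_eq_zero.1 (show (2 * 3 : ZMod q) * D = 0 by
      linear_combination (sqPair q).1.1 * (e01 + e10) - (sqPair q).1.2 * (e00 - e11) -
        2 * D * hab)).resolve_left (mul_ne_zero h2 h3)⟩

theorem redMat_eq_zero_iff (h5 : 5 ≤ q) {x : RMat} (hx : x ∈ order) :
    redMat q x = 0 ↔ (q : ℝ)⁻¹ • x ∈ order := by
  obtain ⟨r, rfl⟩ := hx
  have hcast : ((q : ℤ) : ℝ) = (q : ℝ) := Int.cast_natCast q
  rw [redMat_hurMat, ← hcast, div_mem_order_iff (by exact_mod_cast hq.out.ne_zero)]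
  simp only [← ZMod.intCast_zmod_eq_zero_iff_dvd]
  constructor
  · intro h
    obtain ⟨hA, hB, hC, hD⟩ := quatMod_zero_iff q h5 h
    have h4 : (r.2.2.2 : ZMod q) = 0 :=
      (mul_eq_zero.1 hD).resolve_right (inv_ne_zero (two_ne q h5))
    rw [h4, zero_mul, add_zero] at hA hB hC
    exact ⟨hA, hB, hC, h4⟩
  · rintro ⟨h1, h2, h3, h4⟩
    simp [phiQuad, h1, h2, h3, h4, quatMod]
    ext i j
    fin_cases i <;> fin_cases j <;> rfl

theorem redMat_surjective (h5 : 5 ≤ q) (M : Matrix (Fin 2) (Fin 2) (ZMod q)) :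
    ∃ x ∈ order, redMat q x = M := by
  have h2 := two_ne q h5
  have h3 := three_ne q h5
  have hab := (sqPair q).2
  set a := (sqPair q).1.1
  set b := (sqPair q).1.2
  set A := (M 0 0 + M 1 1) * 2⁻¹
  set B := (M 0 1 - M 1 0) * 2⁻¹
  set C := (a * (M 0 0 - M 1 1) + b * (M 0 1 + M 1 0)) * (2 * 3)⁻¹
  set D := (a * (M 0 1 + M 1 0) - b * (M 0 0 - M 1 1)) * (2 * 3)⁻¹
  refine ⟨hurMat ((A - D).val, (B - D).val, (C - D).val, (2 * D).val), ⟨_, rfl⟩, ?_⟩
  rw [redMat_hurMat, phiQuad]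
  simp only [Int.cast_natCast, ZMod.natCast_zmod_val]
  rw [show 2 * D * 2⁻¹ = D by field_simp, sub_add_cancel, sub_add_cancel, sub_add_cancel]
  ext i j
  fin_cases i <;> fin_cases j <;> simp [quatMod, A, B, C, D] <;> field_simp
  · linear_combination (M 0 0 - M 1 1) * hab
  · linear_combination (M 0 1 + M 1 0) * hab
  · linear_combination (M 0 1 + M 1 0) * hab
  · linear_combination -(M 0 0 - M 1 1) * hab

theorem redMat_not_scalar (h5 : 5 ≤ q) {x : RMat} (hx : x ∈ order) (hp : Prim x) :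
    ¬(redMat q x 0 1 = 0 ∧ redMat q x 1 0 = 0 ∧ redMat q x 0 0 = redMat q x 1 1) := by
  rintro ⟨h01, h10, hd⟩
  refine hp q hq.out ((redMat q x 0 0).val : ℤ) ((redMat_eq_zero_iff q h5
    (sub_mem hx (intCast_smul_mem (one_mem _) _))).1 ?_)
  rw [sub_eq_add_neg, ← neg_smul, ← Int.cast_neg, redMat_add q hx (intCast_smul_mem (one_mem _) _),
    redMat_smul q _ (one_mem _), redMat_one]
  ext i j
  fin_cases i <;> fin_cases j <;> simp [h01, h10, ← hd]

/-- **An intertwiner of norm prime to `q`.** -/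
theorem exists_not_dvd (h5 : 5 ≤ q) {t n : ℤ} {x x₀ : OrdTN t n} (hp : Prim (x : RMat))
    (hp₀ : Prim (x₀ : RMat)) {y₁ y₂ : RMat} (h₁ : y₁ ∈ order) (h₂ : y₂ ∈ order)
    (e₁ : (x : RMat) * y₁ = y₁ * x₀) (e₂ : (x : RMat) * y₂ = y₂ * x₀)
    (hind : ∀ A B : ℤ, (q : ℝ)⁻¹ • ((A : ℝ) • y₁ + (B : ℝ) • y₂) ∈ order →
      (q : ℤ) ∣ A ∧ (q : ℤ) ∣ B) :
    ∃ A B N : ℤ, ((A : ℝ) • y₁ + (B : ℝ) • y₂).det = (N : ℝ) ∧ ¬(q : ℤ) ∣ N := by
  obtain ⟨G, hG, hall⟩ := exists_intertwiner (redMat_not_scalar q h5 x₀.2.1 hp₀)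
    (redMat_not_scalar q h5 x.2.1 hp)
    (by rw [redMat_trace q h5 x.2.1 x.2.2.1, redMat_trace q h5 x₀.2.1 x₀.2.2.1])
    (by rw [redMat_det q h5 x.2.1 x.2.2.2, redMat_det q h5 x₀.2.1 x₀.2.2.2])
  obtain ⟨A₁, B₁, hY₁⟩ := hall (redMat q y₁) (by
    rw [← redMat_mul q h5 x.2.1 h₁, ← redMat_mul q h5 h₁ x₀.2.1, e₁])
  obtain ⟨A₂, B₂, hY₂⟩ := hall (redMat q y₂) (by
    rw [← redMat_mul q h5 x.2.1 h₂, ← redMat_mul q h5 h₂ x₀.2.1, e₂])
  set X₀ := redMat q (x₀ : RMat)
  have hred : ∀ A B : ℤ, redMat q ((A : ℝ) • y₁ + (B : ℝ) • y₂) =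
      G * (((A : ZMod q) * A₁ + (B : ZMod q) * A₂) • 1 +
        ((A : ZMod q) * B₁ + (B : ZMod q) * B₂) • X₀) := fun A B => by
    rw [redMat_add q (intCast_smul_mem h₁ A) (intCast_smul_mem h₂ B), redMat_smul q A h₁,
      redMat_smul q B h₂, hY₁, hY₂]
    simp only [Matrix.mul_add, Matrix.mul_smul, smul_add, smul_smul, add_smul, Matrix.mul_one]
    abel
  have hdet : A₁ * B₂ - A₂ * B₁ ≠ 0 := fun h0 => by
    have kill : ∀ u v : ZMod q, u * A₁ + v * A₂ = 0 → u * B₁ + v * B₂ = 0 → u = 0 ∧ v = 0 :=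
      fun u v hA hB => by
      have hm := hind (u.val : ℤ) (v.val : ℤ) ((redMat_eq_zero_iff q h5
        (add_mem (intCast_smul_mem h₁ _) (intCast_smul_mem h₂ _))).1 (by
          rw [hred]
          simp [hA, hB]))
      simp only [← ZMod.intCast_zmod_eq_zero_iff_dvd, Int.cast_natCast, ZMod.natCast_zmod_val] at hm
      exact hm
    obtain ⟨hA2, hA1⟩ := kill A₂ (-A₁) (by ring) (by linear_combination -h0)
    obtain ⟨hB2, hB1⟩ := kill B₂ (-B₁) (by linear_combination h0) (by ring)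
    exact one_ne_zero (kill 1 0 (by simpa using hA1) (by simpa using hB1)).1
  set u : ZMod q := B₂ / (A₁ * B₂ - A₂ * B₁)
  set v : ZMod q := -B₁ / (A₁ * B₂ - A₂ * B₁)
  obtain ⟨N, hN⟩ := exists_det (add_mem (intCast_smul_mem h₁ (u.val : ℤ))
    (intCast_smul_mem h₂ (v.val : ℤ)))
  refine ⟨u.val, v.val, N, hN, fun hd => hG ?_⟩
  have e := redMat_det q h5 (add_mem (intCast_smul_mem h₁ (u.val : ℤ))
    (intCast_smul_mem h₂ (v.val : ℤ))) hN
  rw [hred] at e
  simp only [Int.cast_natCast, ZMod.natCast_zmod_val] at e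
  rw [show u * A₁ + v * A₂ = 1 by
      simp only [u, v]
      rw [div_mul_eq_mul_div, div_mul_eq_mul_div, ← add_div, div_eq_one_iff_eq hdet]
      ring,
    show u * B₁ + v * B₂ = 0 by simp only [u, v]; ring, one_smul, zero_smul, add_zero,
    Matrix.mul_one, (ZMod.intCast_zmod_eq_zero_iff_dvd N q).2 hd] at e
  exact e

/-- **Raising the conductor by `q`.** -/
theorem exists_raise (h5 : 5 ≤ q) {t n : ℤ} {ω : OrdTN t n} (hp : Prim (ω : RMat)) :
    ∃ x : OrdTN ((q : ℤ) * t) ((q : ℤ) ^ 2 * n), Prim (x : RMat) := by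
  obtain ⟨Z, hZ, hne⟩ := exists_singular (redMat_not_scalar q h5 ω.2.1 hp)
  obtain ⟨z, hz, rfl⟩ := redMat_surjective q h5 Z
  obtain ⟨Nz, hNz⟩ := exists_det hz
  have hdz : (q : ℤ) ∣ Nz := by
    rw [← ZMod.intCast_zmod_eq_zero_iff_dvd, ← redMat_det q h5 hz hNz, hZ]
  obtain ⟨g, a, b, u, v, G, ⟨hg, -, -, hu, hv⟩, ⟨-, hzu, hnv⟩, hGd, hpos, hdvd, -, hG2⟩ :=
    exists_gcd hz (n := (q : ℤ)) (by exact_mod_cast hq.out.pos) hNz
  lift G to ℕ using hpos.le
  have hqG : q ∣ G := by exact_mod_cast hdvd q dvd_rfl hdz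
  norm_cast at hG2
  obtain ⟨i, hi, rfl⟩ := (Nat.dvd_prime_pow hq.out).1 hG2
  interval_cases i
  · exact absurd (Nat.le_of_dvd one_pos (by simpa using hqG)) (by omega)
  swap
  · refine absurd ?_ hne
    push_cast at hGd
    have hv1 : v.det = 1 := by
      have e := congrArg Matrix.det hnv
      rw [det_mul, det_smul, det_one, mul_one, hGd, Fintype.card_fin] at e
      push_cast at e
      exact mul_right_cancel₀ (pow_ne_zero 2 (Nat.cast_ne_zero.2 hq.out.ne_zero))
        (e.symm.trans (one_mul _).symm)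
    have hg' : g = ((q : ℤ) : ℝ) • adjugate v := by
      have e := congrArg (adjugate v * ·) hnv
      simp only [Matrix.mul_smul, Matrix.mul_one, ← Matrix.mul_assoc, Matrix.adjugate_mul, hv1,
        one_smul, Matrix.one_mul] at e
      exact e.symm
    have h0 : redMat q z = 0 := by
      rw [hzu, hg', Matrix.mul_smul, redMat_smul q _ (mul_mem hu (adjugate_mem hv))]
      simp
    simp [h0]
  simp only [pow_one, Int.cast_natCast] at hGd
  set x : RMat := g * ω * adjugate g with hxdef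
  have hx : x ∈ order := mul_mem (mul_mem hg ω.2.1) (adjugate_mem hg)
  have htx : x.trace = (((q : ℤ) * t : ℤ) : ℝ) := by
    rw [hxdef, Matrix.trace_mul_cycle, Matrix.adjugate_mul, Matrix.smul_mul, Matrix.one_mul,
      trace_smul, ω.2.2.1, hGd]
    simp
  have hnx : x.det = (((q : ℤ) ^ 2 * n : ℤ) : ℝ) := by
    rw [hxdef, det_mul, det_mul, det_adjugate, hGd, ω.2.2.2]
    simp
    ring
  refine ⟨⟨x, hx, htx, hnx⟩, fun p hp' k hmem => ?_⟩
  by_cases hpq : p = q
  · subst hpq
    have hk : redMat p x = (k : ZMod p) • 1 := by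
      have h0 := (redMat_eq_zero_iff p h5 (sub_mem hx (intCast_smul_mem (one_mem _) k))).2 hmem
      rw [sub_eq_add_neg, ← neg_smul, ← Int.cast_neg,
        redMat_add p hx (intCast_smul_mem (one_mem _) _), redMat_smul p _ (one_mem _),
        redMat_one, Int.cast_neg, neg_smul] at h0
      exact eq_of_sub_eq_zero (by rwa [sub_eq_add_neg])
    have h2k : (2 : ZMod p) * (k : ZMod p) = 0 := by
      have e := redMat_trace p h5 hx htx
      rw [hk, trace_smul, trace_one, Fintype.card_fin] at e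
      push_cast at e
      rw [ZMod.natCast_self, zero_mul, smul_eq_mul] at e
      linear_combination e
    rw [(mul_eq_zero.1 h2k).resolve_left (two_ne p h5), zero_smul] at hk
    refine hne ?_
    rw [hzu, redMat_mul p h5 hu hg, Matrix.adjugate_mul_distrib]
    calc redMat p u * redMat p g * redMat p (ω : RMat) *
          (adjugate (redMat p g) * adjugate (redMat p u))
        = redMat p u * (redMat p g * redMat p (ω : RMat) * adjugate (redMat p g)) *
          adjugate (redMat p u) := by simp only [Matrix.mul_assoc]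
      _ = 0 := by
        rw [← redMat_adjugate p h5 hg, ← redMat_mul p h5 hg ω.2.1,
          ← redMat_mul p h5 (mul_mem hg ω.2.1) (adjugate_mem hg), ← hxdef, hk]
        simp
  · obtain ⟨c, hc⟩ : ∃ c : ℤ, (p : ℤ) ∣ (q : ℤ) ^ 2 * c - 1 := by
      have hcop : IsCoprime ((p : ℤ)) ((q : ℤ) ^ 2) :=
        (Int.isCoprime_iff_gcd_eq_one.2 (by
          rw [Int.gcd_natCast_natCast]
          exact (Nat.coprime_primes hp' hq.out).2 hpq)).pow_right
      obtain ⟨r, s, hrs⟩ := hcop
      exact ⟨s, -r, by linear_combination hrs⟩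
    obtain ⟨c', hc'⟩ := hc
    refine hp p hp' (k * q * c) ?_
    have hp0 : (p : ℝ) ≠ 0 := Nat.cast_ne_zero.2 hp'.ne_zero
    have e : ((q : ℝ) ^ 2) • ((ω : RMat) - ((k * q * c : ℤ) : ℝ) • 1) =
        adjugate g * (x - (k : ℝ) • 1) * g + (p : ℝ) • ((-(k * q * c') : ℤ) : ℝ) • (1 : RMat) := by
      have hgg : adjugate g * g = (q : ℝ) • 1 := by rw [Matrix.adjugate_mul, hGd]
      have hA : adjugate g * x * g = ((q : ℝ) ^ 2) • (ω : RMat) := by
        rw [hxdef]
        calc adjugate g * (g * (ω : RMat) * adjugate g) * g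
            = adjugate g * g * (ω : RMat) * (adjugate g * g) := by simp only [Matrix.mul_assoc]
          _ = _ := by rw [hgg]; simp [smul_smul, sq]
      have hcR : (q : ℝ) ^ 2 * c - 1 = p * c' := by exact_mod_cast hc'
      rw [Matrix.mul_sub, Matrix.sub_mul, hA, Matrix.mul_smul, Matrix.mul_one, Matrix.smul_mul,
        hgg, smul_sub, smul_smul, smul_smul, smul_smul, sub_add_eq_add_sub,
        sub_eq_sub_iff_add_eq_add, add_assoc, ← add_smul]
      congr 2
      push_cast
      linear_combination (-(k : ℝ) * q) * hcR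
    have h1 : (p : ℝ)⁻¹ • (((q : ℝ) ^ 2) • ((ω : RMat) - ((k * q * c : ℤ) : ℝ) • 1)) ∈ order := by
      rw [e, smul_add, inv_smul_smul₀ hp0, ← Matrix.smul_mul, ← Matrix.mul_smul]
      exact add_mem (mul_mem (mul_mem (adjugate_mem hg) hmem) hg)
        (intCast_smul_mem (one_mem _) _)
    have h2 : (ω : RMat) - ((k * q * c : ℤ) : ℝ) • 1 ∈ order :=
      sub_mem ω.2.1 (intCast_smul_mem (one_mem _) _)
    have h3 := sub_mem (intCast_smul_mem h1 c) (intCast_smul_mem h2 c')
    convert h3 using 1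
    have hcR : (q : ℝ) ^ 2 * c - 1 = p * c' := by exact_mod_cast hc'
    rw [smul_smul, smul_smul, ← sub_smul]
    congr 1
    field_simp
    linear_combination -hcR

end residue

end FA.QuaternionClasses

end
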